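import Fermat.Agent.S58.Statements
import Fermat.Prelude.Def_WeierstrassCurve_ConductorLevel
import Fermat.Prelude.Def_FLTPrelim_ModularRep
import Fermat.Prelude.Def_FLTPrelim_Ramification
import Fermat.Prelude.Def_EllipticCurve_FrobeniusTrace

/-!
# S58: notation and basic definitions
-/

set_option autoImplicit false
open scoped WeierstrassCurve.Affine

namespace Fermat.Agent.S58

/-- the field of algebraic numbers -/
abbrev Qbar : Type := AlgebraicClosure ℚ

/-- the absolute Galois group of `ℚ` -/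
abbrev GQ : Type := Qbar ≃ₐ[ℚ] Qbar

/-- the group of `ℚ̄`-points of (the generic fibre of) an integral Weierstrass equation,
in the form used by the Prelude -/
abbrev Pt (W : WeierstrassCurve ℤ) : Type := ((W.map (Int.castRingHom ℚ))⁄Qbar).Point

/-- The Lucas sequence `V_k (a, b)`: `V_0 = 2`, `V_1 = a`, `V_{k+2} = a V_{k+1} - b V_k`
(`= α^k + β^k` for the roots of `X^2 - a X + b`). -/
def lucasV {R : Type*} [CommRing R] (a b : R) : ℕ → R
  | 0 => 2
  | 1 => a
  | (k + 2) => a * lucasV a b (k + 1) - b * lucasV a b k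

/-- `Vb` (over the residue field of `A`) is the reduction of the Weierstrass equation `V` (which has
coefficients in `A`). -/
structure IsRed {K : Type*} [Field K] (A : ValuationSubring K) (V : WeierstrassCurve K)
    (Vb : WeierstrassCurve (IsLocalRing.ResidueField A)) : Prop where
  a₁ : ∃ a : A, (a : K) = V.a₁ ∧ IsLocalRing.residue A a = Vb.a₁
  a₂ : ∃ a : A, (a : K) = V.a₂ ∧ IsLocalRing.residue A a = Vb.a₂
  a₃ : ∃ a : A, (a : K) = V.a₃ ∧ IsLocalRing.residue A a = Vb.a₃
  a₄ : ∃ a : A, (a : K) = V.a₄ ∧ IsLocalRing.residue A a = Vb.a₄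
  a₆ : ∃ a : A, (a : K) = V.a₆ ∧ IsLocalRing.residue A a = Vb.a₆

end Fermat.Agent.S58
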