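import Mathlib
import Fermat.Agent.S58.Defs
import Fermat.Agent.S29.Cyclo
import Fermat.Agent.Lib.Frobenius

/-!
# S58, section GA2: Frobenius lifts and inertia on roots of unity of order prime to the residue
characteristic.   Owner: helper294.
-/

set_option autoImplicit false

namespace Fermat.Agent.S58

open Fermat.Agent.S05 Fermat.Agent.S29.Cyclo

section Roots

variable {L : Type*} [Field L]

theorem Zeta.not_valuation_sub_one_lt_one (A : ValuationSubring L) {ℓ m : ℕ} (hℓ : ℓ.Prime)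
    (hm : ¬ ℓ ∣ m) (hA : A.LiesOverPrime ℓ) {η : L} (hη : η ^ m = 1) (hη1 : η ≠ 1) :
    ¬ A.valuation (η - 1) < 1 := by
  intro hlt
  have hm0 : m ≠ 0 := by
    rintro rfl
    exact hm (dvd_zero ℓ)
  have hsum : ∑ i ∈ Finset.range m, η ^ i = 0 := by
    have h1 := geom_sum_mul η m
    rw [hη, sub_self] at h1
    exact (mul_eq_zero.mp h1).resolve_right (sub_ne_zero.mpr hη1)
  have hv : A.valuation η = 1 := valuation_eq_one_of_pow_eq_one A hm0 hη
  have hterm : ∀ i : ℕ, A.valuation (η ^ i - 1) < 1 := by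
    intro i
    induction i with
    | zero => simp
    | succ i ih =>
      have : η ^ (i + 1) - 1 = η * (η ^ i - 1) + (η - 1) := by ring
      rw [this]
      apply Valuation.map_add_lt _ _ hlt
      rw [map_mul, hv, one_mul]
      exact ih
  have hpsum : (m : L) = - ∑ i ∈ Finset.range m, (η ^ i - 1) := by
    rw [Finset.sum_sub_distrib, hsum]
    simp
  have hlt' : A.valuation (m : L) < 1 := by
    rw [hpsum, Valuation.map_neg]
    exact Valuation.map_sum_lt _ one_ne_zero (fun i _ => hterm i)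
  have hnd : ¬ (ℓ : ℤ) ∣ (m : ℤ) := fun h => hm (Int.natCast_dvd_natCast.mp h)
  have := valuation_intCast_eq_one A hℓ hA hnd
  rw [Int.cast_natCast] at this
  exact absurd this hlt'.ne

theorem Zeta.eq_of_valuation_sub_lt_one (A : ValuationSubring L) {ℓ m : ℕ} (hℓ : ℓ.Prime)
    (hm : ¬ ℓ ∣ m) (hA : A.LiesOverPrime ℓ) {x y : L} (hx : x ^ m = 1)
    (hy : y ^ m = 1) (h : A.valuation (x - y) < 1) : x = y := by
  have hm0 : m ≠ 0 := by
    rintro rfl
    exact hm (dvd_zero ℓ)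
  by_contra hxy
  have hy0 : y ≠ 0 := by
    rintro rfl
    rw [zero_pow hm0] at hy
    exact zero_ne_one hy
  have h1 : (x / y) ^ m = 1 := by rw [div_pow, hx, hy, div_one]
  have h2 : x / y ≠ 1 := by
    intro h3
    exact hxy ((div_eq_one_iff_eq hy0).mp h3)
  apply Zeta.not_valuation_sub_one_lt_one A hℓ hm hA h1 h2
  have h3 : x / y - 1 = (x - y) / y := by field_simp
  rw [h3, map_div₀, valuation_eq_one_of_pow_eq_one A hm0 hy, div_one]
  exact h

end Roots

theorem frob_zeta {ℓ : ℕ} (hℓ : ℓ.Prime) (A : ValuationSubring Qbar) (hA : A.LiesOverPrime ℓ)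
    (φ : GQ) (hφ : A.IsFrobeniusAt φ ℓ) {m : ℕ} (hm : ¬ ℓ ∣ m) (ζ : Qbar) (hζ : ζ ^ m = 1) :
    φ ζ = ζ ^ ℓ := by
  have hm0 : m ≠ 0 := by
    rintro rfl
    exact hm (dvd_zero ℓ)
  apply Zeta.eq_of_valuation_sub_lt_one A hℓ hm hA
  · rw [← map_pow, hζ, map_one]
  · rw [← pow_mul, mul_comm, pow_mul, hζ, one_pow]
  · exact frob_valuation_sub_lt_one A hφ (valuation_eq_one_of_pow_eq_one A hm0 hζ).le

theorem inertia_zeta {q : ℕ} (hq : q.Prime) (A : ValuationSubring Qbar) (hA : A.LiesOverPrime q)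
    (σ : GQ) (hσ : σ ∈ A.inertiaSubgroupIn ℚ) {m : ℕ} (hm : ¬ q ∣ m) (ζ : Qbar)
    (hζ : ζ ^ m = 1) : σ ζ = ζ := by
  have hm0 : m ≠ 0 := by
    rintro rfl
    exact hm (dvd_zero q)
  apply Zeta.eq_of_valuation_sub_lt_one A hq hm hA
  · rw [← map_pow, hζ, map_one]
  · exact hζ
  · exact inertia_valuation_sub_lt_one A hσ (valuation_eq_one_of_pow_eq_one A hm0 hζ).le

theorem exists_primitiveRoot (m : ℕ) (hm : 0 < m) : ∃ ζ : Qbar, IsPrimitiveRoot ζ m := by
  have : NeZero m := ⟨hm.ne'⟩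
  have : NeZero (m : Qbar) := ⟨Nat.cast_ne_zero.mpr hm.ne'⟩
  exact HasEnoughRootsOfUnity.exists_primitiveRoot Qbar m

theorem exists_place (q : ℕ) (hq : q.Prime) :
    ∃ (A : ValuationSubring Qbar) (φ : GQ), A.LiesOverPrime q ∧ A.IsFrobeniusAt φ q :=
  Fermat.Agent.Lib.Frobenius.exists_liesOverPrime_isFrobeniusAt q hq

end Fermat.Agent.S58
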