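import Mathlib
import Fermat.Agent.S58.Defs
import Fermat.Prelude.Def_GaloisRep_ComplexConjugation

/-!
# S58 / GA2b: involutions of `ℚ̄` invert roots of unity of odd prime order
(Artin-Schreier by hand.)
-/

set_option autoImplicit false

namespace Fermat.Agent.S58

section general

variable {K : Type*} [Field K] [IsAlgClosed K] [CharZero K] (c : K →+* K)

/-- a nontrivial involution moves the square roots of `-1` -/
private theorem involution_map_I (hcc : ∀ x, c (c x) = x) {a : K} (ha : c a ≠ a) {i : K}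
    (hi : i ^ 2 = -1) : c i ≠ i := by
  intro hci
  set e := a - c a with he
  have he0 : e ≠ 0 := fun h => ha (sub_eq_zero.1 h).symm
  have hce : c e = -e := by rw [he, map_sub, hcc]; ring
  obtain ⟨w, hw⟩ := IsAlgClosed.exists_pow_nat_eq e (n := 2) (by norm_num)
  set n := w * c w with hn
  have hcn : c n = n := by rw [hn, map_mul, hcc, mul_comm]
  have hn2 : n ^ 2 = -e ^ 2 := by
    have : n ^ 2 = w ^ 2 * c (w ^ 2) := by rw [hn, map_pow]; ring
    rw [this, hw, hce]; ring
  have h1 : e ^ 2 = (i * n) ^ 2 := by rw [mul_pow, hi, hn2]; ring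
  have hcin : c (i * n) = i * n := by rw [map_mul, hci, hcn]
  have hfix : c e = e := by
    rcases sq_eq_sq_iff_eq_or_eq_neg.1 h1 with h | h
    · rw [h, hcin]
    · rw [h, map_neg, hcin]
  rw [hce] at hfix
  have h2 : (2 : K) * e = 0 := by linear_combination -hfix
  rcases mul_eq_zero.1 h2 with h | h
  · exact two_ne_zero h
  · exact he0 h

private theorem involution_map_I_eq (hcc : ∀ x, c (c x) = x) {a : K} (ha : c a ≠ a) {i : K}
    (hi : i ^ 2 = -1) : c i = -i := by
  have h1 : (c i) ^ 2 = i ^ 2 := by rw [← map_pow, hi, map_neg, map_one]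
  rcases sq_eq_sq_iff_eq_or_eq_neg.1 h1 with h | h
  · exact absurd h (involution_map_I c hcc ha hi)
  · exact h

/-- a sum of two squares of fixed elements is the square of a fixed element -/
private theorem involution_sq_add_sq (hcc : ∀ x, c (c x) = x) {a : K} (ha : c a ≠ a) {x y : K}
    (hx : c x = x) (hy : c y = y) : ∃ r, c r = r ∧ x ^ 2 + y ^ 2 = r ^ 2 := by
  obtain ⟨i, hi⟩ := IsAlgClosed.exists_pow_nat_eq (-1 : K) (n := 2) (by norm_num)
  have hci := involution_map_I_eq c hcc ha hi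
  obtain ⟨z, hz⟩ := IsAlgClosed.exists_pow_nat_eq (x + y * i) (n := 2) (by norm_num)
  refine ⟨z * c z, by rw [map_mul, hcc, mul_comm], ?_⟩
  have : (z * c z) ^ 2 = z ^ 2 * c (z ^ 2) := by rw [map_pow]; ring
  rw [this, hz, map_add, map_mul, hx, hy, hci]
  linear_combination (y ^ 2) * hi

/-- a finite sum of squares of fixed elements is the square of a fixed element -/
private theorem involution_sum_sq (hcc : ∀ x, c (c x) = x) {a : K} (ha : c a ≠ a) (f : ℕ → K)
    (hf : ∀ k, c (f k) = f k) (n : ℕ) :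
    ∃ r, c r = r ∧ ∑ k ∈ Finset.range n, f k ^ 2 = r ^ 2 := by
  induction n with
  | zero => exact ⟨0, map_zero c, by simp⟩
  | succ n ih =>
    obtain ⟨r, hr, hs⟩ := ih
    obtain ⟨r', hr', hs'⟩ := involution_sq_add_sq c hcc ha hr (hf n)
    exact ⟨r', hr', by rw [Finset.sum_range_succ, hs, hs']⟩

/-- A nontrivial involution of an algebraically closed field of characteristic zero inverts the
roots of unity of odd order. -/
private theorem involution_zeta_aux (hcc : ∀ x, c (c x) = x) {a : K} (ha : c a ≠ a) (q : ℕ)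
    (ζ : K) (hζ : ζ ^ (2 * q + 1) = 1) : c ζ = ζ⁻¹ := by
  set ξ := ζ * c ζ with hξ
  have hcξ : c ξ = ξ := by rw [hξ, map_mul, hcc, mul_comm]
  have hξp : ξ ^ (2 * q + 1) = 1 := by rw [hξ, mul_pow, ← map_pow, hζ, map_one, one_mul]
  suffices h : ξ = 1 from eq_inv_of_mul_eq_one_right h
  by_contra hne
  have hsum : ∑ k ∈ Finset.range (2 * q + 1), ξ ^ k = 0 := by
    have h1 := mul_geom_sum ξ (2 * q + 1)
    rw [hξp, sub_self] at h1
    rcases mul_eq_zero.1 h1 with h | h
    · exact absurd (sub_eq_zero.1 h) hne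
    · exact h
  set η := ξ ^ (q + 1) with hη
  have hcη : c η = η := by rw [hη, map_pow, hcξ]
  have hη2 : η ^ 2 = ξ := by
    rw [hη, ← pow_mul]
    have : (q + 1) * 2 = (2 * q + 1) + 1 := by ring
    rw [this, pow_succ, hξp, one_mul]
  obtain ⟨r, hr, hs⟩ := involution_sum_sq c hcc ha (fun k => η ^ (k + 1))
    (fun k => by rw [map_pow, hcη]) (2 * q)
  have h2 : ∑ k ∈ Finset.range (2 * q), (η ^ (k + 1)) ^ 2 = -1 := by
    rw [Finset.sum_range_succ'] at hsum
    have h3 : ∀ k, (η ^ (k + 1)) ^ 2 = ξ ^ (k + 1) := fun k => by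
      rw [← pow_mul, mul_comm, pow_mul, hη2]
    simp only [h3]
    linear_combination hsum
  exact involution_map_I c hcc ha (hs.symm.trans h2) hr

end general

theorem involution_zeta (c : GQ) (hc : c * c = 1) (hc1 : c ≠ 1) {p : ℕ} (hp : p.Prime)
    (hp2 : p ≠ 2) (ζ : Qbar) (hζ : ζ ^ p = 1) : c ζ = ζ⁻¹ := by
  have hcc : ∀ x, (c : Qbar →+* Qbar) ((c : Qbar →+* Qbar) x) = x := fun x =>
    DFunLike.congr_fun hc x
  obtain ⟨a, ha⟩ : ∃ a, c a ≠ a := by
    by_contra h
    push Not at h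
    exact hc1 (AlgEquiv.ext h)
  obtain ⟨q, hq⟩ := hp.odd_of_ne_two hp2
  exact involution_zeta_aux (c : Qbar →+* Qbar) hcc (a := a) ha q ζ (hq ▸ hζ)

theorem exists_involution : ∃ c : GQ, c * c = 1 ∧ c ≠ 1 := by
  refine ⟨complexConjugation, complexConjugation_mul_self, fun h => ?_⟩
  obtain ⟨i, hi⟩ := IsAlgClosed.exists_pow_nat_eq (-1 : Qbar) (n := 2) (by norm_num)
  have h1 := complexEmbedding_complexConjugation i
  rw [h] at h1
  obtain ⟨r, hr⟩ := Complex.conj_eq_iff_real.1 h1.symm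
  have h2 : (complexEmbedding i) ^ 2 = -1 := by rw [← map_pow, hi, map_neg, map_one]
  rw [hr] at h2
  have h3 : r ^ 2 = -1 := by exact_mod_cast h2
  nlinarith [sq_nonneg r]

end Fermat.Agent.S58
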