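import Mathlib

/-!
# S58, block EC4: a subgroup of `E[p^n]` with cyclic quotient contains a point of exact order `p^n`

Pure group theory: `G` is an abelian group with `#G[p^k] = p^(2k)` for all `k`.
-/

set_option autoImplicit false

namespace Fermat.Agent.S58

/-- If `p ^ (m + 1)` kills `P` and the order of `P` is not `p ^ (m + 1)`, then `p ^ m` kills `P`. -/
theorem pow_nsmul_eq_zero_of_addOrderOf_ne {G : Type*} [AddCommGroup G] {p : ℕ} (hp : p.Prime)
    {m : ℕ} {P : G} (hP : p ^ (m + 1) • P = 0) (hne : addOrderOf P ≠ p ^ (m + 1)) :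
    p ^ m • P = 0 := by
  have hdvd : addOrderOf P ∣ p ^ (m + 1) := addOrderOf_dvd_of_nsmul_eq_zero hP
  obtain ⟨j, hj, hjeq⟩ := (Nat.dvd_prime_pow hp).mp hdvd
  have hjm : j ≤ m := by
    rcases Nat.lt_or_ge j (m + 1) with h | h
    · omega
    · exact absurd (by rw [hjeq, le_antisymm hj h]) hne
  exact addOrderOf_dvd_iff_nsmul_eq_zero.mp (by rw [hjeq]; exact pow_dvd_pow p hjm)

/-- A subgroup of `G[p^n]` with cyclic quotient contains a point of exact order `p^n`, if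
`#G[p^k] = p^(2k)` for all `k`. -/
theorem exists_addOrderOf_eq_of_isAddCyclic {G : Type*} [AddCommGroup G] {p : ℕ} (hp : p.Prime)
    (n : ℕ)
    (hcard : ∀ k : ℕ, Nat.card (Submodule.torsionBy ℤ G ((p ^ k : ℕ) : ℤ)) = (p ^ k) ^ 2)
    {C : Type*} [AddCommGroup C] [IsAddCyclic C]
    (f : Submodule.torsionBy ℤ G ((p ^ n : ℕ) : ℤ) →+ C) :
    ∃ P : Submodule.torsionBy ℤ G ((p ^ n : ℕ) : ℤ), f P = 0 ∧ addOrderOf (P : G) = p ^ n := by
  rcases n with _ | m
  · exact ⟨0, map_zero f, by simp⟩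
  by_contra hcon
  push Not at hcon
  have hmem : ∀ (k : ℕ) (x : G), x ∈ Submodule.torsionBy ℤ G ((p ^ k : ℕ) : ℤ) ↔ p ^ k • x = 0 := by
    intro k x
    rw [Submodule.mem_torsionBy_iff, natCast_zsmul]
  -- a generator of the image
  obtain ⟨⟨g, P₀, rfl⟩, hg⟩ := IsAddCyclic.exists_generator (α := f.range)
  have hgen : ∀ R, ∃ z : ℤ, f R = z • f P₀ := by
    intro R
    obtain ⟨z, hz⟩ := AddSubgroup.mem_zmultiples_iff.mp (hg ⟨f R, R, rfl⟩)
    refine ⟨z, ?_⟩
    have := congrArg Subtype.val hz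
    simpa using this.symm
  have hker : ∀ R : Submodule.torsionBy ℤ G ((p ^ (m + 1) : ℕ) : ℤ), f R = 0 →
      p ^ m • (R : G) = 0 := fun R hR =>
    pow_nsmul_eq_zero_of_addOrderOf_ne hp ((hmem _ _).mp R.2) (hcon R hR)
  have hfin : Finite (Submodule.torsionBy ℤ G ((p ^ m : ℕ) : ℤ)) :=
    Nat.finite_of_card_ne_zero (by rw [hcard]; exact pow_ne_zero 2 (pow_ne_zero m hp.ne_zero))
  have hincl : ∀ h : Submodule.torsionBy ℤ G ((p ^ m : ℕ) : ℤ),
      (h : G) ∈ Submodule.torsionBy ℤ G ((p ^ (m + 1) : ℕ) : ℤ) := by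
    intro h
    rw [hmem, pow_succ, mul_nsmul, (hmem _ _).mp h.2, nsmul_zero]
  let Φ : Fin p × Submodule.torsionBy ℤ G ((p ^ m : ℕ) : ℤ) →
      Submodule.torsionBy ℤ G ((p ^ (m + 1) : ℕ) : ℤ) :=
    fun x => (x.1 : ℕ) • P₀ + ⟨x.2, hincl x.2⟩
  have hp0 : (0 : ℤ) < p := by exact_mod_cast hp.pos
  have hsurj : Function.Surjective Φ := by
    intro R
    obtain ⟨z, hz⟩ := hgen R
    have h1 : f (R - z • P₀) = 0 := by rw [map_sub, map_zsmul, hz, sub_self]
    have h2 := hker _ h1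
    have hk0 : 0 ≤ z % p := Int.emod_nonneg z hp0.ne'
    have hk1 : (z % p).toNat < p := by
      have := Int.emod_lt_of_pos z hp0
      omega
    have h3 : p ^ m • ((R : G) - (z % p).toNat • (P₀ : G)) = 0 := by
      have e : (R : G) - (z % p).toNat • (P₀ : G)
          = ((R - z • P₀ : Submodule.torsionBy ℤ G ((p ^ (m + 1) : ℕ) : ℤ)) : G)
            + (z / p) • (p • (P₀ : G)) := by
        have e1 : ((z % p).toNat : ℤ) = z % p := Int.toNat_of_nonneg hk0
        have e2 : (z % p).toNat • (P₀ : G) = (z % p) • (P₀ : G) := by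
          conv_rhs => rw [← e1]
          rw [natCast_zsmul]
        have e3 : z • (P₀ : G) = (z % p) • (P₀ : G) + (z / p) • (p • (P₀ : G)) := by
          conv_lhs => rw [← Int.emod_add_mul_ediv z p]
          rw [add_zsmul, mul_comm, mul_zsmul, natCast_zsmul]
        rw [e2]
        push_cast
        rw [e3]
        abel
      rw [e, nsmul_add, h2, zero_add, smul_comm, ← mul_nsmul', ← pow_succ,
        (hmem _ _).mp P₀.2, zsmul_zero]
    refine ⟨(⟨(z % p).toNat, hk1⟩, ⟨(R : G) - (z % p).toNat • (P₀ : G), (hmem _ _).mpr h3⟩), ?_⟩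
    apply Subtype.ext
    simp [Φ]
  have hle := Nat.card_le_card_of_surjective Φ hsurj
  rw [Nat.card_prod, hcard, hcard, Nat.card_fin] at hle
  have : p * (p ^ m) ^ 2 < (p ^ (m + 1)) ^ 2 := by
    have h1 : (p ^ (m + 1)) ^ 2 = p * (p * (p ^ m) ^ 2) := by ring
    rw [h1]
    have h2 : 0 < p * (p ^ m) ^ 2 :=
      Nat.mul_pos hp.pos (pow_pos (pow_pos hp.pos m) 2)
    nlinarith [hp.two_le]
  omega

/-- If `#G[p^k] = p^(2k)` for all `k`, there is a point of exact order `p^n`. -/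
theorem exists_addOrderOf_eq_of_card {G : Type*} [AddCommGroup G] {p : ℕ} (hp : p.Prime)
    (n : ℕ)
    (hcard : ∀ k : ℕ, Nat.card (Submodule.torsionBy ℤ G ((p ^ k : ℕ) : ℤ)) = (p ^ k) ^ 2) :
    ∃ P : G, addOrderOf P = p ^ n := by
  obtain ⟨P, -, hP⟩ := exists_addOrderOf_eq_of_isAddCyclic hp n hcard
    (0 : Submodule.torsionBy ℤ G ((p ^ n : ℕ) : ℤ) →+ PUnit.{1})
  exact ⟨P, hP⟩

end Fermat.Agent.S58
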