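import Mathlib

/-!
# S58, block EC1a: `F - c G` has `deg F` distinct roots for all but finitely many `c`
-/

set_option autoImplicit false
open Polynomial

namespace Fermat.Agent.S58

/-- the Wronskian of two coprime polynomials, the first one non-constant, is nonzero -/
theorem Wronskian.ne_zero {K : Type*} [Field K] [CharZero K] (F G : K[X])
    (hF : 0 < F.natDegree) (hcop : IsCoprime F G) :
    derivative F * G - F * derivative G ≠ 0 := by
  intro h
  have hF0 : F ≠ 0 := by
    rintro rfl
    simp at hF
  have h1 : F ∣ derivative F * G := ⟨derivative G, sub_eq_zero.mp h⟩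
  have h2 : F ∣ derivative F := hcop.dvd_of_dvd_mul_right h1
  have h3 : derivative F = 0 := eq_zero_of_dvd_of_degree_lt h2 (degree_derivative_lt hF0)
  have := Polynomial.derivative_eq_zero.mp h3
  omega

/-- for all but finitely many `c` the polynomial `F - c G` has `deg F` distinct roots -/
theorem exists_card_roots_eq {K : Type*} [Field K] [IsAlgClosed K] [CharZero K] [DecidableEq K]
    (F G : K[X]) (hF : F.Monic) (hG0 : G ≠ 0) (hG : G.natDegree < F.natDegree)
    (hcop : ∀ x : K, G.eval x = 0 → F.eval x ≠ 0) (bad : Finset K) :
    ∃ c : K, c ∉ bad ∧ (F - C c * G).roots.toFinset.card = F.natDegree := by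
  have hcopFG : IsCoprime F G := by
    refine (isCoprime_iff_aeval_ne_zero_of_isAlgClosed K K F G).mpr ?_
    intro x
    by_cases hx : G.eval x = 0
    · left
      simpa using hcop x hx
    · right
      simpa using hx
  have hW := Wronskian.ne_zero F G (by omega) hcopFG
  obtain ⟨c, hc⟩ := Infinite.exists_notMem_finset
    (bad ∪ (derivative F * G - F * derivative G).roots.toFinset.image
      (fun x => F.eval x / G.eval x))
  rw [Finset.mem_union, not_or] at hc
  refine ⟨c, hc.1, ?_⟩
  have hdeg : (F - C c * G).natDegree = F.natDegree := by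
    apply natDegree_sub_eq_left_of_natDegree_lt
    exact (natDegree_C_mul_le c G).trans_lt hG
  have hsep : (F - C c * G).Separable := by
    refine (isCoprime_iff_aeval_ne_zero_of_isAlgClosed K K _ _).mpr ?_
    intro x
    by_contra hx
    rw [not_or, not_not, not_not] at hx
    obtain ⟨h1, h2⟩ := hx
    simp only [coe_aeval_eq_eval, eval_sub, eval_mul, eval_C, derivative_sub, derivative_mul,
      derivative_C, zero_mul, zero_add] at h1 h2
    have hGx : G.eval x ≠ 0 := by
      intro h0
      rw [h0, mul_zero, sub_zero] at h1
      exact hcop x h0 h1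
    apply hc.2
    rw [Finset.mem_image]
    refine ⟨x, ?_, ?_⟩
    · rw [Multiset.mem_toFinset, mem_roots hW, IsRoot.def]
      simp only [eval_sub, eval_mul]
      linear_combination (G.eval x) * h2 - (eval x (derivative G)) * h1
    · rw [div_eq_iff hGx]
      linear_combination h1
  rw [Multiset.toFinset_card_of_nodup (nodup_roots hsep), ← hdeg]
  exact (IsAlgClosed.splits _).natDegree_eq_card_roots.symm

end Fermat.Agent.S58
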