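import Mathlib
import Fermat.Agent.S13.Torsion
import Fermat.Agent.S58.Wronskian

/-!
# S58, block EC1b: `#E[n] = n^2` for a `Model` over an algebraically closed field of characteristic 0
-/

set_option autoImplicit false
open Polynomial

namespace Fermat.Agent.S58

open Fermat.Agent.S13

/-- every element of `K` is the `X`-coordinate of a point -/
theorem TorsionModel.exists_X_eq {K : Type*} [Field K] [IsAlgClosed K] [CharZero K]
    {a₁ a₂ a₄ : K} {G : Type*} [AddCommGroup G] (M : Model K a₁ a₂ a₄ G) (r : K) :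
    ∃ P : G, P ≠ 0 ∧ M.X P = r := by
  obtain ⟨s, hs⟩ := IsAlgClosed.exists_pow_nat_eq
    ((a₁ * r) ^ 2 + 4 * (r ^ 3 + a₂ * r ^ 2 + a₄ * r)) (n := 2) (by norm_num)
  have h2 : (2 : K) ≠ 0 := two_ne_zero
  obtain ⟨P, hP, hX, -⟩ := M.exists_point r ((s - a₁ * r) / 2) (by
    field_simp
    linear_combination hs)
  exact ⟨P, hP, hX⟩

theorem Model.card_torsion {K : Type*} [Field K] [IsAlgClosed K] [CharZero K]
    {a₁ a₂ a₄ : K} {G : Type*} [AddCommGroup G] (M : Model K a₁ a₂ a₄ G) (h₄0 : a₄ ≠ 0)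
    {n : ℕ} (hn : 0 < n) : Nat.card {P : G // n • P = 0} = n ^ 2 := by
  classical
  set b₂ : K := a₁ ^ 2 + 4 * a₂ with hb₂
  set F : K[X] := ladF b₂ a₄ n with hF
  set Gp : K[X] := ladG b₂ a₄ n with hGp
  have hn2 : 0 < n ^ 2 := pow_pos hn 2
  have hFmonic : F.Monic :=
    monic_of_natDegree_le_of_coeff_eq_one (n ^ 2) (ladF_natDegree_le _ _ n) (ladF_coeff _ _ n)
  have hFdeg : F.natDegree = n ^ 2 :=
    natDegree_eq_of_le_of_coeff_ne_zero (ladF_natDegree_le _ _ n)
      (by rw [hF, ladF_coeff]; exact one_ne_zero)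
  have hG0 : Gp ≠ 0 := Model.ladG_ne_zero _ _ hn
  have hGdeg : Gp.natDegree < F.natDegree := by
    have h1 : Gp.natDegree ≤ n ^ 2 - 1 := ladG_natDegree_le b₂ a₄ n
    rw [hFdeg]
    omega
  have hcop : ∀ x : K, Gp.eval x = 0 → F.eval x ≠ 0 := by
    intro x hx
    obtain ⟨P, hP, rfl⟩ := TorsionModel.exists_X_eq M x
    exact M.ladF_eval_ne_zero_of_nsmul_eq_zero h₄0 hP n ((M.nsmul_eq_zero_iff h₄0 hP n).2 hx)
  -- the `X`-coordinates of the points of order two
  set q : K[X] := C 4 * X ^ 3 + C b₂ * X ^ 2 + C (4 * a₄) * X with hq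
  have hq0 : q ≠ 0 := by
    intro h
    have h3 : q.coeff 3 = 4 := by
      rw [hq]
      simp [coeff_X_pow]
    rw [h, coeff_zero] at h3
    have h4 : (4 : K) ≠ 0 := by norm_num
    exact h4 h3.symm
  obtain ⟨c, hcbad, hcard⟩ := exists_card_roots_eq F Gp hFmonic hG0 hGdeg hcop q.roots.toFinset
  rw [hFdeg] at hcard
  set R : K[X] := F - C c * Gp with hR
  have hR0 : R ≠ 0 := by
    intro h
    rw [h] at hcard
    simp at hcard
    omega
  obtain ⟨Q, hQ, hQX⟩ := TorsionModel.exists_X_eq M c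
  have h2Q : 2 • Q ≠ 0 := by
    intro h
    apply hcbad
    rw [Multiset.mem_toFinset, mem_roots hq0, IsRoot.def]
    have h1 := M.psi_sq hQ
    rw [(M.two_nsmul_eq_zero_iff hQ).1 h, hQX] at h1
    rw [hq]
    simp only [eval_add, eval_mul, eval_C, eval_pow, eval_X]
    linear_combination -h1
  have hne : ∀ P : G, n • P = Q → P ≠ 0 := by
    rintro P hP rfl
    rw [smul_zero] at hP
    exact hQ hP.symm
  -- the fibre over `Q` is in bijection with the roots of `F - c G`
  have hmem : ∀ P : {P : G // n • P = Q}, M.X P.1 ∈ R.roots.toFinset := by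
    rintro ⟨P, hP⟩
    rw [Multiset.mem_toFinset, mem_roots hR0, IsRoot.def, hR]
    have h1 := M.X_nsmul_mul h₄0 (hne P hP) n (by rw [hP]; exact hQ)
    rw [hP, hQX] at h1
    simp only [eval_sub, eval_mul, eval_C]
    rw [← h1, sub_self]
  have hbij : Function.Bijective
      (fun P : {P : G // n • P = Q} => (⟨M.X P.1, hmem P⟩ : {x // x ∈ R.roots.toFinset})) := by
    constructor
    · rintro ⟨P, hP⟩ ⟨P', hP'⟩ h
      have hX : M.X P = M.X P' := congrArg Subtype.val h
      rcases M.eq_or_eq_neg_of_X_eq (hne P hP) (hne P' hP') hX with h1 | h1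
      · exact Subtype.ext h1
      · exfalso
        apply h2Q
        rw [h1, smul_neg, hP'] at hP
        rw [two_nsmul]
        nth_rewrite 1 [← hP]
        exact neg_add_cancel Q
    · rintro ⟨x0, hx0⟩
      rw [Multiset.mem_toFinset, mem_roots hR0, IsRoot.def, hR] at hx0
      simp only [eval_sub, eval_mul, eval_C] at hx0
      obtain ⟨P0, hP0, rfl⟩ := TorsionModel.exists_X_eq M x0
      have hG1 : Gp.eval (M.X P0) ≠ 0 := by
        intro h
        apply hcop _ h
        rw [h, mul_zero, sub_zero] at hx0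
        exact hx0
      have hnP0 : n • P0 ≠ 0 := fun h => hG1 ((M.nsmul_eq_zero_iff h₄0 hP0 n).1 h)
      have h1 := M.X_nsmul_mul h₄0 hP0 n hnP0
      have h2 : M.X (n • P0) = M.X Q := by
        rw [hQX]
        apply mul_right_cancel₀ hG1
        rw [h1]
        exact sub_eq_zero.1 hx0
      rcases M.eq_or_eq_neg_of_X_eq hnP0 hQ h2 with h3 | h3
      · exact ⟨⟨P0, h3⟩, rfl⟩
      · refine ⟨⟨-P0, by rw [smul_neg, h3, neg_neg]⟩, ?_⟩
        exact Subtype.ext (M.X_neg P0 hP0)
  have hcardQ : Nat.card {P : G // n • P = Q} = n ^ 2 := by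
    rw [Nat.card_eq_of_bijective _ hbij, Nat.card_eq_fintype_card, Fintype.card_coe, hcard]
  -- the fibre is a coset of the kernel
  have hnonempty : Nonempty {P : G // n • P = Q} := by
    by_contra h
    rw [not_nonempty_iff] at h
    rw [Nat.card_of_isEmpty] at hcardQ
    omega
  obtain ⟨P1, hP1⟩ := hnonempty
  rw [← hcardQ]
  refine Nat.card_congr
    { toFun := fun P => ⟨P.1 + P1, by rw [smul_add, P.2, hP1, zero_add]⟩
      invFun := fun P => ⟨P.1 - P1, by rw [smul_sub, P.2, hP1, sub_self]⟩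
      left_inv := fun P => Subtype.ext (add_sub_cancel_right _ _)
      right_inv := fun P => Subtype.ext (sub_add_cancel _ _) }

end Fermat.Agent.S58
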