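import Mathlib
import Fermat.Agent.S13.ModelOfWeierstrass
import Fermat.Agent.S58.TorsionModel
import Fermat.Agent.S58.TorsionCyclic

/-!
# S58, block EC1c: the `n`-torsion of an elliptic curve in characteristic zero (helper70)

-/

set_option autoImplicit false
open Polynomial

namespace Fermat.Agent.S58

open Fermat.Agent.S13 WeierstrassCurve WeierstrassCurve.Affine

/-- a point of order two -/
theorem torsion_exists_two_torsion {K : Type*} [Field K] [IsAlgClosed K] [CharZero K]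
    (V : WeierstrassCurve K) :
    ∃ r s : K, V.toAffine.Equation r s ∧ 2 * s + V.a₁ * r + V.a₃ = 0 := by
  have h4 : (4 : K) ≠ 0 := by norm_num
  have hdeg : (C (4 : K) * X ^ 3 + C V.b₂ * X ^ 2 + C (2 * V.b₄) * X + C V.b₆).degree ≠ 0 := by
    rw [degree_cubic h4]
    decide
  obtain ⟨r, hr⟩ := IsAlgClosed.exists_root _ hdeg
  simp only [IsRoot.def, eval_add, eval_mul, eval_C, eval_pow, eval_X] at hr
  refine ⟨r, -(V.a₁ * r + V.a₃) / 2, ?_, by ring⟩
  rw [equation_iff]
  rw [WeierstrassCurve.b₂, WeierstrassCurve.b₄, WeierstrassCurve.b₆] at hr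
  field_simp
  linear_combination -hr

theorem torsion_card {K : Type*} [Field K] [IsAlgClosed K] [CharZero K] [DecidableEq K]
    (V : WeierstrassCurve K) (hΔ : V.Δ ≠ 0) (n : ℕ) (hn : 0 < n) :
    Nat.card {P : V.toAffine.Point // n • P = 0} = n ^ 2 := by
  obtain ⟨r, s, hrs, h2⟩ := torsion_exists_two_torsion V
  have hns : V.toAffine.Nonsingular r s :=
    (V.toAffine.equation_iff_nonsingular_of_Δ_ne_zero hΔ).mp hrs
  have h₄0 : V.a₄ + 2 * V.a₂ * r + 3 * r ^ 2 - V.a₁ * s ≠ 0 := by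
    intro h0
    rw [nonsingular_iff] at hns
    rcases hns.2 with h | h
    · exact h (by linear_combination -h0)
    · exact h (by linear_combination h2)
  exact Model.card_torsion (modelOfWeierstrass V.toAffine r s hΔ hrs h2) h₄0 hn

theorem card_torsionBy {K : Type*} [Field K] [IsAlgClosed K] [CharZero K] [DecidableEq K]
    (V : WeierstrassCurve K) (hΔ : V.Δ ≠ 0) (n : ℕ) (hn : 0 < n) :
    Nat.card (Submodule.torsionBy ℤ V.toAffine.Point (n : ℤ)) = n ^ 2 := by
  rw [← torsion_card V hΔ n hn]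
  exact Nat.card_congr (Equiv.subtypeEquivRight fun P => by
    rw [Submodule.mem_torsionBy_iff, natCast_zsmul])

theorem torsion_card_pow {K : Type*} [Field K] [IsAlgClosed K] [CharZero K] [DecidableEq K]
    (V : WeierstrassCurve K) (hΔ : V.Δ ≠ 0) {p : ℕ} (hp : p.Prime) (k : ℕ) :
    Nat.card (Submodule.torsionBy ℤ V.toAffine.Point ((p ^ k : ℕ) : ℤ)) = (p ^ k) ^ 2 :=
  card_torsionBy V hΔ (p ^ k) (pow_pos hp.pos k)

theorem exists_addOrderOf_eq_prime_pow {K : Type*} [Field K] [IsAlgClosed K] [CharZero K]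
    [DecidableEq K] (V : WeierstrassCurve K) (hΔ : V.Δ ≠ 0) {p : ℕ} (hp : p.Prime) (n : ℕ) :
    ∃ P : V.toAffine.Point, addOrderOf P = p ^ n :=
  exists_addOrderOf_eq_of_card hp n (torsion_card_pow V hΔ hp)

/-- a subgroup `H` of `E[p^n]` with cyclic quotient contains a point of exact order `p^n` -/
theorem exists_addOrderOf_eq_of_cyclic_quotient {K : Type*} [Field K] [IsAlgClosed K] [CharZero K]
    [DecidableEq K] (V : WeierstrassCurve K) (hΔ : V.Δ ≠ 0) {p : ℕ} (hp : p.Prime) (n : ℕ)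
    {C : Type*} [AddCommGroup C] [IsAddCyclic C]
    (f : Submodule.torsionBy ℤ V.toAffine.Point ((p ^ n : ℕ) : ℤ) →+ C) :
    ∃ P : Submodule.torsionBy ℤ V.toAffine.Point ((p ^ n : ℕ) : ℤ),
      f P = 0 ∧ addOrderOf (P : V.toAffine.Point) = p ^ n :=
  exists_addOrderOf_eq_of_isAddCyclic hp n (torsion_card_pow V hΔ hp) f

end Fermat.Agent.S58
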