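import Mathlib

/-!
# S58, block LA1a: an odd irreducible two-dimensional representation stays irreducible for every
representation (over an extension field) with the same trace.   (helper266; Mathlib only)

Basis free proof.  `P = (1 + ε r(c))/2` is an idempotent of trace one, so `P X P = tr(X P) P`
(polarised Cayley-Hamilton in dimension two).  A stable line `k u` of `R` gives a multiplicative
`χ` with `χ σ = tr(R σ P')`, hence `a σ = tr(r σ P)` is multiplicative and
`P r(σ) (1 - P) r(τ) P = 0`, which contradicts the irreducibility of `r`.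
-/

set_option autoImplicit false

namespace Fermat.Agent.S58

namespace AbsIrr

variable {K V : Type*} [Field K] [AddCommGroup V] [Module K V]

theorem matrix_polarized (X P : Matrix (Fin 2) (Fin 2) K) :
    X * P + P * X = X.trace • P + P.trace • X + ((X * P).trace - X.trace * P.trace) • 1 := by
  ext i j
  fin_cases i <;> fin_cases j <;>
    simp [Matrix.mul_apply, Fin.sum_univ_two, Matrix.trace_fin_two] <;> ring

theorem matrix_cayley (X : Matrix (Fin 2) (Fin 2) K) :
    X * X = X.trace • X - X.det • 1 := by
  ext i j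
  fin_cases i <;> fin_cases j <;>
    simp [Matrix.mul_apply, Fin.sum_univ_two, Matrix.trace_fin_two, Matrix.det_fin_two] <;> ring

theorem end_polarized (h2 : Module.finrank K V = 2) (X P : Module.End K V) :
    X * P + P * X = LinearMap.trace K V X • P + LinearMap.trace K V P • X
      + (LinearMap.trace K V (X * P) - LinearMap.trace K V X * LinearMap.trace K V P) • 1 := by
  have : Module.Finite K V := Module.finite_of_finrank_pos (by omega)
  let b := Module.finBasisOfFinrankEq K V h2
  apply (LinearMap.toMatrix b b).injective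
  simp only [map_add, map_smul, LinearMap.toMatrix_mul, LinearMap.toMatrix_one,
    LinearMap.trace_eq_matrix_trace K b]
  exact matrix_polarized _ _

theorem end_cayley (h2 : Module.finrank K V = 2) (X : Module.End K V) :
    X * X = LinearMap.trace K V X • X - LinearMap.det X • 1 := by
  have : Module.Finite K V := Module.finite_of_finrank_pos (by omega)
  let b := Module.finBasisOfFinrankEq K V h2
  apply (LinearMap.toMatrix b b).injective
  simp only [map_sub, map_smul, LinearMap.toMatrix_mul, LinearMap.toMatrix_one,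
    LinearMap.trace_eq_matrix_trace K b, ← LinearMap.det_toMatrix b]
  exact matrix_cayley _

/-- an idempotent of trace one in dimension two has rank one. -/
theorem idem_mul_mul (h2 : Module.finrank K V = 2) (P : Module.End K V) (hP : P * P = P)
    (htr : LinearMap.trace K V P = 1) (X : Module.End K V) :
    P * X * P = LinearMap.trace K V (X * P) • P := by
  have h := congrArg (fun Y => P * Y) (end_polarized h2 X P)
  simp only [htr, mul_add, mul_smul_comm, mul_one, one_smul, ← mul_assoc, hP, sub_smul,
    mul_sub] at h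
  have h3 : P * X * P + P * X = LinearMap.trace K V (X * P) • P + P * X := by
    rw [h]; abel
  exact add_right_cancel h3

theorem trace_one_eq (h2 : Module.finrank K V = 2) :
    LinearMap.trace K V (1 : Module.End K V) = 2 := by
  have : Module.Finite K V := Module.finite_of_finrank_pos (by omega)
  rw [LinearMap.trace_one, h2]; norm_num

theorem trace_eq_zero_of_invol (h2 : Module.finrank K V = 2) (X : Module.End K V)
    (hX : X * X = 1) (hdet : LinearMap.det X = -1) : LinearMap.trace K V X = 0 := by
  have h := end_cayley h2 X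
  rw [hX, hdet, neg_smul, sub_neg_eq_add, one_smul] at h
  have h3 : LinearMap.trace K V X • X = 0 := by
    have : (0 : Module.End K V) + 1 = LinearMap.trace K V X • X + 1 := by rw [zero_add]; exact h
    exact (add_right_cancel this).symm
  rcases smul_eq_zero.mp h3 with h4 | h4
  · exact h4
  · exfalso
    rw [h4, zero_mul] at hX
    have : Nontrivial V := Module.nontrivial_of_finrank_pos (R := K) (by omega)
    obtain ⟨v, hv⟩ := exists_ne (0 : V)
    exact hv (by simpa using (LinearMap.congr_fun hX v).symm)

/-- the idempotent `(1 + ε X)/2`. -/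
noncomputable def proj (ε : K) (X : Module.End K V) : Module.End K V :=
  (2 : K)⁻¹ • (1 + ε • X)

theorem proj_mul_self (hK2 : (2 : K) ≠ 0) (ε : K) (hε : ε * ε = 1) (X : Module.End K V)
    (hX : X * X = 1) : proj ε X * proj ε X = proj ε X := by
  unfold proj
  rw [smul_mul_smul_comm, add_mul, mul_add, mul_add, one_mul, one_mul, mul_one,
    smul_mul_smul_comm, hX, hε, one_smul]
  have : (1 : Module.End K V) + ε • X + (ε • X + 1) = (2 : K) • (1 + ε • X) := by
    rw [two_smul]; abel
  rw [this, smul_smul, mul_assoc, inv_mul_cancel₀ hK2, mul_one]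

theorem trace_proj (h2 : Module.finrank K V = 2) (hK2 : (2 : K) ≠ 0) (ε : K)
    (X : Module.End K V) (hX : LinearMap.trace K V X = 0) :
    LinearMap.trace K V (proj ε X) = 1 := by
  unfold proj
  rw [map_smul, map_add, map_smul, hX, trace_one_eq h2, smul_zero, add_zero, smul_eq_mul,
    inv_mul_cancel₀ hK2]

theorem trace_mul_proj (ε : K) (X Y : Module.End K V) :
    LinearMap.trace K V (Y * proj ε X) =
      (2 : K)⁻¹ * (LinearMap.trace K V Y + ε * LinearMap.trace K V (Y * X)) := by
  unfold proj
  rw [mul_smul_comm, mul_add, mul_one, mul_smul_comm, map_smul, map_add, map_smul, smul_eq_mul,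
    smul_eq_mul]

section Irr

variable {G : Type*} [Group G]

/-- for an irreducible `r`, a nonzero `Q` and a nonzero `x` some `Q (r σ x)` is nonzero. -/
theorem exists_apply_ne_zero (r : G →* Module.End K V)
    (hirr : ∀ N : Submodule K V, (∀ σ, ∀ x ∈ N, r σ x ∈ N) → N = ⊥ ∨ N = ⊤)
    (Q : Module.End K V) (hQ : Q ≠ 0) (x : V) (hx : x ≠ 0) : ∃ σ, Q (r σ x) ≠ 0 := by
  by_contra hcon
  push Not at hcon
  have hst : ∀ σ, ∀ y ∈ (⨅ τ, LinearMap.ker (Q * r τ) : Submodule K V),
      r σ y ∈ (⨅ τ, LinearMap.ker (Q * r τ) : Submodule K V) := by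
    intro σ y hy
    rw [Submodule.mem_iInf] at hy ⊢
    intro τ
    have h := hy (τ * σ)
    rw [LinearMap.mem_ker, map_mul] at h
    rw [LinearMap.mem_ker]
    exact h
  have hxm : x ∈ (⨅ τ, LinearMap.ker (Q * r τ) : Submodule K V) := by
    rw [Submodule.mem_iInf]
    intro τ
    rw [LinearMap.mem_ker]
    exact hcon τ
  rcases hirr _ hst with h | h
  · rw [h] at hxm
    exact hx ((Submodule.mem_bot K).mp hxm)
  · apply hQ
    ext y
    have hy : y ∈ (⨅ τ, LinearMap.ker (Q * r τ) : Submodule K V) := by rw [h]; trivial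
    rw [Submodule.mem_iInf] at hy
    have h1 := hy 1
    rw [LinearMap.mem_ker, map_one, mul_one] at h1
    simpa using h1

/-- the `r` side: the diagonal coefficient of an irreducible `r` is not multiplicative. -/
theorem not_mul_of_irr (h2 : Module.finrank K V = 2) (r : G →* Module.End K V)
    (hirr : ∀ N : Submodule K V, (∀ σ, ∀ x ∈ N, r σ x ∈ N) → N = ⊥ ∨ N = ⊤)
    (P : Module.End K V) (hP : P * P = P) (htr : LinearMap.trace K V P = 1)
    (hmul : ∀ σ τ, LinearMap.trace K V (r (σ * τ) * P) =
      LinearMap.trace K V (r σ * P) * LinearMap.trace K V (r τ * P)) : False := by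
  have key : ∀ σ τ, P * r σ * (1 - P) * r τ * P = 0 := by
    intro σ τ
    have h1 : P * r σ * (1 - P) * r τ * P = P * r (σ * τ) * P - (P * r σ * P) * r τ * P := by
      rw [map_mul]; noncomm_ring
    rw [h1, idem_mul_mul h2 P hP htr, idem_mul_mul h2 P hP htr, smul_mul_assoc, smul_mul_assoc,
      idem_mul_mul h2 P hP htr, smul_smul, hmul, sub_self]
  have hP0 : P ≠ 0 := by
    intro h
    rw [h, map_zero] at htr
    exact zero_ne_one htr
  have hP1 : 1 - P ≠ 0 := by
    intro h
    have h3 : P = 1 := (sub_eq_zero.mp h).symm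
    rw [h3, trace_one_eq h2] at htr
    have : (1 : K) = 0 := by linear_combination htr
    exact one_ne_zero this
  obtain ⟨y, hy⟩ : ∃ y, P y ≠ 0 := by
    by_contra hcon
    push Not at hcon
    exact hP0 (LinearMap.ext hcon)
  obtain ⟨τ, hτ⟩ := exists_apply_ne_zero r hirr (1 - P) hP1 (P y) hy
  obtain ⟨σ, hσ⟩ := exists_apply_ne_zero r hirr P hP0 _ hτ
  exact hσ (LinearMap.congr_fun (key σ τ) y)

end Irr

end AbsIrr

theorem irreducible_of_trace_eq {G : Type*} [Group G] {F E : Type*} [Field F] [AddCommGroup E]
    [Module F E] (h2 : Module.finrank F E = 2) (hF2 : (2 : F) ≠ 0) (r : G →* Module.End F E)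
    (hirr : ∀ N : Submodule F E, (∀ σ, ∀ x ∈ N, r σ x ∈ N) → N = ⊥ ∨ N = ⊤)
    {k U : Type*} [Field k] [Algebra F k] [AddCommGroup U] [Module k U]
    (hU : Module.finrank k U = 2) (R : G →* Module.End k U)
    (htr : ∀ σ, LinearMap.trace k U (R σ) = algebraMap F k (LinearMap.trace F E (r σ)))
    (c : G) (hc : c * c = 1) (hdet : LinearMap.det (r c) = -1) :
    ∀ N : Submodule k U, (∀ σ, ∀ x ∈ N, R σ x ∈ N) → N = ⊥ ∨ N = ⊤ := by
  intro N hN
  by_contra hcon
  push Not at hcon
  obtain ⟨hbot, htop⟩ := hcon
  have : Module.Finite k U := Module.finite_of_finrank_pos (by omega)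
  have hinj : Function.Injective (algebraMap F k) := (algebraMap F k).injective
  have hk2 : (2 : k) ≠ 0 := by
    intro h
    apply hF2
    apply hinj
    rw [map_zero, map_ofNat]; exact h
  -- the stable line
  have hN1 : Module.finrank k N = 1 := by
    have h3 := Submodule.finrank_lt htop
    have h4 := Submodule.one_le_finrank_iff.mpr hbot
    omega
  obtain ⟨⟨u, huN⟩, hu0, hspan⟩ := finrank_eq_one_iff'.mp hN1
  have hu : u ≠ 0 := fun h => hu0 (Subtype.ext h)
  have hχ' : ∀ σ, ∃ a : k, R σ u = a • u := by
    intro σ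
    obtain ⟨a, ha⟩ := hspan ⟨R σ u, hN σ u huN⟩
    exact ⟨a, (congrArg Subtype.val ha).symm⟩
  choose χ hχ using hχ'
  have hχmul : ∀ σ τ, χ (σ * τ) = χ σ * χ τ := by
    intro σ τ
    have h3 : χ (σ * τ) • u = (χ σ * χ τ) • u := by
      rw [← hχ, map_mul, Module.End.mul_apply, hχ, map_smul, hχ, smul_smul, mul_comm]
    exact smul_left_injective k hu h3
  have hrc : r c * r c = 1 := by rw [← map_mul, hc, map_one]
  have hRc : R c * R c = 1 := by rw [← map_mul, hc, map_one]
  have htrc : LinearMap.trace F E (r c) = 0 := AbsIrr.trace_eq_zero_of_invol h2 _ hrc hdet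
  have htRc : LinearMap.trace k U (R c) = 0 := by rw [htr, htrc, map_zero]
  have hχ1 : χ 1 = 1 := by
    have h3 : χ 1 • u = (1 : k) • u := by rw [← hχ, map_one, one_smul]; rfl
    exact smul_left_injective k hu h3
  have hχc : χ c * χ c = 1 := by rw [← hχmul, hc, hχ1]
  obtain ⟨ε, hε, hεχ⟩ : ∃ ε : F, ε * ε = 1 ∧ algebraMap F k ε = χ c := by
    have h3 : (χ c - 1) * (χ c + 1) = 0 := by linear_combination hχc
    rcases mul_eq_zero.mp h3 with h4 | h4
    · exact ⟨1, by ring, by rw [map_one]; linear_combination -h4⟩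
    · exact ⟨-1, by ring, by rw [map_neg, map_one]; linear_combination -h4⟩
  have hε' : algebraMap F k ε * algebraMap F k ε = 1 := by rw [← map_mul, hε, map_one]
  -- the two idempotents
  have hP := AbsIrr.proj_mul_self hF2 ε hε (r c) hrc
  have hPt := AbsIrr.trace_proj h2 hF2 ε (r c) htrc
  have hP' := AbsIrr.proj_mul_self hk2 (algebraMap F k ε) hε' (R c) hRc
  have hPt' := AbsIrr.trace_proj hU hk2 (algebraMap F k ε) (R c) htRc
  have hPu : AbsIrr.proj (algebraMap F k ε) (R c) u = u := by
    unfold AbsIrr.proj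
    rw [LinearMap.smul_apply, LinearMap.add_apply, LinearMap.smul_apply, hχ, smul_smul, hεχ, hχc,
      Module.End.one_apply, one_smul, ← two_smul k u, smul_smul, inv_mul_cancel₀ hk2, one_smul]
  have hχtr : ∀ σ, χ σ = algebraMap F k (LinearMap.trace F E (r σ * AbsIrr.proj ε (r c))) := by
    intro σ
    have h3 := LinearMap.congr_fun (AbsIrr.idem_mul_mul hU _ hP' hPt' (R σ)) u
    rw [Module.End.mul_apply, Module.End.mul_apply, LinearMap.smul_apply, hPu, hχ, map_smul,
      hPu] at h3
    have h4 := smul_left_injective k hu h3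
    rw [h4, AbsIrr.trace_mul_proj, AbsIrr.trace_mul_proj, ← R.map_mul, htr, htr, r.map_mul,
      (algebraMap F k).map_mul, (algebraMap F k).map_add, (algebraMap F k).map_mul, map_inv₀,
      map_ofNat]
  refine AbsIrr.not_mul_of_irr h2 r hirr _ hP hPt fun σ τ => ?_
  apply hinj
  rw [(algebraMap F k).map_mul, ← hχtr, ← hχtr, ← hχtr, hχmul]

end Fermat.Agent.S58
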