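import Mathlib

/-!
# S58, block MF2b: a ring homomorphism `ℤ[α] → ℤ_[lam]` for some prime `lam` outside a finite set

`P = minpoly ℤ α` is separable over `ℚ`, so `U P + V P' = D` for some nonzero integer `D`.
By Schur's argument `P` has a root modulo a prime `lam` prime to `D` and outside `T`;
Hensel's lemma lifts it to a root in `ℤ_[lam]`.
-/

set_option autoImplicit false
open Polynomial

namespace Fermat.Agent.S58

/-- Schur: a nonconstant integer polynomial has a root modulo some prime not dividing `K`. -/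
theorem iotaExists_schur (P : ℤ[X]) (hdeg : 0 < P.natDegree) (K : ℤ) (hK : K ≠ 0) :
    ∃ (lam : ℕ) (n : ℤ), lam.Prime ∧ ¬ (lam : ℤ) ∣ K ∧ (lam : ℤ) ∣ P.eval n := by
  classical
  set c : ℤ := P.eval 0 with hc
  by_cases hc0 : c = 0
  · obtain ⟨lam, hlam, hprime⟩ := Nat.exists_infinite_primes (K.natAbs + 1)
    refine ⟨lam, 0, hprime, ?_, ?_⟩
    · intro hdvd
      have h1 : lam ∣ K.natAbs := Int.natCast_dvd.mp hdvd
      have h2 : lam ≤ K.natAbs := Nat.le_of_dvd (Int.natAbs_pos.mpr hK) h1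
      omega
    · rw [← hc, hc0]; exact dvd_zero _
  · -- the polynomial `(P - c) (P + c)` is nonzero
    have hPc : ∀ e : ℤ, P - C e ≠ 0 := by
      intro e h
      have : P = C e := sub_eq_zero.mp h
      rw [this, natDegree_C] at hdeg
      exact lt_irrefl _ hdeg
    have hR : (P - C c) * (P - C (-c)) ≠ 0 := mul_ne_zero (hPc c) (hPc (-c))
    have hinj : Function.Injective (fun t : ℤ => c * K * t) := by
      intro s t hst
      exact mul_left_cancel₀ (mul_ne_zero hc0 hK) hst
    obtain ⟨x, ⟨t, rfl⟩, hx⟩ :=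
      (Set.infinite_range_of_injective hinj).exists_notMem_finset
        ((P - C c) * (P - C (-c))).roots.toFinset
    have hx' : ((P - C c) * (P - C (-c))).eval (c * K * t) ≠ 0 := by
      intro h0
      apply hx
      rw [Multiset.mem_toFinset, mem_roots hR]
      exact h0
    obtain ⟨r, hr⟩ : (c * K * t - 0) ∣ P.eval (c * K * t) - P.eval 0 := sub_dvd_eval_sub _ _ P
    have hval : P.eval (c * K * t) = c * (1 + K * (t * r)) := by
      have : P.eval (c * K * t) = c + (c * K * t - 0) * r := by rw [← hr, hc]; ring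
      rw [this]; ring
    set Q : ℤ := 1 + K * (t * r) with hQ
    have hQ1 : Q.natAbs ≠ 1 := by
      intro h1
      apply hx'
      rw [eval_mul, eval_sub, eval_sub, eval_C, eval_C, hval]
      rcases Int.natAbs_eq Q with h | h <;> rw [h1] at h <;> rw [h] <;> simp
    obtain ⟨lam, hprime, hdvd⟩ := Nat.exists_prime_and_dvd hQ1
    have hdvdQ : (lam : ℤ) ∣ Q := Int.natCast_dvd.mpr hdvd
    refine ⟨lam, c * K * t, hprime, ?_, ?_⟩
    · intro hK'
      have h1 : (lam : ℤ) ∣ 1 := by
        have h2 : (lam : ℤ) ∣ K * (t * r) := Dvd.dvd.mul_right hK' _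
        have h3 : (1 : ℤ) = Q - K * (t * r) := by rw [hQ]; ring
        rw [h3]; exact dvd_sub hdvdQ h2
      have h4 : lam ∣ 1 := by exact_mod_cast h1
      exact hprime.one_lt.ne' (Nat.dvd_one.mp h4)
    · rw [hval]; exact Dvd.dvd.mul_left hdvdQ _

/-- Bezout with integer coefficients for a polynomial that is separable over `ℚ`. -/
theorem iotaExists_bezout (P : ℤ[X]) (hsep : (P.map (Int.castRingHom ℚ)).Separable) :
    ∃ (U V : ℤ[X]) (D : ℤ), D ≠ 0 ∧ U * P + V * derivative P = C D := by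
  obtain ⟨a, b, hab⟩ := hsep
  obtain ⟨d₁, hd₁⟩ := IsLocalization.integerNormalization_map_to_map (nonZeroDivisors ℤ) a
  obtain ⟨d₂, hd₂⟩ := IsLocalization.integerNormalization_map_to_map (nonZeroDivisors ℤ) b
  set A := IsLocalization.integerNormalization (nonZeroDivisors ℤ) a
  set B := IsLocalization.integerNormalization (nonZeroDivisors ℤ) b
  refine ⟨C (d₂ : ℤ) * A, C (d₁ : ℤ) * B, (d₁ : ℤ) * d₂,
    mul_ne_zero (nonZeroDivisors.coe_ne_zero d₁) (nonZeroDivisors.coe_ne_zero d₂), ?_⟩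
  apply Polynomial.map_injective (Int.castRingHom ℚ) Int.cast_injective
  have hA : A.map (Int.castRingHom ℚ) = C ((d₁ : ℤ) : ℚ) * a := by
    have := hd₁
    rw [Algebra.smul_def] at this
    simpa [algebraMap_int_eq, Polynomial.algebraMap_apply] using this
  have hB : B.map (Int.castRingHom ℚ) = C ((d₂ : ℤ) : ℚ) * b := by
    have := hd₂
    rw [Algebra.smul_def] at this
    simpa [algebraMap_int_eq, Polynomial.algebraMap_apply] using this
  rw [Polynomial.map_add, Polynomial.map_mul, Polynomial.map_mul, Polynomial.map_mul,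
    Polynomial.map_mul, hA, hB, ← derivative_map, map_C, map_C, map_C]
  simp only [eq_intCast, Int.cast_mul, C_mul]
  linear_combination (C ((d₁ : ℤ) : ℚ) * C ((d₂ : ℤ) : ℚ)) * hab

theorem exists_prime_ringHom_padicInt {α : ℂ} (hα : IsIntegral ℤ α) (T : Finset ℕ) :
    ∃ (lam : ℕ) (hlam : Fact lam.Prime), lam ∉ T ∧
      Nonempty (Algebra.adjoin ℤ {α} →+* ℤ_[lam]) := by
  classical
  set P : ℤ[X] := minpoly ℤ α with hP
  have hmonic : P.Monic := minpoly.monic hα
  have hdeg : 0 < P.natDegree := minpoly.natDegree_pos hα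
  have hmap : P.map (Int.castRingHom ℚ) = minpoly ℚ α := by
    have := minpoly.isIntegrallyClosed_eq_field_fractions' ℚ hα
    rw [this, algebraMap_int_eq]
  have hsep : (P.map (Int.castRingHom ℚ)).Separable := by
    rw [hmap]
    exact (minpoly.irreducible hα.tower_top).separable
  obtain ⟨U, V, D, hD, hUV⟩ := iotaExists_bezout P hsep
  set K : ℤ := D * ∏ x ∈ T.filter (· ≠ 0), (x : ℤ) with hK
  have hK0 : K ≠ 0 := by
    refine mul_ne_zero hD (Finset.prod_ne_zero_iff.mpr ?_)
    intro x hx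
    have := (Finset.mem_filter.mp hx).2
    exact_mod_cast this
  obtain ⟨lam, n, hprime, hlamK, hlamP⟩ := iotaExists_schur P hdeg K hK0
  haveI hfact : Fact lam.Prime := ⟨hprime⟩
  refine ⟨lam, hfact, ?_, ?_⟩
  · intro hmem
    apply hlamK
    have hmem' : lam ∈ T.filter (· ≠ 0) := Finset.mem_filter.mpr ⟨hmem, hprime.ne_zero⟩
    exact Dvd.dvd.mul_left (Finset.dvd_prod_of_mem (fun x : ℕ => (x : ℤ)) hmem') _
  · have hlamD : ¬ (lam : ℤ) ∣ D := fun h => hlamK (Dvd.dvd.mul_right h _)
    have hlamP' : ¬ (lam : ℤ) ∣ (derivative P).eval n := by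
      intro h
      apply hlamD
      have h1 := congrArg (Polynomial.eval n) hUV
      rw [eval_add, eval_mul, eval_mul, eval_C] at h1
      rw [← h1]
      exact dvd_add (Dvd.dvd.mul_left hlamP _) (Dvd.dvd.mul_left h _)
    have haeval : ∀ F : ℤ[X], aeval ((n : ℤ) : ℤ_[lam]) F = ((F.eval n : ℤ) : ℤ_[lam]) := by
      intro F
      have := Polynomial.aeval_algebraMap_apply ℤ_[lam] n F
      simpa [algebraMap_int_eq] using this
    have hn1 : ‖aeval ((n : ℤ) : ℤ_[lam]) P‖ < 1 := by
      rw [haeval]; exact PadicInt.norm_int_lt_one_iff_dvd _ |>.mpr hlamP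
    have hn2 : ‖aeval ((n : ℤ) : ℤ_[lam]) (derivative P)‖ = 1 := by
      rw [haeval]
      refine le_antisymm (PadicInt.norm_le_one _) (not_lt.mp ?_)
      intro h
      exact hlamP' (PadicInt.norm_int_lt_one_iff_dvd _ |>.mp h)
    obtain ⟨z, hz, -⟩ := hensels_lemma (F := P) (a := ((n : ℤ) : ℤ_[lam]))
      (by rw [hn2]; simpa using hn1)
    have hz' : P.eval₂ (Int.castRingHom ℤ_[lam]) z = 0 := by
      rw [aeval_def, algebraMap_int_eq] at hz
      exact hz
    exact ⟨(AdjoinRoot.lift (Int.castRingHom ℤ_[lam]) z hz').comp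
      (minpoly.equivAdjoin hα).symm.toRingEquiv.toRingHom⟩

end Fermat.Agent.S58
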