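import Fermat.Agent.S58.Defs
import Fermat.Agent.S58.IotaExists
import Fermat.Agent.S29.Eigen

/-!
# S58, block AP: S35 with `O' = ℤ_[lam]`.   Owner: helper279 (architect helper143).
-/

set_option autoImplicit false
open Polynomial ModularFormClass

namespace Fermat.Agent.S58

/-- The values of a character of the Hecke algebra away from the level lie in every subalgebra
which contains the values at the `T_ℓ`. -/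
theorem Apply35.chi_mem {M : ℕ} [NeZero M] (S : Finset ℕ)
    (hMS : ∀ q : ℕ, q.Prime → q ∣ M → q ∈ S) (R : Subalgebra ℤ ℂ)
    (chi : CuspForm.heckeAlgebra M 2 (↑S : Set ℕ) →+* ℂ)
    (hT : ∀ (ℓ : ℕ) (hℓ : ℓ.Prime) (hℓM : ¬ ℓ ∣ M) (hℓS : ℓ ∉ (↑S : Set ℕ)),
      chi (CuspForm.heckeAlgebra.T hℓ hℓM hℓS) ∈ R)
    (t : CuspForm.heckeAlgebra M 2 (↑S : Set ℕ)) : chi t ∈ R := by
  obtain ⟨t, ht⟩ := t
  induction ht using Algebra.adjoin_induction with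
  | mem x hx =>
    rcases hx with ⟨ℓ, hℓ, hℓM, hℓS, rfl⟩ | ⟨q, hqM, hq, hqS, rfl⟩
    · exact hT ℓ hℓ hℓM hℓS
    · exact absurd (Finset.mem_coe.mpr (hMS q hq hqM)) hqS
  | algebraMap r =>
    have h1 : chi (algebraMap ℤ (CuspForm.heckeAlgebra M 2 (↑S : Set ℕ)) r) ∈ R := by
      rw [eq_intCast, map_intCast]
      exact intCast_mem R r
    exact h1
  | add x y hx hy ihx ihy =>
    have h1 : chi (⟨x, hx⟩ + ⟨y, hy⟩) ∈ R := by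
      rw [map_add]
      exact R.add_mem ihx ihy
    exact h1
  | mul x y hx hy ihx ihy =>
    have h1 : chi (⟨x, hx⟩ * ⟨y, hy⟩) ∈ R := by
      rw [map_mul]
      exact R.mul_mem ihx ihy
    exact h1

instance Apply35.finite_residueField (p : ℕ) [Fact p.Prime] :
    Finite (IsLocalRing.ResidueField ℤ_[p]) :=
  Finite.of_equiv (ZMod p) (PadicInt.residueField (p := p)).symm.toEquiv

theorem Apply35.natCast_mem_maximalIdeal (p : ℕ) [Fact p.Prime] :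
    (p : ℤ_[p]) ∈ IsLocalRing.maximalIdeal ℤ_[p] := by
  rw [PadicInt.maximalIdeal_eq_span_p]
  exact Ideal.mem_span_singleton_self _

/-- S35 for a newform whose good coefficients lie in a subalgebra `R` of `ℂ` which maps to
`ℤ_[lam]`. -/
theorem Apply35.gen (h35 : S35Statement) {M : ℕ} [NeZero M]
    {g : CuspForm (CongruenceSubgroup.Gamma0 M) 2} (hg : g.IsNewform)
    (lam : ℕ) [Fact lam.Prime] (S : Finset ℕ) (hlamS : lam ∈ S)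
    (hMS : ∀ q : ℕ, q.Prime → q ∣ M → q ∈ S) (R : Subalgebra ℤ ℂ)
    (hR : ∀ ℓ : ℕ, ℓ.Prime → ℓ ∉ S → qCoeff g ℓ ∈ R) (j₀ : R →+* ℤ_[lam]) :
    ∃ (O : Type) (_ : CommRing O) (_ : IsDomain O) (_ : IsDiscreteValuationRing O)
      (_ : CharZero O), (lam : O) ∈ IsLocalRing.maximalIdeal O ∧
      ∃ (φ : ℤ_[lam] →+* O) (ρ : GaloisRepAdic O),
      (∀ (ℓ : ℕ) (hℓ : ℓ.Prime) (hℓS : ℓ ∉ S), ∀ A : ValuationSubring Qbar, A.LiesOverPrime ℓ →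
        ∀ σ : GQ, A.IsFrobeniusAt σ ℓ →
          LinearMap.charpoly (ρ.ρ σ) =
            X ^ 2 - C (φ (j₀ ⟨qCoeff g ℓ, hR ℓ hℓ hℓS⟩)) * X + C (ℓ : O)) ∧
      (∀ q : ℕ, q.Prime → q ≠ lam → q ∣ M → ¬ q ^ 2 ∣ M →
        ∀ A : ValuationSubring Qbar, A.LiesOverPrime q → ∀ σ : GQ, A.IsFrobeniusAt σ q →
          LinearMap.charpoly (ρ.ρ σ) = X ^ 2 - C ((q : O) + 1) * X + C (q : O) ∨
          LinearMap.charpoly (ρ.ρ σ) = X ^ 2 + C ((q : O) + 1) * X + C (q : O)) := by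
  set chig : CuspForm.heckeAlgebra M 2 (↑S : Set ℕ) →+* ℂ :=
    Fermat.Agent.S29.Eigen.eigenChar hg.1 (↑S : Set ℕ) with hchig_def
  have hchig : ∀ (ℓ : ℕ) (hℓ : ℓ.Prime) (hℓM : ¬ ℓ ∣ M) (hℓS : ℓ ∉ (↑S : Set ℕ)),
      chig (CuspForm.heckeAlgebra.T hℓ hℓM hℓS) = qCoeff g ℓ := fun ℓ hℓ hℓM hℓS =>
    Fermat.Agent.S29.Eigen.eigenChar_T hg.1 (↑S : Set ℕ) hℓ hℓM hℓS
  have hmem : ∀ t, chig t ∈ R := Apply35.chi_mem S hMS R chig fun ℓ hℓ hℓM hℓS => by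
    rw [hchig]
    exact hR ℓ hℓ (fun h => hℓS (Finset.mem_coe.mpr h))
  have hrange : ∀ x : chig.range, chig.range.subtype x ∈ R := by
    rintro ⟨_, t, rfl⟩
    exact hmem t
  let iota : chig.range →+* ℤ_[lam] := j₀.comp (chig.range.subtype.codRestrict R hrange)
  obtain ⟨O'', i1, i2, i3, _, _, i6, i7, _, i9, _, ρ, hρ1, hρ2⟩ :=
    h35 hg lam S ℤ_[lam] (Apply35.natCast_mem_maximalIdeal lam) chig hchig iota hlamS hMS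
  refine ⟨O'', i1, i2, i3, i6, ?_, algebraMap ℤ_[lam] O'', ρ, ?_, hρ2⟩
  · rw [← map_natCast (algebraMap ℤ_[lam] O''), IsLocalRing.mem_maximalIdeal, mem_nonunits_iff]
    intro hu
    have h1 := Apply35.natCast_mem_maximalIdeal lam
    rw [IsLocalRing.mem_maximalIdeal, mem_nonunits_iff] at h1
    exact h1 (isUnit_of_map_unit (algebraMap ℤ_[lam] O'') _ hu)
  · intro ℓ hℓ hℓS A hA σ hσ
    have hℓM : ¬ ℓ ∣ M := fun h => hℓS (hMS ℓ hℓ h)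
    have hℓS' : ℓ ∉ (↑S : Set ℕ) := fun h => hℓS (Finset.mem_coe.mp h)
    rw [hρ1 ℓ hℓ hℓM hℓS' A hA σ hσ]
    have h1 : (iota.comp chig.rangeRestrict) (CuspForm.heckeAlgebra.T hℓ hℓM hℓS') =
        j₀ ⟨qCoeff g ℓ, hR ℓ hℓ hℓS⟩ := by
      show j₀ _ = j₀ _
      congr 1
      exact Subtype.ext (hchig ℓ hℓ hℓM hℓS')
    rw [h1]

theorem apply35_int (h35 : S35Statement) {M : ℕ} [NeZero M]
    {g : CuspForm (CongruenceSubgroup.Gamma0 M) 2} (hg : g.IsNewform)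
    (lam : ℕ) [Fact lam.Prime] (S : Finset ℕ) (hlamS : lam ∈ S)
    (hMS : ∀ q : ℕ, q.Prime → q ∣ M → q ∈ S) (a : ℕ → ℤ)
    (ha : ∀ ℓ : ℕ, ℓ.Prime → ℓ ∉ S → qCoeff g ℓ = (a ℓ : ℂ)) :
    ∃ (O : Type) (_ : CommRing O) (_ : IsDomain O) (_ : IsDiscreteValuationRing O)
      (_ : CharZero O), (lam : O) ∈ IsLocalRing.maximalIdeal O ∧ ∃ ρ : GaloisRepAdic O,
      (∀ ℓ : ℕ, ℓ.Prime → ℓ ∉ S → ∀ A : ValuationSubring Qbar, A.LiesOverPrime ℓ →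
        ∀ σ : GQ, A.IsFrobeniusAt σ ℓ →
          LinearMap.charpoly (ρ.ρ σ) = X ^ 2 - C ((a ℓ : ℤ) : O) * X + C (ℓ : O)) ∧
      (∀ q : ℕ, q.Prime → q ≠ lam → q ∣ M → ¬ q ^ 2 ∣ M →
        ∀ A : ValuationSubring Qbar, A.LiesOverPrime q → ∀ σ : GQ, A.IsFrobeniusAt σ q →
          LinearMap.charpoly (ρ.ρ σ) = X ^ 2 - C ((q : O) + 1) * X + C (q : O) ∨
          LinearMap.charpoly (ρ.ρ σ) = X ^ 2 + C ((q : O) + 1) * X + C (q : O)) := by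
  have hinj : Function.Injective (algebraMap ℤ ℂ) := Int.cast_injective
  let j₀ : (⊥ : Subalgebra ℤ ℂ) →+* ℤ_[lam] :=
    (Int.castRingHom ℤ_[lam]).comp (Algebra.botEquivOfInjective hinj).toRingEquiv.toRingHom
  have hR : ∀ ℓ : ℕ, ℓ.Prime → ℓ ∉ S → qCoeff g ℓ ∈ (⊥ : Subalgebra ℤ ℂ) := by
    intro ℓ hℓ hℓS
    rw [ha ℓ hℓ hℓS]
    exact intCast_mem _ _
  obtain ⟨O, i1, i2, i3, i4, hlam, φ, ρ, h1, h2⟩ := Apply35.gen h35 hg lam S hlamS hMS ⊥ hR j₀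
  refine ⟨O, i1, i2, i3, i4, hlam, ρ, ?_, h2⟩
  intro ℓ hℓ hℓS A hA σ hσ
  rw [h1 ℓ hℓ hℓS A hA σ hσ]
  have h3 : (⟨qCoeff g ℓ, hR ℓ hℓ hℓS⟩ : (⊥ : Subalgebra ℤ ℂ)) = ((a ℓ : ℤ) : (⊥ : Subalgebra ℤ ℂ)) :=
    Subtype.ext (ha ℓ hℓ hℓS)
  rw [h3, map_intCast, map_intCast]

theorem apply35_adjoin (h35 : S35Statement) {M : ℕ} [NeZero M]
    {g : CuspForm (CongruenceSubgroup.Gamma0 M) 2} (hg : g.IsNewform)
    (S₀ : Finset ℕ) (hMS : ∀ q : ℕ, q.Prime → q ∣ M → q ∈ S₀)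
    {ℓ₀ : ℕ} (hℓ₀ : ℓ₀.Prime) (hℓ₀S : ℓ₀ ∉ S₀) (a : ℕ → ℤ)
    (ha : ∀ ℓ : ℕ, ℓ.Prime → ℓ ∉ S₀ → ℓ ≠ ℓ₀ → qCoeff g ℓ = (a ℓ : ℂ)) :
    ∃ lam : ℕ, lam.Prime ∧ lam ∉ S₀ ∧ lam ≠ ℓ₀ ∧
    ∃ (O : Type) (_ : CommRing O) (_ : IsDomain O) (_ : IsDiscreteValuationRing O)
      (_ : CharZero O), (lam : O) ∈ IsLocalRing.maximalIdeal O ∧
      ∃ (j : Algebra.adjoin ℤ {qCoeff g ℓ₀} →+* O) (ρ : GaloisRepAdic O),
      (∀ ℓ : ℕ, ℓ.Prime → ℓ ∉ S₀ → ℓ ≠ lam → ℓ ≠ ℓ₀ →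
        ∀ A : ValuationSubring Qbar, A.LiesOverPrime ℓ → ∀ σ : GQ, A.IsFrobeniusAt σ ℓ →
          LinearMap.charpoly (ρ.ρ σ) = X ^ 2 - C ((a ℓ : ℤ) : O) * X + C (ℓ : O)) ∧
      (∀ A : ValuationSubring Qbar, A.LiesOverPrime ℓ₀ → ∀ σ : GQ, A.IsFrobeniusAt σ ℓ₀ →
          LinearMap.charpoly (ρ.ρ σ) =
            X ^ 2 - C (j ⟨qCoeff g ℓ₀, Algebra.subset_adjoin rfl⟩) * X + C (ℓ₀ : O)) := by
  classical
  have hℓ₀M : ¬ ℓ₀ ∣ M := fun h => hℓ₀S (hMS ℓ₀ hℓ₀ h)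
  have hα : IsIntegral ℤ (qCoeff g ℓ₀) := Fermat.Agent.S29.Eigen.isIntegral_qCoeff hg.1 hℓ₀ hℓ₀M
  obtain ⟨lam, hlam, hlamT, ⟨j₀⟩⟩ := exists_prime_ringHom_padicInt hα (S₀ ∪ {ℓ₀})
  have hlamS₀ : lam ∉ S₀ := fun h => hlamT (Finset.mem_union_left _ h)
  have hlamℓ₀ : lam ≠ ℓ₀ := fun h =>
    hlamT (Finset.mem_union_right _ (Finset.mem_singleton.mpr h))
  refine ⟨lam, hlam.out, hlamS₀, hlamℓ₀, ?_⟩
  have hR : ∀ ℓ : ℕ, ℓ.Prime → ℓ ∉ insert lam S₀ →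
      qCoeff g ℓ ∈ Algebra.adjoin ℤ {qCoeff g ℓ₀} := by
    intro ℓ hℓ hℓS
    by_cases h : ℓ = ℓ₀
    · rw [h]
      exact Algebra.subset_adjoin rfl
    · rw [ha ℓ hℓ (fun h' => hℓS (Finset.mem_insert_of_mem h')) h]
      exact intCast_mem _ _
  obtain ⟨O, i1, i2, i3, i4, hlamO, φ, ρ, h1, -⟩ := Apply35.gen h35 hg lam (insert lam S₀)
    (Finset.mem_insert_self _ _) (fun q hq hqM => Finset.mem_insert_of_mem (hMS q hq hqM))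
    (Algebra.adjoin ℤ {qCoeff g ℓ₀}) hR j₀
  refine ⟨O, i1, i2, i3, i4, hlamO, φ.comp j₀, ρ, ?_, ?_⟩
  · intro ℓ hℓ hℓS hℓlam hℓℓ₀ A hA σ hσ
    have hℓS' : ℓ ∉ insert lam S₀ := by
      rw [Finset.mem_insert]
      rintro (h | h)
      · exact hℓlam h
      · exact hℓS h
    rw [h1 ℓ hℓ hℓS' A hA σ hσ]
    have h3 : (⟨qCoeff g ℓ, hR ℓ hℓ hℓS'⟩ : Algebra.adjoin ℤ {qCoeff g ℓ₀}) =
        ((a ℓ : ℤ) : Algebra.adjoin ℤ {qCoeff g ℓ₀}) :=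
      Subtype.ext (ha ℓ hℓ hℓS hℓℓ₀)
    rw [h3, map_intCast, map_intCast]
  · intro A hA σ hσ
    have hℓS' : ℓ₀ ∉ insert lam S₀ := by
      rw [Finset.mem_insert]
      rintro (h | h)
      · exact hlamℓ₀ h.symm
      · exact hℓ₀S h
    rw [h1 ℓ₀ hℓ₀ hℓS' A hA σ hσ]
    rfl

end Fermat.Agent.S58
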