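import Fermat.Agent.S58.Defs
import Fermat.Agent.S29.Eigen

/-!
# S58, node AP36 (core): instantiate S36 at `O' = ℤ_[p]`

`apply36_int_of` is `apply36_int` of the skeleton with the node LA1c (`residual_of_irreducible`)
as an explicit hypothesis `ResidualStatement`.  General tools (prefix `Apply36`):
the eigencharacter of a newform with integral good coefficients has range in `ℤ`, the induced
ring homomorphism `iota` from its range to any ring.
-/

set_option autoImplicit false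
open Polynomial WeierstrassCurve WeierstrassCurve.Affine ModularFormClass
open scoped WeierstrassCurve.Affine

namespace Fermat.Agent.S58

/-- The statement of node LA1c (`residual_of_irreducible`), as a `Prop`. -/
def ResidualStatement : Prop :=
  ∀ (W : WeierstrassCurve ℤ) (_hΔ : W.Δ ≠ 0) {p : ℕ} (_hp : p.Prime)
    (_hp2 : p ≠ 2) (_hirr : W.ModRepIsIrreducible p) (T : Finset ℕ)
    {O : Type} [CommRing O] [IsDomain O] [IsDiscreteValuationRing O] [CharZero O]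
    (_hO : (p : O) ∈ IsLocalRing.maximalIdeal O) (ρ : GaloisRepAdic O)
    (_hρ : ∀ ℓ : ℕ, ℓ.Prime → ℓ ∉ T → ∀ A : ValuationSubring Qbar, A.LiesOverPrime ℓ →
      ∀ σ : GQ, A.IsFrobeniusAt σ ℓ →
        LinearMap.charpoly (ρ.ρ σ) = X ^ 2 - C ((W.apOfModel ℓ : ℤ) : O) * X + C (ℓ : O)),
    ρ.residual.IsAbsolutelyIrreducible ∧ ρ.residual.IsOdd

namespace Apply36

open Fermat.Agent.S29.Eigen

/-- The eigencharacter takes integral values when the good coefficients are integers and all the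
primes dividing the level are removed. -/
theorem eigenChar_mem_range {M : ℕ} [NeZero M] {g : CuspForm (CongruenceSubgroup.Gamma0 M) 2}
    (hg : g.IsNormalizedEigenform) (S : Finset ℕ) (hMS : ∀ q : ℕ, q.Prime → q ∣ M → q ∈ S)
    (a : ℕ → ℤ) (ha : ∀ ℓ : ℕ, ℓ.Prime → ℓ ∉ S → qCoeff g ℓ = (a ℓ : ℂ))
    (t : Module.End ℂ (CuspForm (CongruenceSubgroup.Gamma0 M) 2))
    (ht : t ∈ CuspForm.heckeAlgebra M 2 (↑S : Set ℕ)) :
    eigenChar hg (↑S : Set ℕ) ⟨t, ht⟩ ∈ (Int.castRingHom ℂ).range := by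
  induction ht using Algebra.adjoin_induction with
  | mem t ht =>
    rcases ht with ⟨ℓ, hℓ, hℓN, hℓS, rfl⟩ | ⟨q, hqN, hq, hqS, rfl⟩
    · refine ⟨a ℓ, ?_⟩
      have h1 := eigenChar_T hg (↑S : Set ℕ) hℓ hℓN hℓS
      have h2 := ha ℓ hℓ (fun h => hℓS (Finset.mem_coe.2 h))
      rw [h2] at h1
      exact h1.symm
    · exact absurd (Finset.mem_coe.2 (hMS q hq hqN)) hqS
  | algebraMap n =>
    refine ⟨n, ?_⟩
    have h1 : (⟨algebraMap ℤ _ n, Subalgebra.algebraMap_mem _ n⟩ :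
        CuspForm.heckeAlgebra M 2 (↑S : Set ℕ)) = ((n : ℤ) : CuspForm.heckeAlgebra M 2 (↑S : Set ℕ)) := by
      apply Subtype.ext
      simp
    exact (by rw [h1, map_intCast]; rfl)
  | add s t hs ht hs' ht' =>
    have h1 : (⟨s + t, add_mem hs ht⟩ : CuspForm.heckeAlgebra M 2 (↑S : Set ℕ)) =
        ⟨s, hs⟩ + ⟨t, ht⟩ := rfl
    rw [h1, map_add]
    exact add_mem hs' ht'
  | mul s t hs ht hs' ht' =>
    have h1 : (⟨s * t, mul_mem hs ht⟩ : CuspForm.heckeAlgebra M 2 (↑S : Set ℕ)) =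
        ⟨s, hs⟩ * ⟨t, ht⟩ := rfl
    rw [h1, map_mul]
    exact mul_mem hs' ht'

theorem range_eigenChar_le {M : ℕ} [NeZero M] {g : CuspForm (CongruenceSubgroup.Gamma0 M) 2}
    (hg : g.IsNormalizedEigenform) (S : Finset ℕ) (hMS : ∀ q : ℕ, q.Prime → q ∣ M → q ∈ S)
    (a : ℕ → ℤ) (ha : ∀ ℓ : ℕ, ℓ.Prime → ℓ ∉ S → qCoeff g ℓ = (a ℓ : ℂ)) :
    (eigenChar hg (↑S : Set ℕ)).range ≤ (Int.castRingHom ℂ).range := by
  rintro _ ⟨t, rfl⟩
  exact eigenChar_mem_range hg S hMS a ha t.1 t.2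

/-- `ℤ` is the range of `ℤ → ℂ`. -/
noncomputable def intEquiv : ℤ ≃+* (Int.castRingHom ℂ).range :=
  RingEquiv.ofBijective (Int.castRingHom ℂ).rangeRestrict
    ⟨fun m n h => Int.cast_injective (α := ℂ) (congrArg Subtype.val h),
      (Int.castRingHom ℂ).rangeRestrict_surjective⟩

/-- The ring homomorphism from a subring of `ℤ ⊆ ℂ` to any ring. -/
noncomputable def iota {B : Subring ℂ} (h : B ≤ (Int.castRingHom ℂ).range) (O : Type*) [Ring O] :
    B →+* O :=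
  (Int.castRingHom O).comp (intEquiv.symm.toRingHom.comp (Subring.inclusion h))

theorem iota_apply {B : Subring ℂ} (h : B ≤ (Int.castRingHom ℂ).range) (O : Type*) [Ring O]
    (x : B) (n : ℤ) (hx : (x : ℂ) = (n : ℂ)) : iota h O x = (n : O) := by
  have h1 : intEquiv.symm (Subring.inclusion h x) = n := by
    rw [RingEquiv.symm_apply_eq]
    exact Subtype.ext hx
  show (Int.castRingHom O) (intEquiv.symm (Subring.inclusion h x)) = _
  rw [h1]
  rfl

theorem finite_residueField (p : ℕ) [Fact p.Prime] :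
    Finite (IsLocalRing.ResidueField ℤ_[p]) :=
  Finite.of_equiv _ (PadicInt.residueField (p := p)).symm.toEquiv

theorem natCast_mem_maximalIdeal (p : ℕ) [Fact p.Prime] :
    (p : ℤ_[p]) ∈ IsLocalRing.maximalIdeal ℤ_[p] := by
  rw [PadicInt.maximalIdeal_eq_span_p]
  exact Ideal.mem_span_singleton_self _

/-- a local homomorphism maps the maximal ideal into the maximal ideal -/
theorem natCast_mem_of_isLocalHom {O O' : Type*} [CommRing O] [IsLocalRing O] [CommRing O']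
    [IsLocalRing O'] [Algebra O O'] [IsLocalHom (algebraMap O O')] {n : ℕ}
    (h : (n : O) ∈ IsLocalRing.maximalIdeal O) : (n : O') ∈ IsLocalRing.maximalIdeal O' := by
  rw [IsLocalRing.mem_maximalIdeal, mem_nonunits_iff] at h ⊢
  intro hu
  apply h
  apply isUnit_of_map_unit (algebraMap O O')
  rwa [map_natCast]

end Apply36

open Apply36 Fermat.Agent.S29.Eigen in
/-- `apply36_int` with the node LA1c as a hypothesis. -/
theorem apply36_int_of (hR : ResidualStatement) (h36 : S36Statement) (W : WeierstrassCurve ℤ)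
    (hΔ : W.Δ ≠ 0)
    {p : ℕ} [Fact p.Prime] (hp2 : p ≠ 2) (hirr : W.ModRepIsIrreducible p)
    {M : ℕ} [NeZero M] {g : CuspForm (CongruenceSubgroup.Gamma0 M) 2} (hg : g.IsNewform)
    (S : Finset ℕ) (hpS : p ∈ S) (hMS : ∀ q : ℕ, q.Prime → q ∣ M → q ∈ S)
    (ha : ∀ ℓ : ℕ, ℓ.Prime → ℓ ∉ S → qCoeff g ℓ = (W.apOfModel ℓ : ℂ)) :
    ∃ (O : Type) (_ : CommRing O) (_ : IsDomain O) (_ : IsDiscreteValuationRing O)
      (_ : CharZero O), (p : O) ∈ IsLocalRing.maximalIdeal O ∧ ∃ ρ : GaloisRepAdic O,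
      (∀ ℓ : ℕ, ℓ.Prime → ℓ ∉ S → ∀ A : ValuationSubring Qbar, A.LiesOverPrime ℓ →
        ∀ σ : GQ, A.IsFrobeniusAt σ ℓ →
          LinearMap.charpoly (ρ.ρ σ) = X ^ 2 - C ((W.apOfModel ℓ : ℤ) : O) * X + C (ℓ : O)) ∧
      (∀ q : ℕ, q.Prime → q ≠ p → M.factorization q = 2 → ¬ ρ.IsUnipotentOnInertiaAt q) := by
  have hge := hg.isNormalizedEigenform
  have hle := range_eigenChar_le hge S hMS (fun ℓ => W.apOfModel ℓ) ha
  haveI := finite_residueField p
  have hiota : ∀ (ℓ : ℕ) (hℓ : ℓ.Prime) (hℓM : ¬ ℓ ∣ M) (hℓS : ℓ ∉ (↑S : Set ℕ)),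
      ((iota hle ℤ_[p]).comp (eigenChar hge (↑S : Set ℕ)).rangeRestrict)
        (CuspForm.heckeAlgebra.T hℓ hℓM hℓS) = ((W.apOfModel ℓ : ℤ) : ℤ_[p]) := by
    intro ℓ hℓ hℓM hℓS
    rw [RingHom.comp_apply]
    apply iota_apply
    show eigenChar hge (↑S : Set ℕ) (CuspForm.heckeAlgebra.T hℓ hℓM hℓS) = _
    rw [eigenChar_T hge (↑S : Set ℕ) hℓ hℓM hℓS]
    exact ha ℓ hℓ (fun h => hℓS (Finset.mem_coe.2 h))
  obtain ⟨O'', i1, i2, i3, i4, i5, i6, i7, i8, i9, -, ρ, hρ1, hρ2⟩ :=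
    h36 hg p S ℤ_[p] (natCast_mem_maximalIdeal p) hp2 (eigenChar hge (↑S : Set ℕ))
      (fun ℓ hℓ hℓM hℓS => eigenChar_T hge (↑S : Set ℕ) hℓ hℓM hℓS) (iota hle ℤ_[p]) hpS hMS
      (by
        intro O'' _ _ _ _ _ _ _ _ _ _ ρ hρ
        refine hR W hΔ (Fact.out : p.Prime) hp2 hirr S
          (natCast_mem_of_isLocalHom (O := ℤ_[p]) (natCast_mem_maximalIdeal p)) ρ ?_
        intro ℓ hℓ hℓS A hA σ hσ
        have hℓM : ¬ ℓ ∣ M := fun h => hℓS (hMS ℓ hℓ h)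
        have hℓp : ℓ ≠ p := by
          rintro rfl
          exact hℓS hpS
        rw [hρ ℓ hℓ hℓp hℓM (fun h => hℓS (Finset.mem_coe.1 h)) A hA σ hσ, hiota, map_intCast])
  refine ⟨O'', i1, i2, i3, i6, natCast_mem_of_isLocalHom (O := ℤ_[p]) (natCast_mem_maximalIdeal p),
    ρ, ?_, hρ2⟩
  intro ℓ hℓ hℓS A hA σ hσ
  have hℓM : ¬ ℓ ∣ M := fun h => hℓS (hMS ℓ hℓ h)
  rw [hρ1 ℓ hℓ hℓM (fun h => hℓS (Finset.mem_coe.1 h)) A hA σ hσ, hiota, map_intCast]

end Fermat.Agent.S58
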