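import Fermat.Agent.Lib.FrobCHGen.Main

/-!
# S58, node EC3: Cayley-Hamilton for Frobenius over every prime field.
-/

set_option autoImplicit false
open Polynomial WeierstrassCurve WeierstrassCurve.Affine
open scoped WeierstrassCurve.Affine

namespace Fermat.Agent.S58

theorem CH_zmod (ℓ : ℕ) [Fact ℓ.Prime] (V : WeierstrassCurve (ZMod ℓ)) (hΔ : V.Δ ≠ 0)
    {K : Type*} [Field K] [Algebra (ZMod ℓ) K] [DecidableEq K] (P : (V⁄K).Point) :
    Point.map (W' := V) (FiniteField.frobeniusAlgHom (ZMod ℓ) K)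
        (Point.map (W' := V) (FiniteField.frobeniusAlgHom (ZMod ℓ) K) P)
      - ((ℓ : ℤ) + 1 - (Nat.card V.toAffine.Point : ℤ)) •
        Point.map (W' := V) (FiniteField.frobeniusAlgHom (ZMod ℓ) K) P
      + (ℓ : ℤ) • P = 0 := by
  have h := Fermat.Agent.Lib.FrobCHGen.CH V hΔ P
  rw [ZMod.card] at h
  exact h

end Fermat.Agent.S58
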