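import Mathlib
import Fermat.Agent.S58.Defs

/-!
# S58, section DV: integers in a DVR of mixed characteristic
Owner: helper292 (task S58-DV).
-/

set_option autoImplicit false

namespace Fermat.Agent.S58

theorem int_dvd_of_mem_span {O : Type*} [CommRing O] [IsDomain O] [IsLocalRing O] [CharZero O]
    {lam : ℕ} (hlam : lam.Prime) (hO : (lam : O) ∈ IsLocalRing.maximalIdeal O) (n : ℕ) (c : ℤ)
    (h : (c : O) ∈ Ideal.span {(lam : O) ^ n}) : (lam : ℤ) ^ n ∣ c := by
  induction n generalizing c with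
  | zero => simp
  | succ n ih =>
    obtain ⟨z, hz⟩ := Ideal.mem_span_singleton'.mp h
    have hlam0 : (lam : O) ≠ 0 := Nat.cast_ne_zero.mpr hlam.ne_zero
    have hcm : (c : O) ∈ IsLocalRing.maximalIdeal O := by
      rw [← hz, pow_succ, ← mul_assoc]
      exact Ideal.mul_mem_left _ _ hO
    have hdvd : (lam : ℤ) ∣ c := by
      by_contra hnd
      have hcop : IsCoprime (lam : ℤ) c :=
        (Nat.prime_iff_prime_int.mp hlam).irreducible.coprime_iff_not_dvd.mpr hnd
      obtain ⟨u, v, huv⟩ := hcop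
      have h1 : (u : O) * (lam : O) + (v : O) * (c : O) = 1 := by
        have := congrArg (Int.cast : ℤ → O) huv
        push_cast at this
        exact this
      have h2 : (1 : O) ∈ IsLocalRing.maximalIdeal O := by
        rw [← h1]
        exact Ideal.add_mem _ (Ideal.mul_mem_left _ _ hO) (Ideal.mul_mem_left _ _ hcm)
      exact (Ideal.ne_top_iff_one _).mp (IsLocalRing.maximalIdeal.isMaximal O).ne_top h2
    obtain ⟨c₁, rfl⟩ := hdvd
    have h3 : (c₁ : O) = z * (lam : O) ^ n := by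
      apply mul_left_cancel₀ hlam0
      have h4 : (((lam : ℤ) * c₁ : ℤ) : O) = (lam : O) * (c₁ : O) := by push_cast; ring
      rw [← h4, ← hz, pow_succ]
      ring
    have h5 := ih c₁ (Ideal.mem_span_singleton'.mpr ⟨z, h3.symm⟩)
    rw [pow_succ, mul_comm]
    exact mul_dvd_mul_left _ h5

theorem exists_maximalIdeal_pow_le {O : Type*} [CommRing O] [IsDomain O]
    [IsDiscreteValuationRing O] [CharZero O] (lam : ℕ) (hlam : lam ≠ 0) (n : ℕ) :
    ∃ m : ℕ, IsLocalRing.maximalIdeal O ^ m ≤ Ideal.span {(lam : O) ^ n} := by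
  obtain ⟨ϖ, hϖ⟩ := IsDiscreteValuationRing.exists_irreducible O
  have hne : Ideal.span {(lam : O) ^ n} ≠ ⊥ := by
    rw [Ne, Ideal.span_singleton_eq_bot]
    exact pow_ne_zero _ (Nat.cast_ne_zero.mpr hlam)
  obtain ⟨m, hm⟩ := IsDiscreteValuationRing.ideal_eq_span_pow_irreducible hne hϖ
  refine ⟨m, ?_⟩
  rw [hm, hϖ.maximalIdeal_eq, Ideal.span_singleton_pow]

theorem eq_zero_of_forall_mem_span {O : Type*} [CommRing O] [IsDomain O]
    [IsDiscreteValuationRing O] {lam : ℕ} (hO : (lam : O) ∈ IsLocalRing.maximalIdeal O) (x : O)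
    (h : ∀ n : ℕ, x ∈ Ideal.span {(lam : O) ^ n}) : x = 0 := by
  have h1 : x ∈ ⨅ i : ℕ, IsLocalRing.maximalIdeal O ^ i := by
    rw [Ideal.mem_iInf]
    intro i
    have h2 : Ideal.span {(lam : O) ^ i} ≤ IsLocalRing.maximalIdeal O ^ i := by
      rw [← Ideal.span_singleton_pow]
      exact Ideal.pow_right_mono ((Ideal.span_singleton_le_iff_mem _).mpr hO) i
    exact h2 (h i)
  rw [Ideal.iInf_pow_eq_bot_of_isLocalRing _ (IsLocalRing.maximalIdeal.isMaximal O).ne_top] at h1
  exact h1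

end Fermat.Agent.S58
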