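import Mathlib
import Fermat.Agent.S58.Defs

/-!
# S58, EC5: the trivial bounds `1 ≤ #E(𝔽_q) ≤ 2 q + 1`
-/

set_option autoImplicit false
open Polynomial WeierstrassCurve WeierstrassCurve.Affine
open scoped WeierstrassCurve.Affine

namespace Fermat.Agent.S58

/-- a monic quadratic has at most two roots -/
theorem hasse_card_quadratic_le {k : Type*} [Field k] (b c : k) (s : Finset k)
    (hs : ∀ y ∈ s, y ^ 2 + b * y + c = 0) : s.card ≤ 2 := by
  classical
  set P : Polynomial k := X ^ 2 + C b * X + C c with hPdef
  have hdeg : P.natDegree = 2 := by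
    rw [hPdef]; compute_degree!
  have hP : P ≠ 0 := fun h => by rw [h, natDegree_zero] at hdeg; omega
  have hsub : s ⊆ P.roots.toFinset := fun y hy => by
    rw [Multiset.mem_toFinset, mem_roots hP, IsRoot.def, hPdef]
    simpa using hs y hy
  calc s.card ≤ P.roots.toFinset.card := Finset.card_le_card hsub
    _ ≤ Multiset.card P.roots := Multiset.toFinset_card_le _
    _ ≤ P.natDegree := Polynomial.card_roots' P
    _ = 2 := hdeg

/-- the coordinates of a point -/
def hasseCoord {k : Type*} [Field k] {V : Affine k} : V.Point → Option (k × k)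
  | .zero => none
  | .some x y _ => Option.some (x, y)

theorem hasseCoord_injective {k : Type*} [Field k] {V : Affine k} :
    Function.Injective (hasseCoord (V := V)) := by
  rintro (_ | ⟨x₁, y₁, h₁⟩) (_ | ⟨x₂, y₂, h₂⟩) h <;>
    simp only [hasseCoord, Option.some.injEq, Prod.mk.injEq, reduceCtorEq] at h
  · rfl
  · obtain ⟨rfl, rfl⟩ := h; rfl

theorem hasse_card_le {k : Type*} [Field k] [Fintype k] (V : WeierstrassCurve k) :
    Nat.card V.toAffine.Point ≤ 2 * Fintype.card k + 1 := by
  classical
  set S : Finset (k × k) := Finset.univ.filter fun p => V.toAffine.Equation p.1 p.2 with hS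
  have hScard : S.card ≤ 2 * Fintype.card k := by
    refine (Finset.card_le_mul_card_image (f := Prod.fst) S 2 fun a _ => ?_).trans
      (Nat.mul_le_mul_left 2 (Finset.card_le_univ _))
    have hinj : Set.InjOn Prod.snd ((S.filter fun p => p.1 = a : Finset (k × k)) : Set (k × k)) := by
      intro p hp p' hp' h
      have h1 := (Finset.mem_filter.1 hp).2
      have h2 := (Finset.mem_filter.1 hp').2
      exact Prod.ext (h1.trans h2.symm) h
    rw [← Finset.card_image_of_injOn hinj]
    refine hasse_card_quadratic_le (V.a₁ * a + V.a₃) (-(a ^ 3 + V.a₂ * a ^ 2 + V.a₄ * a + V.a₆)) _ ?_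
    intro y hy
    obtain ⟨p, hp, rfl⟩ := Finset.mem_image.1 hy
    obtain ⟨hpS, rfl⟩ := Finset.mem_filter.1 hp
    have heq := (Finset.mem_filter.1 hpS).2
    rw [Affine.equation_iff] at heq
    linear_combination heq
  have hmem : ∀ P : V.toAffine.Point, hasseCoord P ∈ Finset.insertNone S := by
    rintro (_ | ⟨x, y, h⟩)
    · exact Finset.none_mem_insertNone
    · rw [hasseCoord, Finset.some_mem_insertNone, hS, Finset.mem_filter]
      exact ⟨Finset.mem_univ _, h.1⟩
  have h1 : Nat.card V.toAffine.Point ≤ Nat.card (Finset.insertNone S) :=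
    Nat.card_le_card_of_injective (fun P => (⟨hasseCoord P, hmem P⟩ : Finset.insertNone S))
      fun P Q h => hasseCoord_injective (congrArg Subtype.val h)
  have h2 : Nat.card (Finset.insertNone S) = S.card + 1 := by
    rw [Nat.card_eq_fintype_card, Fintype.card_coe, Finset.card_insertNone]
  omega

theorem apOfModel_ne (W : WeierstrassCurve ℤ) {q : ℕ} (hq : q.Prime) :
    W.apOfModel q ≠ (q : ℤ) + 1 ∧ W.apOfModel q ≠ -((q : ℤ) + 1) := by
  have : Fact q.Prime := ⟨hq⟩
  have hle := hasse_card_le (W.reductionMod q)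
  rw [ZMod.card] at hle
  have hpos : 0 < Nat.card (W.reductionMod q).toAffine.Point := Nat.card_pos
  unfold WeierstrassCurve.apOfModel WeierstrassCurve.traceOfFrobenius WeierstrassCurve.card
  rw [Nat.card_zmod]
  constructor <;> omega

end Fermat.Agent.S58
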