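import Mathlib

/-!
# S58 / MF2a: a ring homomorphism out of `ℤ[α]` sending `α` to an integer forces `α` to be that
integer.   Owner: helper183 (task 1678; architect helper143).
-/

set_option autoImplicit false
open Polynomial

namespace Fermat.Agent.S58

theorem eq_intCast_of_ringHom {α : ℂ} (hα : IsIntegral ℤ α) {O : Type*} [CommRing O] [CharZero O]
    (j : Algebra.adjoin ℤ {α} →+* O) (a : ℤ)
    (h : j ⟨α, Algebra.subset_adjoin rfl⟩ = (a : O)) : α = (a : ℂ) := by
  set α' : Algebra.adjoin ℤ {α} := ⟨α, Algebra.subset_adjoin rfl⟩ with hα'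
  set P : ℤ[X] := minpoly ℤ α with hP
  -- `P(α') = 0` in the subalgebra
  have h1 : aeval α' P = 0 := by
    apply Subtype.val_injective
    have : ((aeval α' P : Algebra.adjoin ℤ {α}) : ℂ) = aeval α P :=
      (Polynomial.aeval_algebraMap_apply ℂ α' P).symm
    rw [this]
    exact minpoly.aeval ℤ α
  -- apply `j`
  have h2 : P.eval₂ (Int.castRingHom O) (a : O) = 0 := by
    have h3 := congrArg j h1
    rw [map_zero, aeval_def, Polynomial.hom_eval₂, h] at h3
    have h4 : j.comp (algebraMap ℤ (Algebra.adjoin ℤ {α})) = Int.castRingHom O :=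
      RingHom.ext_int _ _
    rwa [h4] at h3
  have h5 : P.eval a = 0 := by
    have h6 : P.eval₂ (Int.castRingHom O) (Int.castRingHom O a) = Int.castRingHom O (P.eval a) :=
      Polynomial.eval₂_at_apply _ _
    have h7 : ((P.eval a : ℤ) : O) = 0 := by
      have : (Int.castRingHom O a) = (a : O) := rfl
      rw [this, h2] at h6
      exact h6.symm
    exact_mod_cast h7
  -- pass to `ℚ`
  have hαQ : IsIntegral ℚ α := hα.tower_top
  have h8 : minpoly ℚ α = P.map (algebraMap ℤ ℚ) :=
    minpoly.isIntegrallyClosed_eq_field_fractions' ℚ hα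
  have h9 : (minpoly ℚ α).IsRoot (a : ℚ) := by
    rw [h8, IsRoot.def, eval_map]
    have h6 : P.eval₂ (algebraMap ℤ ℚ) (algebraMap ℤ ℚ a) = algebraMap ℤ ℚ (P.eval a) :=
      Polynomial.eval₂_at_apply _ _
    rw [h5, map_zero] at h6
    exact h6
  have h10 : (X - C (a : ℚ)) ∣ minpoly ℚ α := dvd_iff_isRoot.2 h9
  rcases (minpoly.irreducible hαQ).dvd_iff.1 h10 with hu | hass
  · exact absurd hu (Polynomial.not_isUnit_X_sub_C _)
  · have h11 : minpoly ℚ α ∣ X - C (a : ℚ) := hass.dvd
    have h12 := (minpoly.dvd_iff (A := ℚ) (x := α)).1 h11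
    simp only [map_sub, aeval_X, aeval_C, eq_ratCast, Rat.cast_intCast] at h12
    exact sub_eq_zero.mp h12

end Fermat.Agent.S58
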