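import Mathlib
import Fermat.Agent.S58.Defs
import Fermat.Agent.S13.Torsion
import Fermat.Agent.S13.ModelOfWeierstrass

/-!
# S58, block EC1b (owner helper85): the torsion points of `Pt W` are defined over a number field
-/

set_option autoImplicit false
open Polynomial WeierstrassCurve WeierstrassCurve.Affine
open scoped WeierstrassCurve.Affine

namespace Fermat.Agent.S58

theorem Δ_ne_zero_Qbar (W : WeierstrassCurve ℤ) (hΔ : W.Δ ≠ 0) :
    ((W.map (Int.castRingHom ℚ))⁄Qbar).Δ ≠ 0 := by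
  have h1 : ((W.map (Int.castRingHom ℚ))⁄Qbar).Δ =
      algebraMap ℚ Qbar (Int.castRingHom ℚ W.Δ) := by
    show ((W.map (Int.castRingHom ℚ)).map (algebraMap ℚ Qbar)).Δ = _
    rw [WeierstrassCurve.map_Δ, WeierstrassCurve.map_Δ]
  rw [h1]
  intro h0
  apply hΔ
  have h2 : (Int.castRingHom ℚ W.Δ) = 0 := (map_eq_zero (algebraMap ℚ Qbar)).mp h0
  rw [eq_intCast] at h2
  exact_mod_cast h2

/-- a `2`-torsion point on a Weierstrass curve over an algebraically closed field with `2 ≠ 0` -/
theorem Level.exists_two_torsion {K : Type*} [Field K] [IsAlgClosed K] (h2 : (2 : K) ≠ 0)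
    (V : WeierstrassCurve.Affine K) :
    ∃ r s : K, V.Equation r s ∧ 2 * s + V.a₁ * r + V.a₃ = 0 := by
  have h4 : (4 : K) ≠ 0 := by
    have : (4 : K) = 2 * 2 := by norm_num
    rw [this]
    exact mul_ne_zero h2 h2
  let f : K[X] := C 4 * X ^ 3 + C V.b₂ * X ^ 2 + C (2 * V.b₄) * X + C V.b₆
  have hdeg : f.degree = 3 := degree_cubic h4
  obtain ⟨r, hr⟩ := IsAlgClosed.exists_root f (by rw [hdeg]; norm_num)
  have hr' : 4 * r ^ 3 + V.b₂ * r ^ 2 + 2 * V.b₄ * r + V.b₆ = 0 := by
    have := hr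
    simp only [f, IsRoot.def, eval_add, eval_mul, eval_C, eval_pow, eval_X] at this
    exact this
  refine ⟨r, -(V.a₁ * r + V.a₃) / 2, ?_, by field_simp; ring⟩
  rw [Affine.equation_iff]
  simp only [WeierstrassCurve.b₂, WeierstrassCurve.b₄, WeierstrassCurve.b₆] at hr'
  field_simp
  linear_combination -hr'

/-- the translated coefficient `a₄` does not vanish -/
theorem Level.a₄_ne_zero {K : Type*} [Field K] (V : WeierstrassCurve.Affine K) (hΔ : V.Δ ≠ 0)
    {r s : K} (hrs : V.Equation r s) (h2 : 2 * s + V.a₁ * r + V.a₃ = 0) :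
    V.a₄ + 2 * V.a₂ * r + 3 * r ^ 2 - V.a₁ * s ≠ 0 := by
  intro h0
  have hns : V.Nonsingular r s := (Affine.equation_iff_nonsingular_of_Δ_ne_zero hΔ).mp hrs
  rw [Affine.nonsingular_iff] at hns
  rcases hns.2 with h | h
  · exact h (by linear_combination -h0)
  · exact h (by linear_combination h2)

/-- finiteness of the `n`-torsion -/
theorem Level.finite_torsion {K : Type*} [Field K] [IsAlgClosed K] [CharZero K] [DecidableEq K]
    (V : WeierstrassCurve.Affine K) (hΔ : V.Δ ≠ 0) {n : ℕ} (hn : 0 < n) :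
    {P : V.Point | n • P = 0}.Finite := by
  obtain ⟨r, s, hrs, h2⟩ := Level.exists_two_torsion (two_ne_zero) V
  exact ((Fermat.Agent.S13.modelOfWeierstrass V r s hΔ hrs h2).finite_torsion
    (Level.a₄_ne_zero V hΔ hrs h2) hn).1

/-- the `x`-coordinate (junk value `0` at the origin) -/
def Level.cx {K : Type*} [Field K] (V : WeierstrassCurve.Affine K) : V.Point → K
  | .zero => 0
  | .some x _ _ => x

/-- the `y`-coordinate (junk value `0` at the origin) -/
def Level.cy {K : Type*} [Field K] (V : WeierstrassCurve.Affine K) : V.Point → K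
  | .zero => 0
  | .some _ y _ => y

theorem exists_finiteLevel (W : WeierstrassCurve ℤ) (hΔ : W.Δ ≠ 0) (n : ℕ) (hn : 0 < n) :
    ∃ L : IntermediateField ℚ Qbar, FiniteDimensional ℚ L ∧
      ∀ σ : GQ, (∀ x ∈ L, σ x = x) → ∀ P : Pt W, n • P = 0 → σ • P = P := by
  have hfin : {P : Pt W | n • P = 0}.Finite :=
    Level.finite_torsion _ (Δ_ne_zero_Qbar W hΔ) hn
  set T : Set (Pt W) := {P : Pt W | n • P = 0} with hT
  set C : Set Qbar := Level.cx _ '' T ∪ Level.cy _ '' T with hC
  have hCfin : C.Finite := (hfin.image _).union (hfin.image _)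
  have : Finite C := hCfin.to_subtype
  have : Algebra.IsAlgebraic ℚ Qbar := AlgebraicClosure.isAlgebraic ℚ
  refine ⟨IntermediateField.adjoin ℚ C,
    IntermediateField.finiteDimensional_adjoin fun x _ => Algebra.IsIntegral.isIntegral x,
    fun σ hσ P hP => ?_⟩
  rcases P with _ | ⟨x, y, h⟩
  · rfl
  · have hx : σ x = x := hσ x (IntermediateField.subset_adjoin _ _ (Or.inl ⟨_, hP, rfl⟩))
    have hy : σ y = y := hσ y (IntermediateField.subset_adjoin _ _ (Or.inr ⟨_, hP, rfl⟩))
    rw [Point.algEquiv_smul_def, Point.map_some]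
    simp only [Point.some.injEq]
    exact ⟨hx, hy⟩

end Fermat.Agent.S58
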