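import Fermat.Agent.S58.Defs
import Fermat.Prelude.Thm_CongruenceSubgroup_one_mem_strictPeriods_Gamma0

/-!
# S58, MF1a: `g(z)` and `g(rz)` as cusp forms of level `M r`
-/

set_option autoImplicit false
open Polynomial WeierstrassCurve WeierstrassCurve.Affine ModularFormClass
open scoped WeierstrassCurve.Affine

namespace Fermat.Agent.S58

open UpperHalfPlane ModularForm Matrix.SpecialLinearGroup Function
open scoped MatrixGroups ModularForm Pointwise

local notation "𝕢" => Periodic.qParam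

/-- Restriction of a cusp form to a smaller group. -/
def levelUp_restrict {Γ Γ' : Subgroup (GL (Fin 2) ℝ)} (hle : Γ ≤ Γ') {k : ℤ} (f : CuspForm Γ' k) :
    CuspForm Γ k where
  toFun := f
  slash_action_eq' γ hγ := f.slash_action_eq' γ (hle hγ)
  holo' := f.holo'
  zero_at_cusps' hc := f.zero_at_cusps' (hc.mono hle)

lemma levelUp_coe_restrict {Γ Γ' : Subgroup (GL (Fin 2) ℝ)} (hle : Γ ≤ Γ') {k : ℤ}
    (f : CuspForm Γ' k) : (levelUp_restrict hle f : ℍ → ℂ) = f := rfl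

lemma levelUp_Gamma0_le (M r : ℕ) :
    Subgroup.map (mapGL ℝ) (CongruenceSubgroup.Gamma0 (M * r)) ≤
      Subgroup.map (mapGL ℝ) (CongruenceSubgroup.Gamma0 M) := by
  apply Subgroup.map_mono
  intro γ hγ
  rw [CongruenceSubgroup.Gamma0_mem] at hγ ⊢
  rw [ZMod.intCast_zmod_eq_zero_iff_dvd] at hγ ⊢
  exact dvd_trans (by push_cast; exact Dvd.intro _ rfl) hγ

/-- The matrix `diag(r, 1)`. -/
noncomputable def levelUp_alpha (r : ℕ) (hr : 0 < r) : GL (Fin 2) ℝ :=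
  Matrix.GeneralLinearGroup.mkOfDetNeZero !![(r : ℝ), 0; 0, 1]
    (by simp [Matrix.det_fin_two, hr.ne'])

lemma levelUp_Gamma0_le_conj (M r : ℕ) (hr : 0 < r) :
    Subgroup.map (mapGL ℝ) (CongruenceSubgroup.Gamma0 (M * r)) ≤
      ConjAct.toConjAct (levelUp_alpha r hr)⁻¹ •
        Subgroup.map (mapGL ℝ) (CongruenceSubgroup.Gamma0 M) := by
  rintro _ ⟨γ, hγ, rfl⟩
  rw [Subgroup.mem_pointwise_smul_iff_inv_smul_mem, ← map_inv, inv_inv, ConjAct.toConjAct_smul]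
  have hN : (r : ℝ) ≠ 0 := Nat.cast_ne_zero.mpr hr.ne'
  have hc : ((M * r : ℕ) : ℤ) ∣ γ 1 0 := by
    have := (CongruenceSubgroup.Gamma0_mem).mp hγ
    exact (ZMod.intCast_zmod_eq_zero_iff_dvd _ _).mp this
  obtain ⟨c', hc'⟩ := hc
  have hdet : γ 0 0 * γ 1 1 - γ 0 1 * γ 1 0 = 1 := by
    have := γ.det_coe
    rwa [Matrix.det_fin_two] at this
  have hdet' : (!![γ 0 0, r * γ 0 1; M * c', γ 1 1] : Matrix (Fin 2) (Fin 2) ℤ).det = 1 := by
    rw [Matrix.det_fin_two_of]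
    rw [hc'] at hdet
    push_cast at hdet
    linear_combination hdet
  let γ' : SL(2, ℤ) := ⟨!![γ 0 0, r * γ 0 1; M * c', γ 1 1], hdet'⟩
  have h00 : γ' 0 0 = γ 0 0 := rfl
  have h01 : γ' 0 1 = r * γ 0 1 := rfl
  have h10 : γ' 1 0 = M * c' := rfl
  have h11 : γ' 1 1 = γ 1 1 := rfl
  refine ⟨γ', ?_, ?_⟩
  · show γ' ∈ CongruenceSubgroup.Gamma0 M
    rw [CongruenceSubgroup.Gamma0_mem, h10]
    simp
  rw [eq_mul_inv_iff_mul_eq]
  ext i j
  fin_cases i <;> fin_cases j <;>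
    simp [levelUp_alpha, Matrix.mul_apply, Fin.sum_univ_two, mapGL_coe_matrix, hc', h00, h01, h10,
      h11, mul_comm, mul_assoc, mul_left_comm]

lemma levelUp_det_alpha (r : ℕ) (hr : 0 < r) : (levelUp_alpha r hr).det.val = (r : ℝ) := by
  simp [levelUp_alpha, Matrix.det_fin_two]

lemma levelUp_det_alpha_pos (r : ℕ) (hr : 0 < r) : 0 < (levelUp_alpha r hr).det.val := by
  rw [levelUp_det_alpha]
  exact Nat.cast_pos.mpr hr

lemma levelUp_coe_alpha_smul (r : ℕ) (hr : 0 < r) (τ : ℍ) :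
    ((levelUp_alpha r hr • τ : ℍ) : ℂ) = r * τ := by
  rw [coe_smul_of_det_pos (levelUp_det_alpha_pos r hr)]
  simp [num, denom, levelUp_alpha]

lemma levelUp_denom_alpha (r : ℕ) (hr : 0 < r) (τ : ℍ) : denom (levelUp_alpha r hr) τ = 1 := by
  simp [denom, levelUp_alpha]

lemma levelUp_slash_alpha_apply (r : ℕ) (hr : 0 < r) (k : ℤ) (F : ℍ → ℂ) (τ : ℍ) :
    (F ∣[k] levelUp_alpha r hr) τ = (r : ℂ) ^ (k - 1) * F (levelUp_alpha r hr • τ) := by
  have hσ : σ (levelUp_alpha r hr) = .refl ℝ ℂ := by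
    rw [σ, if_pos (levelUp_det_alpha_pos r hr)]
  rw [ModularForm.slash_apply, levelUp_denom_alpha, one_zpow, mul_one, levelUp_det_alpha, hσ]
  simp [mul_comm]

lemma levelUp_qParam_alpha_smul (r : ℕ) (hr : 0 < r) (τ : ℍ) :
    𝕢 1 ((levelUp_alpha r hr • τ : ℍ) : ℂ) = 𝕢 1 (τ : ℂ) ^ r := by
  rw [levelUp_coe_alpha_smul, Periodic.qParam, Periodic.qParam, ← Complex.exp_nat_mul]
  congr 1
  ring

/-- `g ∣[k] diag(r,1)` as a cusp form of level `M r`. -/
noncomputable def levelUp_lvl {M : ℕ} {k : ℤ} (r : ℕ) (hr : 0 < r)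
    (g : CuspForm (CongruenceSubgroup.Gamma0 M) k) :
    CuspForm (CongruenceSubgroup.Gamma0 (M * r)) k :=
  levelUp_restrict (levelUp_Gamma0_le_conj M r hr) (CuspForm.translate g (levelUp_alpha r hr))

lemma levelUp_coe_lvl {M : ℕ} {k : ℤ} (r : ℕ) (hr : 0 < r)
    (g : CuspForm (CongruenceSubgroup.Gamma0 M) k) :
    (levelUp_lvl r hr g : ℍ → ℂ) = (g : ℍ → ℂ) ∣[k] levelUp_alpha r hr := rfl

lemma levelUp_coeff_qExpansion_lvl {M : ℕ} {k : ℤ} (r : ℕ) (hr : 0 < r)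
    (g : CuspForm (CongruenceSubgroup.Gamma0 M) k) (m : ℕ) :
    (qExpansion 1 (levelUp_lvl r hr g)).coeff m =
      if r ∣ m then (r : ℂ) ^ (k - 1) * (qExpansion 1 g).coeff (m / r) else 0 := by
  refine (ModularFormClass.qExpansion_coeff_unique (c := fun m => if r ∣ m then
    (r : ℂ) ^ (k - 1) * (qExpansion 1 g).coeff (m / r) else 0) one_pos
    (CongruenceSubgroup.one_mem_strictPeriods_Gamma0 (M * r)) (f := levelUp_lvl r hr g)
    (fun τ => ?_) m).symm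
  have : Fact (IsCusp OnePoint.infty (Subgroup.map (mapGL ℝ) (CongruenceSubgroup.Gamma0 M))) :=
    ⟨Subgroup.isCusp_of_mem_strictPeriods one_pos
      (CongruenceSubgroup.one_mem_strictPeriods_Gamma0 M)⟩
  have h1 := ModularForm.hasSum_qExpansion g one_pos
    (CongruenceSubgroup.one_mem_strictPeriods_Gamma0 M) (levelUp_alpha r hr • τ)
  rw [levelUp_qParam_alpha_smul] at h1
  have h2 := h1.mul_left ((r : ℂ) ^ (k - 1))
  rw [levelUp_coe_lvl, levelUp_slash_alpha_apply]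
  have hinj : Function.Injective (fun n : ℕ => r * n) :=
    fun a b h => Nat.eq_of_mul_eq_mul_left hr h
  refine (hinj.hasSum_iff ?_).mp ?_
  · intro x hx
    have : ¬ r ∣ x := fun ⟨c, hc⟩ => hx ⟨c, hc.symm⟩
    simp [this]
  · have hfun : ((fun m : ℕ => (if r ∣ m then (r : ℂ) ^ (k - 1) * (qExpansion 1 g).coeff (m / r)
        else 0) • 𝕢 1 (τ : ℂ) ^ m) ∘ fun n : ℕ => r * n) =
        fun i => (r : ℂ) ^ (k - 1) * ((qExpansion 1 g).coeff i * (𝕢 1 (τ : ℂ) ^ r) ^ i) := by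
      funext n
      simp [Function.comp, Nat.mul_div_cancel_left _ hr, pow_mul, mul_assoc]
    rw [hfun]
    exact h2

theorem exists_levelUp {M : ℕ} (g : CuspForm (CongruenceSubgroup.Gamma0 M) 2) (r : ℕ)
    (hr : 0 < r) :
    ∃ g₁ : CuspForm (CongruenceSubgroup.Gamma0 (M * r)) 2, ∀ n, qCoeff g₁ n = qCoeff g n :=
  ⟨levelUp_restrict (levelUp_Gamma0_le M r) g, fun _ => rfl⟩

theorem exists_V {M : ℕ} (g : CuspForm (CongruenceSubgroup.Gamma0 M) 2) (r : ℕ) (hr : 0 < r) :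
    ∃ g₂ : CuspForm (CongruenceSubgroup.Gamma0 (M * r)) 2,
      ∀ n, qCoeff g₂ n = if r ∣ n then qCoeff g (n / r) else 0 := by
  have hr0 : (r : ℂ) ≠ 0 := Nat.cast_ne_zero.mpr hr.ne'
  refine ⟨(r : ℂ)⁻¹ • levelUp_lvl r hr g, fun n => ?_⟩
  rw [qCoeff, qCoeff, FunLike.coe_smul, ModularForm.qExpansion_smul one_pos
    (CongruenceSubgroup.one_mem_strictPeriods_Gamma0 (M * r)), PowerSeries.coeff_smul,
    levelUp_coeff_qExpansion_lvl]
  split_ifs with h
  · rw [smul_eq_mul]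
    norm_num
    rw [inv_mul_cancel_left₀ hr0]
  · simp

end Fermat.Agent.S58
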