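import Mathlib

/-!
# S58, block EC2a (helper72): three collinear points (with multiplicity) sum to zero.
-/

set_option autoImplicit false
open Polynomial WeierstrassCurve WeierstrassCurve.Affine

namespace Fermat.Agent.S58

theorem add_add_eq_zero_of_line {F : Type*} [Field F] [DecidableEq F] (W : Affine F)
    {x₁ y₁ x₂ y₂ x₃ y₃ ℓ : F} (h₁ : W.Nonsingular x₁ y₁) (h₂ : W.Nonsingular x₂ y₂)
    (h₃ : W.Nonsingular x₃ y₃)
    (e₂ : y₂ = ℓ * (x₂ - x₁) + y₁) (e₃ : y₃ = ℓ * (x₃ - x₁) + y₁)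
    (s₁ : x₁ + x₂ + x₃ = ℓ ^ 2 + W.a₁ * ℓ - W.a₂)
    (s₂ : x₁ * x₂ + x₁ * x₃ + x₂ * x₃ =
        2 * x₁ * ℓ ^ 2 + (W.a₁ * x₁ - 2 * y₁ - W.a₃) * ℓ + (-W.a₁ * y₁ + W.a₄))
    (s₃ : x₁ * x₂ * x₃ =
        x₁ ^ 2 * ℓ ^ 2 - (2 * x₁ * y₁ + W.a₃ * x₁) * ℓ + (y₁ ^ 2 + W.a₃ * y₁ - W.a₆)) :
    Point.some x₁ y₁ h₁ + Point.some x₂ y₂ h₂ + Point.some x₃ y₃ h₃ = 0 := by
  have key : ¬(x₁ = x₂ ∧ y₁ = W.negY x₂ y₂) ∧ W.slope x₁ x₂ y₁ y₂ = ℓ := by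
    by_cases hx : x₁ = x₂
    · subst hx
      have hy : y₂ = y₁ := by rw [e₂]; ring
      subst hy
      have ht : 3 * x₁ ^ 2 + 2 * W.a₂ * x₁ + W.a₄ - W.a₁ * y₂ =
          ℓ * (2 * y₂ + W.a₁ * x₁ + W.a₃) := by
        have hx₃ : x₃ = ℓ ^ 2 + W.a₁ * ℓ - W.a₂ - 2 * x₁ := by linear_combination s₁
        rw [hx₃] at s₂
        linear_combination -s₂
      have hne : y₂ ≠ W.negY x₁ y₂ := by
        intro h
        have h0 : 2 * y₂ + W.a₁ * x₁ + W.a₃ = 0 := by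
          rw [negY] at h
          linear_combination h
        rw [h0, mul_zero] at ht
        rcases ((W.nonsingular_iff' x₁ y₂).1 h₁).2 with h' | h'
        · exact h' (by linear_combination -ht)
        · exact h' h0
      refine ⟨fun h => hne h.2, ?_⟩
      rw [slope_of_Y_ne rfl hne, div_eq_iff (sub_ne_zero.2 hne), ht, negY]
      ring
    · refine ⟨fun h => hx h.1, ?_⟩
      rw [slope_of_X_ne hx, div_eq_iff (sub_ne_zero.2 hx), e₂]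
      ring
  obtain ⟨hxy, hs⟩ := key
  have hX : W.addX x₁ x₂ (W.slope x₁ x₂ y₁ y₂) = x₃ := by
    rw [hs, addX]
    linear_combination -s₁
  have hY : W.addY x₁ x₂ y₁ (W.slope x₁ x₂ y₁ y₂) = W.negY x₃ y₃ := by
    rw [addY, negAddY, hX, hs, e₃]
  rw [add_eq_zero_iff_eq_neg, Point.add_some hxy, Point.neg_some]
  simp only [Point.some.injEq]
  exact ⟨hX, hY⟩

end Fermat.Agent.S58
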