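import Mathlib
import Fermat.Agent.S58.Defs

/-!
# S58, LA0: powers of a root of a quadratic
-/

set_option autoImplicit false
open Polynomial

namespace Fermat.Agent.S58

theorem map_lucasV {R S : Type*} [CommRing R] [CommRing S] (f : R →+* S) (a b : R) (k : ℕ) :
    f (lucasV a b k) = lucasV (f a) (f b) k := by
  induction k using Nat.twoStepInduction with
  | zero => simp [lucasV, map_ofNat]
  | one => simp [lucasV]
  | more k h1 h2 => simp [lucasV, h1, h2]

/-- `V_k (x + y, x y) = x ^ k + y ^ k`. -/
theorem Lucas.lucasV_add_mul {R : Type*} [CommRing R] (x y : R) (k : ℕ) :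
    lucasV (x + y) (x * y) k = x ^ k + y ^ k := by
  induction k using Nat.twoStepInduction with
  | zero => simp [lucasV]; norm_num
  | one => simp [lucasV]
  | more k h1 h2 =>
    rw [lucasV, h1, h2]
    ring

/-- the commutative version of `pow_quadratic`. -/
theorem Lucas.pow_quadratic_comm {R : Type*} [CommRing R] (a b x : R) (h : x ^ 2 - a * x + b = 0)
    (k : ℕ) : x ^ (2 * k) - lucasV a b k * x ^ k + b ^ k = 0 := by
  obtain ⟨y, rfl⟩ : ∃ y, a = x + y := ⟨a - x, by ring⟩
  obtain rfl : b = x * y := by linear_combination h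
  rw [Lucas.lucasV_add_mul]
  ring

/-- the polynomial version. -/
theorem Lucas.dvd_poly (a b : ℤ) (k : ℕ) :
    (X ^ 2 - C a * X + C b : ℤ[X]) ∣ X ^ (2 * k) - C (lucasV a b k) * X ^ k + C b ^ k := by
  set P : ℤ[X] := X ^ 2 - C a * X + C b with hP
  rw [← AdjoinRoot.mk_eq_zero]
  have h0 : AdjoinRoot.mk P X ^ 2 - AdjoinRoot.mk P (C a) * AdjoinRoot.mk P X
      + AdjoinRoot.mk P (C b) = 0 := by
    rw [← map_pow, ← map_mul, ← map_sub, ← map_add, ← hP, AdjoinRoot.mk_self]
  have h1 := Lucas.pow_quadratic_comm _ _ _ h0 k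
  have h2 : lucasV (AdjoinRoot.mk P (C a)) (AdjoinRoot.mk P (C b)) k =
      AdjoinRoot.mk P (C (lucasV a b k)) := by
    have := map_lucasV ((AdjoinRoot.mk P).comp C) a b k
    simpa using this.symm
  rw [h2] at h1
  simpa using h1

theorem pow_quadratic {G : Type*} [AddCommGroup G] (f : G →+ G) (a b : ℤ)
    (h : ∀ x, f (f x) - a • f x + b • x = 0) (k : ℕ) (x : G) :
    f^[k] (f^[k] x) - lucasV a b k • f^[k] x + b ^ k • x = 0 := by
  let F : AddMonoid.End G := f
  have ev : ∀ (A B : AddMonoid.End G) (c d : ℤ) (y : G),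
      (A - (c : AddMonoid.End G) * B + (d : AddMonoid.End G)) y = A y - c • B y + d • y := by
    intro A B c d y
    show A y - (c : AddMonoid.End G) (B y) + (d : AddMonoid.End G) y = _
    rw [AddMonoid.End.intCast_apply, AddMonoid.End.intCast_apply]
  obtain ⟨Q, hQ⟩ := Lucas.dvd_poly a b k
  have h0 : aeval F (X ^ 2 - C a * X + C b : ℤ[X]) = 0 := by
    ext y
    simp only [map_add, map_sub, map_mul, map_pow, aeval_X, eq_intCast, map_intCast]
    rw [ev, pow_two]
    exact h y
  have h1 := congrArg (aeval F) hQ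
  rw [map_mul, h0, zero_mul] at h1
  have h2 := DFunLike.congr_fun h1 x
  simp only [map_add, map_sub, map_mul, map_pow, aeval_X, eq_intCast, map_intCast] at h2
  rw [← Int.cast_pow, ev, two_mul, pow_add] at h2
  have h3 : (F ^ k * F ^ k) x = (F ^ k) ((F ^ k) x) := rfl
  rw [h3, AddMonoid.End.coe_pow] at h2
  exact h2

theorem charpoly_eq_of_finrank_two {R M : Type*} [CommRing R] [Nontrivial R] [AddCommGroup M]
    [Module R M] [Module.Free R M] [Module.Finite R M] (h2 : Module.finrank R M = 2)
    (f : Module.End R M) :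
    f.charpoly = X ^ 2 - C (LinearMap.trace R M f) * X + C (LinearMap.det f) := by
  let B := Module.finBasisOfFinrankEq R M h2
  rw [← LinearMap.charpoly_toMatrix f B, Matrix.charpoly_fin_two,
    LinearMap.trace_eq_matrix_trace R B f, LinearMap.det_toMatrix B f]

theorem trace_pow_of_charpoly {R M : Type*} [CommRing R] [Nontrivial R] [AddCommGroup M]
    [Module R M] [Module.Free R M] [Module.Finite R M] (h2 : Module.finrank R M = 2)
    (f : Module.End R M) (a b : R) (h : f.charpoly = X ^ 2 - C a * X + C b) (k : ℕ) :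
    LinearMap.trace R M (f ^ k) = lucasV a b k ∧ LinearMap.det (f ^ k) = b ^ k := by
  have h1 := charpoly_eq_of_finrank_two h2 f
  rw [h] at h1
  have hb : LinearMap.det f = b := by
    have := congrArg (fun p => coeff p 0) h1
    simpa using this.symm
  have ha : LinearMap.trace R M f = a := by
    have := congrArg (fun p => coeff p 1) h1
    simpa [coeff_X_pow] using this.symm
  refine ⟨?_, by rw [map_pow, hb]⟩
  have hCH : f ^ 2 = a • f - b • 1 := by
    have := LinearMap.aeval_self_charpoly f
    rw [h] at this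
    simp only [map_add, map_sub, map_mul, map_pow, aeval_X, aeval_C] at this
    rw [← sub_eq_zero, ← this]
    simp only [Algebra.algebraMap_eq_smul_one, smul_mul_assoc, one_mul]
    abel
  induction k using Nat.twoStepInduction with
  | zero =>
    rw [pow_zero, LinearMap.trace_one, h2]
    simp [lucasV]
  | one => rw [pow_one, ha]; rfl
  | more k e1 e2 =>
    have : f ^ (k + 2) = a • f ^ (k + 1) - b • f ^ k := by
      rw [pow_add, hCH, mul_sub, mul_smul_comm, mul_smul_comm, mul_one, ← pow_succ]
    rw [this, map_sub, map_smul, map_smul, e1, e2]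
    rfl

end Fermat.Agent.S58
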