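import Fermat.Agent.S13.NewtonPoly
import Fermat.Agent.S13.Reduction

/-!
# S58, block EC4: a two-torsion point reducing to the node

Let `V` be an integral Weierstrass equation over an algebraically closed valued field with
`v Δ < 1` and `v c₄ = 1` (multiplicative reduction).  We produce a two-torsion point `(r, s)` with
integral coordinates which reduces to the singular point of the reduction.
-/

set_option autoImplicit false

open Polynomial

namespace Fermat.Agent.S58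

open Fermat.Agent.S13 Fermat.Agent.S13.Red

variable {K : Type*} [Field K] [IsAlgClosed K] {Γ₀ : Type*} [LinearOrderedCommGroupWithZero Γ₀]
  (v : Valuation K Γ₀)

/-- A cubic polynomial with integral constant coefficient one of whose two top coefficients is a
unit has an integral root. -/
theorem exists_integral_root_cubic (c₃ c₂ c₁ c₀ : K) (h₀ : v c₀ ≤ 1)
    (h : v c₃ = 1 ∨ v c₂ = 1) :
    ∃ r : K, c₃ * r ^ 3 + c₂ * r ^ 2 + c₁ * r + c₀ = 0 ∧ v r ≤ 1 := by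
  set f : K[X] := C c₃ * X ^ 3 + C c₂ * X ^ 2 + C c₁ * X + C c₀ with hf
  have hc3 : f.coeff 3 = c₃ := by
    simp [hf, coeff_X_pow]
  have hc2 : f.coeff 2 = c₂ := by
    simp [hf, coeff_X_pow]
  have hc0 : f.coeff 0 = c₀ := by
    simp [hf, coeff_X, coeff_C, coeff_X_pow]
  have hf0 : f ≠ 0 := by
    intro h0
    rcases h with h | h
    · rw [← hc3, h0, coeff_zero, map_zero] at h
      exact zero_ne_one h
    · rw [← hc2, h0, coeff_zero, map_zero] at h
      exact zero_ne_one h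
  by_contra hcon
  push Not at hcon
  have hroots : ∀ r : K, f.eval r = 0 → 1 < v r := fun r hr =>
    hcon r (by simpa [hf] using hr)
  have hD := constDom_of_roots (v := v) hf0 hroots
  rcases h with h | h
  · have := hD.2 3 (by norm_num)
    rw [hc3, hc0, h] at this
    exact absurd h₀ (not_le.mpr this)
  · have := hD.2 2 (by norm_num)
    rw [hc2, hc0, h] at this
    exact absurd h₀ (not_le.mpr this)

omit [LinearOrderedCommGroupWithZero Γ₀] in
/-- A monic quadratic polynomial has a root. -/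
theorem exists_root_quadratic (b c : K) : ∃ y : K, y ^ 2 + b * y + c = 0 := by
  have hdeg : (C (1 : K) * X ^ 2 + C b * X + C c).degree = 2 := degree_quadratic one_ne_zero
  obtain ⟨y, hy⟩ := IsAlgClosed.exists_root (C (1 : K) * X ^ 2 + C b * X + C c)
    (by rw [hdeg]; norm_num)
  refine ⟨y, ?_⟩
  simpa [IsRoot.def] using hy

variable {v}

omit [IsAlgClosed K] in
theorem val_eq_one_of_mul_eq_one {x y : K} (hx : v x ≤ 1) (hy : v y ≤ 1) (h : v (x * y) = 1) :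
    v x = 1 := by
  refine le_antisymm hx ?_
  rw [← h, map_mul]
  exact mul_le_of_le_one_right' hy

omit [IsAlgClosed K] in
theorem val_eq_one_of_pow_eq_one {x : K} {n : ℕ} (hn : n ≠ 0) (h : v (x ^ n) = 1) : v x = 1 := by
  rw [map_pow] at h
  exact (pow_eq_one_iff.mp h).resolve_right hn

omit [IsAlgClosed K] in
theorem val_lt_one_of_pow_lt_one {x : K} {n : ℕ} (h : v (x ^ n) < 1) : v x < 1 := by
  rw [map_pow] at h
  by_contra hcon
  rw [not_lt] at hcon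
  exact absurd h (not_lt.mpr (one_le_pow_of_one_le' hcon n))

variable (v)

/-- An integral two-torsion point. -/
theorem exists_integral_two_torsion (V : WeierstrassCurve K)
    (h₁ : v V.a₁ ≤ 1) (h₂ : v V.a₂ ≤ 1) (h₃ : v V.a₃ ≤ 1) (h₄ : v V.a₄ ≤ 1) (h₆ : v V.a₆ ≤ 1)
    (hc₄ : v V.c₄ = 1) :
    ∃ r s : K, V.toAffine.Equation r s ∧ 2 * s + V.a₁ * r + V.a₃ = 0 ∧ v r ≤ 1 ∧ v s ≤ 1 := by
  have hb₂ : v V.b₂ ≤ 1 := by
    rw [WeierstrassCurve.b₂]
    exact le_add v (le_pow v h₁ 2) (le_mul v (le_ofNat v 4) h₂)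
  have hb₄ : v V.b₄ ≤ 1 := by
    rw [WeierstrassCurve.b₄]
    exact le_add v (le_mul v (le_ofNat v 2) h₄) (le_mul v h₁ h₃)
  have hb₆ : v V.b₆ ≤ 1 := by
    rw [WeierstrassCurve.b₆]
    exact le_add v (le_pow v h₃ 2) (le_mul v (le_ofNat v 4) h₆)
  have hunit : v (4 : K) = 1 ∨ v V.b₂ = 1 := by
    by_contra hcon
    rw [not_or] at hcon
    have h4 : v (4 : K) < 1 := lt_of_le_of_ne (le_ofNat v 4) hcon.1
    have hb : v V.b₂ < 1 := lt_of_le_of_ne hb₂ hcon.2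
    have : v V.c₄ < 1 := by
      have e : V.c₄ = V.b₂ ^ 2 - 4 * (6 * V.b₄) := by rw [WeierstrassCurve.c₄]; ring
      rw [e]
      exact lt_sub v (lt_pow v hb two_ne_zero) (lt_mul_left v h4 (le_mul v (le_ofNat v 6) hb₄))
    exact absurd hc₄ this.ne
  obtain ⟨r, hr, hvr⟩ := exists_integral_root_cubic v 4 V.b₂ (2 * V.b₄) V.b₆ hb₆ hunit
  obtain ⟨s, hs⟩ := exists_root_quadratic (V.a₁ * r + V.a₃)
    (-(r ^ 3 + V.a₂ * r ^ 2 + V.a₄ * r + V.a₆))
  refine ⟨r, s, ?_, ?_, hvr, ?_⟩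
  · rw [WeierstrassCurve.Affine.equation_iff]
    linear_combination hs
  · have : (2 * s + V.a₁ * r + V.a₃) ^ 2 = 0 := by
      rw [WeierstrassCurve.b₂, WeierstrassCurve.b₄, WeierstrassCurve.b₆] at hr
      linear_combination 4 * hs + hr
    exact pow_eq_zero_iff two_ne_zero |>.mp this
  · apply le_one_of_sq_add_mul v (b := V.a₁ * r + V.a₃) (le_add v (le_mul v h₁ hvr) h₃)
    have e : s ^ 2 + (V.a₁ * r + V.a₃) * s = r ^ 3 + V.a₂ * r ^ 2 + V.a₄ * r + V.a₆ := by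
      linear_combination hs
    rw [e]
    exact le_add v (le_add v (le_add v (le_pow v hvr 3) (le_mul v h₂ (le_pow v hvr 2)))
      (le_mul v h₄ hvr)) h₆

/-- **EC4.**  A two-torsion point with integral coordinates reducing to the node. -/
theorem exists_node_two_torsion (V : WeierstrassCurve K)
    (h₁ : v V.a₁ ≤ 1) (h₂ : v V.a₂ ≤ 1) (h₃ : v V.a₃ ≤ 1) (h₄ : v V.a₄ ≤ 1) (h₆ : v V.a₆ ≤ 1)
    (hΔ0 : V.Δ ≠ 0) (hΔ : v V.Δ < 1) (hc₄ : v V.c₄ = 1) :
    ∃ r s : K, V.toAffine.Equation r s ∧ 2 * s + V.a₁ * r + V.a₃ = 0 ∧ v r ≤ 1 ∧ v s ≤ 1 ∧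
      v (3 * r ^ 2 + 2 * V.a₂ * r + V.a₄ - V.a₁ * s) < 1 := by
  obtain ⟨r, s, heq, h2, hvr, hvs⟩ := exists_integral_two_torsion v V h₁ h₂ h₃ h₄ h₆ hc₄
  rw [WeierstrassCurve.Affine.equation_iff] at heq
  set A₄ : K := 3 * r ^ 2 + 2 * V.a₂ * r + V.a₄ - V.a₁ * s with hA₄
  set B₂ : K := V.a₁ ^ 2 + 4 * (V.a₂ + 3 * r) with hB₂
  have hvA₄ : v A₄ ≤ 1 :=
    le_sub v (le_add v (le_add v (le_mul v (le_ofNat v 3) (le_pow v hvr 2))
      (le_mul v (le_mul v (le_ofNat v 2) h₂) hvr)) h₄) (le_mul v h₁ hvs)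
  have hvB₂ : v B₂ ≤ 1 :=
    le_add v (le_pow v h₁ 2) (le_mul v (le_ofNat v 4) (le_add v h₂ (le_mul v (le_ofNat v 3) hvr)))
  have ha₃ : V.a₃ = -(2 * s + V.a₁ * r) := by linear_combination h2
  have ha₆ : V.a₆ = s ^ 2 + V.a₁ * r * s + V.a₃ * s - (r ^ 3 + V.a₂ * r ^ 2 + V.a₄ * r) := by
    linear_combination -heq
  have hΔe : V.Δ = A₄ ^ 2 * (B₂ ^ 2 - 64 * A₄) := by
    rw [WeierstrassCurve.Δ, WeierstrassCurve.b₂, WeierstrassCurve.b₄, WeierstrassCurve.b₆,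
      WeierstrassCurve.b₈, ha₆, ha₃, hA₄, hB₂]
    ring
  have hc₄e : V.c₄ = B₂ ^ 2 - 48 * A₄ := by
    rw [WeierstrassCurve.c₄, WeierstrassCurve.b₂, WeierstrassCurve.b₄, ha₃, hA₄, hB₂]
    ring
  rcases hvA₄.lt_or_eq with hlt | heq1
  · exact ⟨r, s, (WeierstrassCurve.Affine.equation_iff _ _).mpr heq, h2, hvr, hvs, hlt⟩
  -- the other case: residue characteristic `≠ 2` and the other two points reduce to the node
  have hD : v (B₂ ^ 2 - 64 * A₄) < 1 := by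
    rw [hΔe, map_mul, map_pow, heq1, one_pow, one_mul] at hΔ
    exact hΔ
  have h16 : v (16 : K) = 1 := by
    have e : V.c₄ = (B₂ ^ 2 - 64 * A₄) + 16 * A₄ := by rw [hc₄e]; ring
    rw [e, v.map_add_eq_of_lt_right, map_mul, heq1, mul_one] at hc₄
    · exact hc₄
    · by_contra hcon
      rw [not_lt] at hcon
      have h16' : v (16 * A₄) < 1 := lt_of_le_of_lt hcon hD
      have : v ((B₂ ^ 2 - 64 * A₄) + 16 * A₄) < 1 := lt_add v hD h16'
      exact absurd hc₄ this.ne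
  have hv2 : v (2 : K) = 1 := by
    have e : (16 : K) = 2 ^ 4 := by norm_num
    rw [e] at h16
    exact val_eq_one_of_pow_eq_one (by norm_num) h16
  have h20 : (2 : K) ≠ 0 := v.ne_zero_iff.mp (by rw [hv2]; exact one_ne_zero)
  obtain ⟨t, ht⟩ : ∃ t : K, 2 * t = 1 := ⟨2⁻¹, mul_inv_cancel₀ h20⟩
  have hvt : v t = 1 := by
    have := congrArg v ht
    rwa [map_mul, hv2, one_mul, map_one] at this
  have hvB4 : v (B₂ * t ^ 2) ≤ 1 := le_mul v hvB₂ (le_pow v hvt.le 2)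
  obtain ⟨x, hx⟩ := exists_root_quadratic (B₂ * t ^ 2) A₄
  have hvx : v x ≤ 1 := by
    apply le_one_of_sq_add_mul v (b := B₂ * t ^ 2) hvB4
    have e : x ^ 2 + B₂ * t ^ 2 * x = -A₄ := by linear_combination hx
    rw [e]
    exact le_neg v hvA₄
  have hvy : v (V.a₁ * x * t) ≤ 1 := le_mul v (le_mul v h₁ hvx) hvt.le
  refine ⟨r + x, s - V.a₁ * x * t, ?_, ?_, le_add v hvr hvx, le_sub v hvs hvy, ?_⟩
  · rw [WeierstrassCurve.Affine.equation_iff]
    rw [hB₂, hA₄] at hx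
    change (s - V.a₁ * x * t) ^ 2 + V.a₁ * (r + x) * (s - V.a₁ * x * t)
        + V.a₃ * (s - V.a₁ * x * t) =
        (r + x) ^ 3 + V.a₂ * (r + x) ^ 2 + V.a₄ * (r + x) + V.a₆
    rw [ha₆, ha₃]
    linear_combination (-x) * hx
      + (V.a₁ ^ 2 * x ^ 2 * t + (V.a₂ + 3 * r) * x ^ 2 * (2 * t + 1)) * ht
  · linear_combination h2 - V.a₁ * x * ht
  · have e : 3 * (r + x) ^ 2 + 2 * V.a₂ * (r + x) + V.a₄ - V.a₁ * (s - V.a₁ * x * t)
        = x * (2 * x + B₂ * t ^ 2) := by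
      rw [hB₂, hA₄] at hx
      rw [hB₂]
      linear_combination hx - x * (V.a₁ ^ 2 * t + 2 * (V.a₂ + 3 * r) * (1 + 2 * t)) * ht
    rw [e]
    refine lt_mul_right v hvx ?_
    apply val_lt_one_of_pow_lt_one (n := 2)
    have e2 : (2 * x + B₂ * t ^ 2) ^ 2 = (B₂ ^ 2 - 64 * A₄) * t ^ 4 := by
      linear_combination 4 * hx + 4 * A₄ * (2 * t + 1) * (4 * t ^ 2 + 1) * ht
    rw [e2]
    exact lt_mul_left v hD (le_pow v hvt.le 4)

end Fermat.Agent.S58
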