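import Mathlib
import Fermat.Agent.S58.Defs

/-!
# S58, MF0: descent to a newform.   Owner: helper57.
-/

set_option autoImplicit false
open Polynomial WeierstrassCurve WeierstrassCurve.Affine ModularFormClass
open scoped WeierstrassCurve.Affine

namespace Fermat.Agent.S58

theorem exists_newform {N : ℕ} (hN : 0 < N) {f : CuspForm (CongruenceSubgroup.Gamma0 N) 2}
    (hf : f.IsNormalizedEigenform) :
    ∃ (M : ℕ) (_ : M ∣ N) (g : CuspForm (CongruenceSubgroup.Gamma0 M) 2), g.IsNewform ∧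
      ∀ ℓ : ℕ, ℓ.Prime → ¬ ℓ ∣ N → qCoeff g ℓ = qCoeff f ℓ := by
  classical
  have hex : ∃ M : ℕ, M ∣ N ∧ ∃ g : CuspForm (CongruenceSubgroup.Gamma0 M) 2,
      g.IsNormalizedEigenform ∧ ∀ ℓ : ℕ, ℓ.Prime → ¬ ℓ ∣ N → qCoeff g ℓ = qCoeff f ℓ :=
    ⟨N, dvd_rfl, f, hf, fun _ _ _ => rfl⟩
  obtain ⟨hMN, g, hg, hgf⟩ := Nat.find_spec hex
  refine ⟨Nat.find hex, hMN, g, ⟨hg, ?_⟩, hgf⟩
  rintro M' hM' hne ⟨g', hg', hgg'⟩
  have hM0 : 0 < Nat.find hex := Nat.pos_of_dvd_of_pos hMN hN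
  have hlt : M' < Nat.find hex := lt_of_le_of_ne (Nat.le_of_dvd hM0 hM') hne
  refine Nat.find_min hex hlt ⟨hM'.trans hMN, g', hg', fun ℓ hℓ hℓN => ?_⟩
  rw [hgg' ℓ hℓ (fun h => hℓN (h.trans hMN)), hgf ℓ hℓ hℓN]

end Fermat.Agent.S58
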