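import Mathlib

/-!
# S58, block LA1b: trace and determinant from quadratic relations

A two-dimensional representation `r` all of whose elements satisfy `X² - t σ X + d σ`, with `d`
multiplicative, and which is not scalar, has trace `t` and determinant `d`.
-/

set_option autoImplicit false

namespace Fermat.Agent.S58

/-- Cayley-Hamilton in dimension two. -/
theorem QuadraticRel_cayley {F E : Type*} [Field F] [AddCommGroup E] [Module F E]
    (h2 : Module.finrank F E = 2) (f : Module.End F E) :
    f * f - LinearMap.trace F E f • f + LinearMap.det f • (1 : Module.End F E) = 0 := by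
  have hfin : Module.Finite F E := Module.finite_of_finrank_pos (by omega)
  let b : Module.Basis (Fin 2) F E := Module.finBasisOfFinrankEq F E h2
  have h1 := LinearMap.aeval_self_charpoly f
  rw [← LinearMap.charpoly_toMatrix f b, Matrix.charpoly_fin_two,
    ← LinearMap.trace_eq_matrix_trace F b f, LinearMap.det_toMatrix b f] at h1
  simp only [map_add, map_sub, map_mul, map_pow, Polynomial.aeval_X, Polynomial.aeval_C] at h1
  rw [sq, Algebra.algebraMap_eq_smul_one, Algebra.algebraMap_eq_smul_one, smul_mul_assoc,
    one_mul] at h1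
  exact h1

theorem QuadraticRel_one_ne_zero {F E : Type*} [Field F] [AddCommGroup E] [Module F E]
    (h2 : Module.finrank F E = 2) : (1 : Module.End F E) ≠ 0 := by
  have : Nontrivial E := Module.nontrivial_of_finrank_pos (R := F) (by omega)
  exact one_ne_zero

/-- the non scalar case. -/
theorem QuadraticRel_of_not_scalar {F E : Type*} [Field F] [AddCommGroup E] [Module F E]
    (h2 : Module.finrank F E = 2) (f : Module.End F E) (t d : F)
    (hq : f * f - t • f + d • (1 : Module.End F E) = 0)
    (hns : ∀ s : F, f ≠ s • (1 : Module.End F E)) :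
    LinearMap.trace F E f = t ∧ LinearMap.det f = d := by
  have hc := QuadraticRel_cayley h2 f
  have h3 : (LinearMap.trace F E f - t) • f = (LinearMap.det f - d) • (1 : Module.End F E) := by
    have h4 : (LinearMap.trace F E f - t) • f - (LinearMap.det f - d) • (1 : Module.End F E) =
        (f * f - t • f + d • (1 : Module.End F E)) -
          (f * f - LinearMap.trace F E f • f + LinearMap.det f • (1 : Module.End F E)) := by
      rw [sub_smul, sub_smul]
      abel
    rw [hq, hc, sub_zero] at h4
    exact sub_eq_zero.1 h4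
  have ht : LinearMap.trace F E f = t := by
    by_contra hne
    have hne' : LinearMap.trace F E f - t ≠ 0 := sub_ne_zero.2 hne
    apply hns ((LinearMap.trace F E f - t)⁻¹ * (LinearMap.det f - d))
    rw [mul_smul, ← h3, smul_smul, inv_mul_cancel₀ hne', one_smul]
  refine ⟨ht, ?_⟩
  rw [ht, sub_self, zero_smul] at h3
  have h5 := (smul_eq_zero.1 h3.symm).resolve_right (QuadraticRel_one_ne_zero h2)
  exact sub_eq_zero.1 h5

theorem trace_det_of_quadratic {G : Type*} [Group G] {F E : Type*} [Field F] [AddCommGroup E]
    [Module F E] (h2 : Module.finrank F E = 2) (r : G →* Module.End F E) (t d : G → F)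
    (hq : ∀ σ v, r σ (r σ v) - t σ • r σ v + d σ • v = 0)
    (hd : ∀ σ τ, d (σ * τ) = d σ * d τ)
    (hns : ∃ τ, ∀ s : F, r τ ≠ s • (1 : Module.End F E)) (σ : G) :
    LinearMap.trace F E (r σ) = t σ ∧ LinearMap.det (r σ) = d σ := by
  have hq' : ∀ σ, r σ * r σ - t σ • r σ + d σ • (1 : Module.End F E) = 0 := by
    intro σ
    ext v
    exact hq σ v
  have h10 := QuadraticRel_one_ne_zero h2
  have hfin : Module.Finite F E := Module.finite_of_finrank_pos (by omega)
  by_cases hσ : ∀ s : F, r σ ≠ s • (1 : Module.End F E)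
  · exact QuadraticRel_of_not_scalar h2 (r σ) (t σ) (d σ) (hq' σ) hσ
  · push Not at hσ
    obtain ⟨s, hs⟩ := hσ
    obtain ⟨τ, hτ⟩ := hns
    have hs0 : s ≠ 0 := by
      rintro rfl
      have h3 : r σ * r σ⁻¹ = 1 := by rw [← map_mul, mul_inv_cancel, map_one]
      rw [hs, zero_smul, zero_mul] at h3
      exact h10 h3.symm
    have hστ : r (σ * τ) = s • r τ := by rw [map_mul, hs, smul_mul_assoc, one_mul]
    have hστns : ∀ s' : F, r (σ * τ) ≠ s' • (1 : Module.End F E) := by
      intro s' h
      apply hτ (s⁻¹ * s')
      rw [mul_smul, ← h, hστ, smul_smul, inv_mul_cancel₀ hs0, one_smul]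
    have h1 := (QuadraticRel_of_not_scalar h2 _ _ _ (hq' (σ * τ)) hστns).2
    have h3 := (QuadraticRel_of_not_scalar h2 _ _ _ (hq' τ) hτ).2
    have hdτ : d τ ≠ 0 := by
      rw [← h3]
      intro h0
      have h4 : LinearMap.det (r τ) * LinearMap.det (r τ⁻¹) = 1 := by
        rw [← map_mul, ← map_mul, mul_inv_cancel, map_one, map_one]
      rw [h0, zero_mul] at h4
      exact zero_ne_one h4
    rw [hστ, LinearMap.det_smul, h2, h3, hd] at h1
    have hdσ : d σ = s ^ 2 := (mul_right_cancel₀ hdτ h1).symm
    have hdet : LinearMap.det (r σ) = d σ := by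
      rw [hs, LinearMap.det_smul, h2, map_one, mul_one, hdσ]
    refine ⟨?_, hdet⟩
    have h5 := hq' σ
    rw [hs, hdσ, smul_mul_smul_comm, one_mul, smul_smul, ← sub_smul, ← add_smul] at h5
    have h6 := (smul_eq_zero.1 h5).resolve_right h10
    have h7 : s * (2 * s - t σ) = 0 := by
      rw [← h6]
      ring
    have h8 := (mul_eq_zero.1 h7).resolve_left hs0
    rw [hs, map_smul, LinearMap.trace_one, h2, smul_eq_mul]
    push_cast
    rw [← sub_eq_zero, ← h8]
    ring

/-- an irreducible two-dimensional representation is not scalar -/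
theorem exists_not_scalar {G : Type*} [Group G] {F E : Type*} [Field F] [AddCommGroup E]
    [Module F E] (h2 : Module.finrank F E = 2) (r : G →* Module.End F E)
    (hirr : ∀ N : Submodule F E, (∀ σ, ∀ x ∈ N, r σ x ∈ N) → N = ⊥ ∨ N = ⊤) :
    ∃ τ, ∀ s : F, r τ ≠ s • (1 : Module.End F E) := by
  by_contra hcon
  push Not at hcon
  have hnt : Nontrivial E := Module.nontrivial_of_finrank_pos (R := F) (by omega)
  obtain ⟨v, hv⟩ := exists_ne (0 : E)
  rcases hirr (Submodule.span F {v}) (fun σ x hx => by
    obtain ⟨s, hs⟩ := hcon σ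
    rw [hs]
    exact Submodule.smul_mem _ s hx) with h | h
  · exact hv (Submodule.span_singleton_eq_bot.1 h)
  · have h3 := finrank_span_singleton (K := F) hv
    rw [h, finrank_top, h2] at h3
    omega

end Fermat.Agent.S58
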