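import Mathlib
import Fermat.Agent.S58.Defs
import Fermat.Agent.S58.LineConv
import Fermat.Agent.S13.ModelOfWeierstrass

/-!
# S58, block EC2b: the reduction homomorphism for a Weierstrass equation with good reduction, on a
group of integral points.   Owner: helper234.
-/

set_option autoImplicit false
open Polynomial WeierstrassCurve WeierstrassCurve.Affine
open scoped WeierstrassCurve.Affine

namespace Fermat.Agent.S58

namespace Reduction

variable {K : Type*} [Field K] (A : ValuationSubring K)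

/-- a root of a monic quadratic polynomial over a valuation ring lies in the ring -/
theorem mem_of_quadratic {t b c : K} (hb : b ∈ A) (hc : c ∈ A) (h : t ^ 2 + b * t = c) :
    t ∈ A := by
  rcases A.mem_or_inv_mem t with ht | ht
  · exact ht
  · by_cases h0 : t = 0
    · rw [h0]; exact A.zero_mem
    · have e : t = c * t⁻¹ - b := by
        field_simp
        linear_combination h
      rw [e]
      exact sub_mem (mul_mem hc ht) hb

variable (VA : WeierstrassCurve A)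

/-- the generic fibre -/
abbrev WK : Affine K := (VA.map A.subtype).toAffine

/-- the special fibre -/
abbrev Wk : Affine (IsLocalRing.ResidueField A) := (VA.map (IsLocalRing.residue A)).toAffine

theorem y_mem {x y : K} (hx : x ∈ A) (h : (WK A VA).Equation x y) : y ∈ A := by
  rw [equation_iff] at h
  simp only [map_a₁, map_a₂, map_a₃, map_a₄, map_a₆] at h
  refine mem_of_quadratic A (b := A.subtype VA.a₁ * x + A.subtype VA.a₃)
    (c := x ^ 3 + A.subtype VA.a₂ * x ^ 2 + A.subtype VA.a₄ * x + A.subtype VA.a₆) ?_ ?_ ?_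
  · exact add_mem (mul_mem VA.a₁.2 hx) VA.a₃.2
  · exact add_mem (add_mem (add_mem (pow_mem hx 3) (mul_mem VA.a₂.2 (pow_mem hx 2)))
      (mul_mem VA.a₄.2 hx)) VA.a₆.2
  · linear_combination h

variable {A VA}

theorem equation_lift {X Y : A} (h : (WK A VA).Equation (X : K) (Y : K)) :
    VA.toAffine.Equation X Y :=
  (map_equation (W := VA.toAffine) (f := A.subtype) Subtype.val_injective X Y).1 h

theorem nonsingular_red (hΔ : (Wk A VA).Δ ≠ 0) {X Y : A}
    (h : (WK A VA).Equation (X : K) (Y : K)) :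
    (Wk A VA).Nonsingular (IsLocalRing.residue A X) (IsLocalRing.residue A Y) :=
  (equation_iff_nonsingular_of_Δ_ne_zero hΔ).1
    (Equation.map (W := VA.toAffine) (IsLocalRing.residue A) (equation_lift h))

open Classical in
/-- the reduction map on points (junk value `0` at non-integral points) -/
noncomputable def redFun (hΔ : (Wk A VA).Δ ≠ 0) : (WK A VA).Point → (Wk A VA).Point
  | .zero => 0
  | .some x y h =>
    if hx : x ∈ A then
      .some (IsLocalRing.residue A ⟨x, hx⟩) (IsLocalRing.residue A ⟨y, y_mem A VA hx h.1⟩)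
        (nonsingular_red hΔ (X := ⟨x, hx⟩) (Y := ⟨y, y_mem A VA hx h.1⟩) h.1)
    else 0

theorem redFun_zero (hΔ : (Wk A VA).Δ ≠ 0) : redFun hΔ 0 = 0 := rfl

theorem redFun_some (hΔ : (Wk A VA).Δ ≠ 0) (X Y : A) (h : (WK A VA).Nonsingular (X : K) (Y : K)) :
    redFun hΔ (.some (X : K) (Y : K) h) =
      .some (IsLocalRing.residue A X) (IsLocalRing.residue A Y) (nonsingular_red hΔ h.1) :=
  dif_pos X.2

theorem some_congr {F : Type*} [CommRing F] {W : Affine F} {x x' y y' : F} (hx : x = x')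
    (hy : y = y') (h : W.Nonsingular x y) (h' : W.Nonsingular x' y') :
    Point.some x y h = Point.some x' y' h' := by
  subst hx hy
  rfl

theorem coe_negY (X Y : A) : (WK A VA).negY (X : K) (Y : K) = ((VA.toAffine.negY X Y : A) : K) :=
  map_negY (W' := VA.toAffine) (f := A.subtype) (x := X) (y := Y)

theorem res_negY (X Y : A) :
    (Wk A VA).negY (IsLocalRing.residue A X) (IsLocalRing.residue A Y) =
      IsLocalRing.residue A (VA.toAffine.negY X Y) :=
  map_negY (W' := VA.toAffine) (f := IsLocalRing.residue A) (x := X) (y := Y)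

theorem redFun_neg_some (hΔ : (Wk A VA).Δ ≠ 0) (X Y : A)
    (h : (WK A VA).Nonsingular (X : K) (Y : K)) :
    redFun hΔ (-(.some (X : K) (Y : K) h)) = -redFun hΔ (.some (X : K) (Y : K) h) := by
  have h' : (WK A VA).Nonsingular (X : K) ((VA.toAffine.negY X Y : A) : K) := by
    rw [← coe_negY]
    exact (nonsingular_neg ..).mpr h
  have e : -(Point.some (X : K) (Y : K) h) = .some (X : K) ((VA.toAffine.negY X Y : A) : K) h' := by
    rw [Point.neg_some]
    exact some_congr rfl (coe_negY X Y) _ _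
  rw [e, redFun_some, redFun_some, Point.neg_some]
  exact some_congr rfl (res_negY X Y).symm _ _

theorem transfer {a b : A} (h : A.subtype a = A.subtype b) :
    IsLocalRing.residue A a = IsLocalRing.residue A b :=
  congrArg _ (Subtype.ext h)

variable [DecidableEq K] [DecidableEq (IsLocalRing.ResidueField A)]

theorem redFun_add_some (hΔ : (Wk A VA).Δ ≠ 0) (X₁ Y₁ X₂ Y₂ : A)
    (h₁ : (WK A VA).Nonsingular (X₁ : K) (Y₁ : K)) (h₂ : (WK A VA).Nonsingular (X₂ : K) (Y₂ : K))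
    (hint : ∀ (x y : K) (h : (WK A VA).Nonsingular x y),
      Point.some (X₁ : K) (Y₁ : K) h₁ + Point.some (X₂ : K) (Y₂ : K) h₂ = Point.some x y h → x ∈ A) :
    redFun hΔ (Point.some (X₁ : K) (Y₁ : K) h₁ + Point.some (X₂ : K) (Y₂ : K) h₂) =
      redFun hΔ (Point.some (X₁ : K) (Y₁ : K) h₁) + redFun hΔ (Point.some (X₂ : K) (Y₂ : K) h₂) := by
  by_cases hxy : (X₁ : K) = (X₂ : K) ∧ (Y₁ : K) = (WK A VA).negY (X₂ : K) (Y₂ : K)
  · rw [Point.add_of_Y_eq hxy.1 hxy.2, redFun_zero, redFun_some, redFun_some, Point.add_of_Y_eq]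
    · exact congrArg _ (Subtype.ext hxy.1)
    · rw [res_negY]
      exact congrArg _ (Subtype.ext (hxy.2.trans (coe_negY X₂ Y₂)))
  · obtain ⟨ℓ, x₃, y₃, hx₃, hy₃, e₂, e₃, s₁, s₂, s₃⟩ := S13.line_aux (WK A VA) h₁.1 h₂.1 hxy
    have h₃ : (WK A VA).Nonsingular x₃ y₃ := by
      rw [hx₃, hy₃]
      exact nonsingular_negAdd h₁ h₂ hxy
    have hsum : Point.some (X₁ : K) (Y₁ : K) h₁ + Point.some (X₂ : K) (Y₂ : K) h₂ =
        -(Point.some x₃ y₃ h₃) := by
      rw [Point.add_some hxy, Point.neg_some]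
      exact some_congr hx₃.symm (by rw [hx₃, hy₃]; rfl) _ _
    have hx₃A : x₃ ∈ A := hint x₃ _ _ (by rw [hsum, Point.neg_some])
    have hy₃A : y₃ ∈ A := y_mem A VA hx₃A h₃.1
    simp only [map_a₁, map_a₂, map_a₃, map_a₄, map_a₆] at s₁ s₂ s₃
    have hℓA : ℓ ∈ A := by
      refine mem_of_quadratic A (b := A.subtype VA.a₁)
        (c := (X₁ : K) + X₂ + x₃ + A.subtype VA.a₂) VA.a₁.2 ?_ ?_
      · exact add_mem (add_mem (add_mem X₁.2 X₂.2) hx₃A) VA.a₂.2
      · linear_combination -s₁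
    clear hx₃ hy₃
    obtain ⟨X₃, rfl⟩ : ∃ X₃ : A, (X₃ : K) = x₃ := ⟨⟨x₃, hx₃A⟩, rfl⟩
    obtain ⟨Y₃, rfl⟩ : ∃ Y₃ : A, (Y₃ : K) = y₃ := ⟨⟨y₃, hy₃A⟩, rfl⟩
    obtain ⟨L, rfl⟩ : ∃ L : A, (L : K) = ℓ := ⟨⟨ℓ, hℓA⟩, rfl⟩
    have E₂ := transfer (a := Y₂) (b := L * (X₂ - X₁) + Y₁) (by
      simp only [map_add, map_sub, map_mul]; exact e₂)
    have E₃ := transfer (a := Y₃) (b := L * (X₃ - X₁) + Y₁) (by
      simp only [map_add, map_sub, map_mul]; exact e₃)
    have S₁ := transfer (a := X₁ + X₂ + X₃) (b := L ^ 2 + VA.a₁ * L - VA.a₂) (by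
      simp only [map_add, map_sub, map_mul, map_pow]; exact s₁)
    have S₂ := transfer (a := X₁ * X₂ + X₁ * X₃ + X₂ * X₃)
      (b := 2 * X₁ * L ^ 2 + (VA.a₁ * X₁ - 2 * Y₁ - VA.a₃) * L + (-VA.a₁ * Y₁ + VA.a₄)) (by
      simp only [map_add, map_sub, map_mul, map_pow, map_neg, map_ofNat]; exact s₂)
    have S₃ := transfer (a := X₁ * X₂ * X₃)
      (b := X₁ ^ 2 * L ^ 2 - (2 * X₁ * Y₁ + VA.a₃ * X₁) * L + (Y₁ ^ 2 + VA.a₃ * Y₁ - VA.a₆)) (by
      simp only [map_add, map_sub, map_mul, map_pow, map_ofNat]; exact s₃)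
    simp only [map_add, map_sub, map_mul, map_pow, map_neg, map_ofNat] at E₂ E₃ S₁ S₂ S₃
    have key := add_add_eq_zero_of_line (Wk A VA) (nonsingular_red hΔ h₁.1)
      (nonsingular_red hΔ h₂.1) (nonsingular_red hΔ h₃.1) (ℓ := IsLocalRing.residue A L)
      E₂ E₃ S₁ S₂ S₃
    rw [hsum, redFun_neg_some, redFun_some, redFun_some, redFun_some]
    exact (eq_neg_of_add_eq_zero_left key).symm

theorem core (hΔ : (Wk A VA).Δ ≠ 0) (H : AddSubgroup (WK A VA).Point)
    (hH : ∀ (x y : K) (h : (WK A VA).Nonsingular x y), Point.some x y h ∈ H → x ∈ A) :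
    ∃ red : H →+ (Wk A VA).Point, Function.Injective red ∧
      ∀ (x y : K) (h : (WK A VA).Nonsingular x y) (hm : Point.some x y h ∈ H),
        ∃ (hx : x ∈ A) (hy : y ∈ A)
          (h' : (Wk A VA).Nonsingular (IsLocalRing.residue A ⟨x, hx⟩)
            (IsLocalRing.residue A ⟨y, hy⟩)),
          red ⟨_, hm⟩ = Point.some _ _ h' := by
  have hadd : ∀ P Q : H, redFun hΔ ((P + Q : H) : (WK A VA).Point) =
      redFun hΔ (P : (WK A VA).Point) + redFun hΔ (Q : (WK A VA).Point) := by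
    rintro ⟨P, hP⟩ ⟨Q, hQ⟩
    change redFun hΔ (P + Q) = redFun hΔ P + redFun hΔ Q
    rcases P with _ | ⟨x₁, y₁, h₁⟩
    · change redFun hΔ (0 + Q) = redFun hΔ 0 + redFun hΔ Q
      rw [zero_add, redFun_zero, zero_add]
    rcases Q with _ | ⟨x₂, y₂, h₂⟩
    · change redFun hΔ (_ + 0) = redFun hΔ _ + redFun hΔ 0
      rw [add_zero, redFun_zero, add_zero]
    have hx₁ : x₁ ∈ A := hH _ _ _ hP
    have hx₂ : x₂ ∈ A := hH _ _ _ hQ
    have hy₁ : y₁ ∈ A := y_mem A VA hx₁ h₁.1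
    have hy₂ : y₂ ∈ A := y_mem A VA hx₂ h₂.1
    refine redFun_add_some hΔ ⟨x₁, hx₁⟩ ⟨y₁, hy₁⟩ ⟨x₂, hx₂⟩ ⟨y₂, hy₂⟩ h₁ h₂ ?_
    intro x y h e
    refine hH x y h ?_
    rw [← e]
    exact H.add_mem hP hQ
  refine ⟨AddMonoidHom.mk' (fun P => redFun hΔ (P : (WK A VA).Point)) hadd, ?_, ?_⟩
  · rw [injective_iff_map_eq_zero]
    rintro ⟨P, hP⟩ h0
    change redFun hΔ P = 0 at h0
    rcases P with _ | ⟨x₁, y₁, h₁⟩
    · rfl
    · exfalso
      have hx₁ : x₁ ∈ A := hH _ _ _ hP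
      have hy₁ : y₁ ∈ A := y_mem A VA hx₁ h₁.1
      rw [redFun_some hΔ ⟨x₁, hx₁⟩ ⟨y₁, hy₁⟩ h₁] at h0
      exact Point.some_ne_zero _ h0
  · intro x y h hm
    have hx : x ∈ A := hH _ _ _ hm
    have hy : y ∈ A := y_mem A VA hx h.1
    exact ⟨hx, hy, nonsingular_red hΔ (X := ⟨x, hx⟩) (Y := ⟨y, hy⟩) h.1,
      redFun_some hΔ ⟨x, hx⟩ ⟨y, hy⟩ h⟩

end Reduction

theorem exists_reduction {K : Type*} [Field K] [DecidableEq K] (A : ValuationSubring K)
    [DecidableEq (IsLocalRing.ResidueField A)]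
    (V : WeierstrassCurve K) (Vb : WeierstrassCurve (IsLocalRing.ResidueField A))
    (hV : IsRed A V Vb) (hΔ : Vb.Δ ≠ 0)
    (H : AddSubgroup V.toAffine.Point)
    (hH : ∀ (x y : K) (h : V.toAffine.Nonsingular x y), Point.some x y h ∈ H → x ∈ A) :
    ∃ red : H →+ Vb.toAffine.Point, Function.Injective red ∧
      ∀ (x y : K) (h : V.toAffine.Nonsingular x y) (hm : Point.some x y h ∈ H),
        ∃ (hx : x ∈ A) (hy : y ∈ A)
          (h' : Vb.toAffine.Nonsingular (IsLocalRing.residue A ⟨x, hx⟩)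
            (IsLocalRing.residue A ⟨y, hy⟩)),
          red ⟨_, hm⟩ = Point.some _ _ h' := by
  obtain ⟨α₁, e₁, f₁⟩ := hV.a₁
  obtain ⟨α₂, e₂, f₂⟩ := hV.a₂
  obtain ⟨α₃, e₃, f₃⟩ := hV.a₃
  obtain ⟨α₄, e₄, f₄⟩ := hV.a₄
  obtain ⟨α₆, e₆, f₆⟩ := hV.a₆
  obtain rfl : V = (⟨α₁, α₂, α₃, α₄, α₆⟩ : WeierstrassCurve A).map A.subtype :=
    WeierstrassCurve.ext e₁.symm e₂.symm e₃.symm e₄.symm e₆.symm
  obtain rfl : Vb = (⟨α₁, α₂, α₃, α₄, α₆⟩ : WeierstrassCurve A).map (IsLocalRing.residue A) :=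
    WeierstrassCurve.ext f₁.symm f₂.symm f₃.symm f₄.symm f₆.symm
  exact Reduction.core hΔ H hH

end Fermat.Agent.S58
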