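import Mathlib
import Fermat.Agent.S58.Defs
import Fermat.Agent.S58.AbsIrr
import Fermat.Agent.S58.QuadraticRel
import Fermat.Agent.S58.Involution
import Fermat.Agent.S58.Zeta

/-!
# S58, block LA1c: the hypothesis `hres` of S36 from the irreducibility of `E[p]` (core)

`Residual.core` is `residual_of_irreducible` with the two inputs which come from other blocks
(the cardinality of `E[p]`, block EC1, and the transfer lemma with `n = 1`, block GA1) taken as
hypotheses.
-/

set_option autoImplicit false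
open Polynomial WeierstrassCurve WeierstrassCurve.Affine
open scoped WeierstrassCurve.Affine TensorProduct

namespace Fermat.Agent.S58

namespace Residual

/-- exponents of a primitive root are well defined modulo the order -/
theorem natCast_eq_of_pow_eq {p : ℕ} (hp : p.Prime) {ζ : Qbar} (hζ : IsPrimitiveRoot ζ p)
    {a b : ℕ} (h : ζ ^ a = ζ ^ b) : (a : ZMod p) = (b : ZMod p) := by
  rw [(hζ.isOfFinOrder hp.ne_zero).pow_eq_pow_iff_modEq, ← hζ.eq_orderOf] at h
  exact (ZMod.natCast_eq_natCast_iff _ _ _).2 h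

/-- the residue field has characteristic `p` -/
theorem charP_residueField {O : Type} [CommRing O] [IsLocalRing O] {p : ℕ} (hp : p.Prime)
    (hO : (p : O) ∈ IsLocalRing.maximalIdeal O) : CharP (IsLocalRing.ResidueField O) p := by
  rw [CharP.charP_iff_prime_eq_zero hp, ← map_natCast (IsLocalRing.residue O)]
  exact (IsLocalRing.residue_eq_zero_iff _).2 hO

/-- congruent modulo `p` implies equal in the residue field -/
theorem residue_eq_of_sub_mem {O : Type} [CommRing O] [IsLocalRing O] {p : ℕ}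
    (hO : (p : O) ∈ IsLocalRing.maximalIdeal O) {x y : O}
    (h : x - y ∈ Ideal.span {(p : O) ^ 1}) :
    IsLocalRing.residue O x = IsLocalRing.residue O y := by
  rw [← sub_eq_zero, ← map_sub, IsLocalRing.residue_eq_zero_iff]
  refine (Ideal.span_le.2 ?_) h
  intro z hz
  rw [Set.mem_singleton_iff] at hz
  rw [hz, pow_one]
  exact hO

theorem finrank_eq_two (W : WeierstrassCurve ℤ) {p : ℕ} [Fact p.Prime]
    (hcard : Nat.card (Submodule.torsionBy ℤ (Pt W) (p : ℤ)) = p ^ 2) :
    Module.finrank (ZMod p) (Submodule.torsionBy ℤ (Pt W) (p : ℤ)) = 2 := by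
  have hp : p.Prime := Fact.out
  have hfin : Finite (Submodule.torsionBy ℤ (Pt W) (p : ℤ)) :=
    Nat.finite_of_card_ne_zero (hcard ▸ pow_ne_zero 2 hp.pos.ne')
  have h := Module.natCard_eq_pow_finrank (K := ZMod p)
    (V := Submodule.torsionBy ℤ (Pt W) (p : ℤ))
  rw [hcard, Nat.card_zmod] at h
  exact (Nat.pow_right_injective hp.two_le h).symm

theorem core (W : WeierstrassCurve ℤ) {p : ℕ} (hp : p.Prime) (hp2 : p ≠ 2)
    (hirr : W.ModRepIsIrreducible p)
    (hcard : Nat.card (Submodule.torsionBy ℤ (Pt W) (p : ℤ)) = p ^ 2)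
    {O : Type} [CommRing O] [IsDomain O] [IsDiscreteValuationRing O] [CharZero O]
    (hO : (p : O) ∈ IsLocalRing.maximalIdeal O) (ρ : GaloisRepAdic O)
    (htr : ∀ σ : GQ, ∃ (t : ℤ) (d : ℕ),
      LinearMap.trace O ρ.V (ρ.ρ σ) - (t : O) ∈ Ideal.span {(p : O) ^ 1} ∧
      LinearMap.det (ρ.ρ σ) - (d : O) ∈ Ideal.span {(p : O) ^ 1} ∧
      (∀ P : Pt W, p ^ 1 • P = 0 → σ • σ • P - t • σ • P + (d : ℤ) • P = 0) ∧
      (∀ ζ : Qbar, ζ ^ (p ^ 1) = 1 → σ ζ = ζ ^ d)) :
    ρ.residual.IsAbsolutelyIrreducible ∧ ρ.residual.IsOdd := by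
  have : Fact p.Prime := ⟨hp⟩
  have h2 := finrank_eq_two W hcard
  choose t d h_t h_d h_q h_z using htr
  obtain ⟨ζ, hζ⟩ := exists_primitiveRoot p hp.pos
  have hζ1 : ζ ^ (p ^ 1) = 1 := by rw [pow_one]; exact hζ.pow_eq_one
  set r : GQ →* Module.End (ZMod p) (Submodule.torsionBy ℤ (Pt W) (p : ℤ)) :=
    Point.galoisRepModuleEnd (K := Qbar) ℚ (W.map (Int.castRingHom ℚ)) p with hr
  have hirr' : ∀ N : Submodule (ZMod p) (Submodule.torsionBy ℤ (Pt W) (p : ℤ)),
      (∀ σ, ∀ x ∈ N, r σ x ∈ N) → N = ⊥ ∨ N = ⊤ := fun N hN => hirr.2 N hN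
  have hq : ∀ σ v, r σ (r σ v) - ((t σ : ℤ) : ZMod p) • r σ v + ((d σ : ℕ) : ZMod p) • v = 0 := by
    intro σ v
    have hv : p ^ 1 • (v : Pt W) = 0 := by
      have := (Submodule.mem_torsionBy_iff _ _).1 v.2
      rwa [pow_one, ← natCast_zsmul]
    have h := h_q σ (v : Pt W) hv
    rw [Int.cast_smul_eq_zsmul, Nat.cast_smul_eq_nsmul]
    apply Subtype.ext
    rw [natCast_zsmul] at h
    exact h
  have hd : ∀ σ τ, ((d (σ * τ) : ℕ) : ZMod p) = (d σ : ZMod p) * (d τ : ZMod p) := by
    intro σ τ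
    rw [← Nat.cast_mul]
    apply natCast_eq_of_pow_eq hp hζ
    rw [← h_z (σ * τ) ζ hζ1, AlgEquiv.mul_apply, h_z τ ζ hζ1, map_pow, h_z σ ζ hζ1, pow_mul]
  have hns := exists_not_scalar h2 r hirr'
  have htd := trace_det_of_quadratic h2 r (fun σ => ((t σ : ℤ) : ZMod p))
    (fun σ => ((d σ : ℕ) : ZMod p)) hq hd hns
  -- the determinant of an involution
  have hinv : ∀ c : GQ, c * c = 1 → c ≠ 1 → ((d c : ℕ) : ZMod p) = -1 := by
    intro c hc hc1
    have h1 := involution_zeta c hc hc1 hp hp2 ζ hζ.pow_eq_one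
    rw [h_z c ζ hζ1] at h1
    have h3 : ζ ^ (d c + 1) = 1 := by
      rw [pow_succ, h1, inv_mul_cancel₀ (hζ.ne_zero hp.ne_zero)]
    have h4 := (hζ.pow_eq_one_iff_dvd _).1 h3
    have h5 : ((d c + 1 : ℕ) : ZMod p) = 0 := (ZMod.natCast_eq_zero_iff _ _).2 h4
    rw [Nat.cast_add, Nat.cast_one] at h5
    exact eq_neg_of_add_eq_zero_left h5
  have hchar : CharP (IsLocalRing.ResidueField O) p := charP_residueField hp hO
  constructor
  · -- absolute irreducibility
    have : CharP (AlgebraicClosure (IsLocalRing.ResidueField O)) p :=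
      charP_of_injective_algebraMap
        (algebraMap (IsLocalRing.ResidueField O)
          (AlgebraicClosure (IsLocalRing.ResidueField O))).injective p
    let : Algebra (ZMod p) (AlgebraicClosure (IsLocalRing.ResidueField O)) := ZMod.algebra _ p
    obtain ⟨c, hc, hc1⟩ := exists_involution
    have hF2 : (2 : ZMod p) ≠ 0 := by
      intro h
      have h3 : ((2 : ℕ) : ZMod p) = 0 := by exact_mod_cast h
      rw [ZMod.natCast_eq_zero_iff] at h3
      exact hp2 ((Nat.prime_dvd_prime_iff_eq hp Nat.prime_two).1 h3)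
    refine irreducible_of_trace_eq h2 hF2 r hirr'
      (ρ.residual.baseChange (AlgebraicClosure (IsLocalRing.ResidueField O))).finrank_eq
      (ρ.residual.baseChange (AlgebraicClosure (IsLocalRing.ResidueField O))).ρ ?_ c hc
      ((htd c).2.trans (hinv c hc hc1))
    intro σ
    rw [(htd σ).1, map_intCast]
    show LinearMap.trace _ _ (((ρ.ρ σ).baseChange (IsLocalRing.ResidueField O)).baseChange
      (AlgebraicClosure (IsLocalRing.ResidueField O))) = _
    rw [LinearMap.trace_baseChange, LinearMap.trace_baseChange,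
      IsLocalRing.ResidueField.algebraMap_eq, residue_eq_of_sub_mem hO (h_t σ), map_intCast,
      map_intCast]
  · -- oddness
    intro c hc hc1
    show LinearMap.det ((ρ.ρ c).baseChange (IsLocalRing.ResidueField O)) = -1
    rw [LinearMap.det_baseChange, IsLocalRing.ResidueField.algebraMap_eq,
      residue_eq_of_sub_mem hO (h_d c), map_natCast]
    have h1 := hinv c hc hc1
    have h5 : ((d c + 1 : ℕ) : ZMod p) = 0 := by
      rw [Nat.cast_add, Nat.cast_one, h1, neg_add_cancel]
    have h6 : ((d c + 1 : ℕ) : IsLocalRing.ResidueField O) = 0 :=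
      (CharP.cast_eq_zero_iff _ p _).2 ((ZMod.natCast_eq_zero_iff _ _).1 h5)
    rw [Nat.cast_add, Nat.cast_one] at h6
    exact eq_neg_of_add_eq_zero_left h6

end Residual

end Fermat.Agent.S58
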