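import Fermat.Agent.S58.StabilizeArith
import Fermat.Agent.S58.Defs
import Fermat.Agent.S49.Basic
import Fermat.Agent.S58.LevelUp

/-!
# S58, MF1b: `r`-stabilisation of a normalised eigenform (owner helper127)
-/

set_option autoImplicit false
open ModularFormClass

namespace Fermat.Agent.S58

theorem Stabilize.isEigenSeq {M : ℕ} {g : CuspForm (CongruenceSubgroup.Gamma0 M) 2}
    (hg : g.IsNormalizedEigenform) : IsEigenSeq M (fun n => qCoeff g n) :=
  ⟨hg.qCoeff_one, hg.qCoeff_mul_of_coprime, hg.qCoeff_prime_pow_of_not_dvd,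
    hg.qCoeff_prime_pow_of_dvd⟩

theorem Stabilize.of_isEigenSeq {M : ℕ} {g : CuspForm (CongruenceSubgroup.Gamma0 M) 2}
    {a : ℕ → ℂ} (ha : IsEigenSeq M a) (h : ∀ n, qCoeff g n = a n) : g.IsNormalizedEigenform where
  qCoeff_one := by rw [h]; exact ha.one
  qCoeff_mul_of_coprime := by
    intro m n hmn
    rw [h, h, h]; exact ha.mul m n hmn
  qCoeff_prime_pow_of_not_dvd := by
    intro p r hp hpM
    rw [h, h, h, h]; exact ha.pow_of_not_dvd p r hp hpM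
  qCoeff_prime_pow_of_dvd := by
    intro p r hp hpM
    rw [h, h, h]; exact ha.pow_of_dvd p r hp hpM

theorem exists_stabilization {M : ℕ} [NeZero M] {g : CuspForm (CongruenceSubgroup.Gamma0 M) 2}
    (hg : g.IsNormalizedEigenform) {r : ℕ} (hr : r.Prime) (hrM : ¬ r ∣ M) :
    ∃ g' : CuspForm (CongruenceSubgroup.Gamma0 (M * r)) 2, g'.IsNormalizedEigenform ∧
      ∀ ℓ : ℕ, ℓ.Prime → ℓ ≠ r → qCoeff g' ℓ = qCoeff g ℓ := by
  obtain ⟨g₁, hg₁⟩ := exists_levelUp g r hr.pos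
  obtain ⟨g₂, hg₂⟩ := exists_V g r hr.pos
  obtain ⟨β, hβ⟩ := stabilize_exists_root_quadratic (qCoeff g r) r
  obtain ⟨g', hg'⟩ : ∃ g' : CuspForm (CongruenceSubgroup.Gamma0 (M * r)) 2, g' = g₁ - β • g₂ :=
    ⟨_, rfl⟩
  have hcoeff : ∀ n, qCoeff g' n = stab (fun n => qCoeff g n) r β n := by
    intro n
    rw [hg', S49.qCoeff_sub, S49.qCoeff_smul, hg₁, hg₂]
    rfl
  refine ⟨g', Stabilize.of_isEigenSeq ((Stabilize.isEigenSeq hg).stab hr hrM hβ) hcoeff,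
    fun ℓ hℓ hℓr => ?_⟩
  rw [hcoeff, stab_prime _ hr hℓ hℓr]

theorem Stabilize.aux (k : ℕ) : ∀ (M : ℕ) (g : CuspForm (CongruenceSubgroup.Gamma0 M) 2),
    g.IsNormalizedEigenform → Squarefree (M * k) →
    ∃ g' : CuspForm (CongruenceSubgroup.Gamma0 (M * k)) 2, g'.IsNormalizedEigenform ∧
      ∀ ℓ : ℕ, ℓ.Prime → ¬ ℓ ∣ M * k → qCoeff g' ℓ = qCoeff g ℓ := by
  induction k using induction_on_primes with
  | zero =>
    intro M g _ hsq
    rw [mul_zero] at hsq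
    exact absurd hsq not_squarefree_zero
  | one =>
    intro M g hg _
    rw [mul_one]
    exact ⟨g, hg, fun _ _ _ => rfl⟩
  | prime_mul p a hp ih =>
    intro M g hg hsq
    have e : M * a * p = M * (p * a) := by ring
    rw [← e] at hsq ⊢
    have hsq' : Squarefree (M * a) := hsq.squarefree_of_dvd (Dvd.intro p rfl)
    obtain ⟨g₁, hg₁, hc₁⟩ := ih M g hg hsq'
    have : NeZero (M * a) := ⟨hsq'.ne_zero⟩
    have hp' : ¬ p ∣ M * a := by
      intro h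
      obtain ⟨c, hc⟩ := h
      have : p * p ∣ M * a * p := ⟨c, by rw [hc]; ring⟩
      exact hp.not_isUnit (hsq p this)
    obtain ⟨g', hg', hc'⟩ := exists_stabilization hg₁ hp hp'
    refine ⟨g', hg', fun ℓ hℓ hℓd => ?_⟩
    rw [hc' ℓ hℓ (fun h => hℓd (h ▸ Dvd.intro_left _ rfl)),
      hc₁ ℓ hℓ (fun h => hℓd (Dvd.dvd.mul_right h p))]

theorem exists_eigenform_of_dvd {M L : ℕ} (hML : M ∣ L) (hL : Squarefree L)
    {g : CuspForm (CongruenceSubgroup.Gamma0 M) 2} (hg : g.IsNormalizedEigenform) :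
    ∃ g' : CuspForm (CongruenceSubgroup.Gamma0 L) 2, g'.IsNormalizedEigenform ∧
      ∀ ℓ : ℕ, ℓ.Prime → ¬ ℓ ∣ L → qCoeff g' ℓ = qCoeff g ℓ := by
  obtain ⟨k, rfl⟩ := hML
  exact Stabilize.aux k M g hg hL

end Fermat.Agent.S58
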