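import Mathlib

/-!
# S58, MF1b: the arithmetic of `r`-stabilisation of a system of `q`-coefficients
(owner helper127).  Mathlib only.

`IsEigenSeq M a` : the four conditions of `CuspForm.IsNormalizedEigenform` for the sequence `a` and
the level `M`.  If `β ^ 2 - a r * β + r = 0` and `r ∤ M` then `n ↦ a n - β * a (n / r) [r ∣ n]`
satisfies them at level `M * r`.
-/

set_option autoImplicit false

namespace Fermat.Agent.S58

/-- The conditions of `CuspForm.IsNormalizedEigenform`, for a sequence. -/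
structure IsEigenSeq (M : ℕ) (a : ℕ → ℂ) : Prop where
  one : a 1 = 1
  mul : ∀ m n : ℕ, m.Coprime n → a (m * n) = a m * a n
  pow_of_not_dvd : ∀ p k : ℕ, p.Prime → ¬ p ∣ M →
    a (p ^ (k + 2)) = a p * a (p ^ (k + 1)) - p * a (p ^ k)
  pow_of_dvd : ∀ p k : ℕ, p.Prime → p ∣ M → a (p ^ (k + 2)) = a p * a (p ^ (k + 1))

/-- the stabilised sequence -/
noncomputable def stab (a : ℕ → ℂ) (r : ℕ) (β : ℂ) (n : ℕ) : ℂ :=
  a n - β * (if r ∣ n then a (n / r) else 0)

theorem stab_of_not_dvd (a : ℕ → ℂ) {r : ℕ} (β : ℂ) {n : ℕ} (h : ¬ r ∣ n) :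
    stab a r β n = a n := by
  rw [stab, if_neg h, mul_zero, sub_zero]

theorem stab_of_dvd (a : ℕ → ℂ) {r : ℕ} (β : ℂ) {n : ℕ} (h : r ∣ n) :
    stab a r β n = a n - β * a (n / r) := by
  rw [stab, if_pos h]

theorem stab_pow_succ (a : ℕ → ℂ) {r : ℕ} (hr : 0 < r) (β : ℂ) (k : ℕ) :
    stab a r β (r ^ (k + 1)) = a (r ^ (k + 1)) - β * a (r ^ k) := by
  rw [stab_of_dvd a β (dvd_pow_self r k.succ_ne_zero), pow_succ, Nat.mul_div_cancel _ hr]

theorem stab_prime_pow (a : ℕ → ℂ) {r p : ℕ} (hr : r.Prime) (hp : p.Prime) (hpr : p ≠ r) (β : ℂ)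
    (k : ℕ) : stab a r β (p ^ k) = a (p ^ k) :=
  stab_of_not_dvd a β fun h => hpr ((Nat.prime_dvd_prime_iff_eq hr hp).mp (hr.dvd_of_dvd_pow h)).symm

theorem stab_prime (a : ℕ → ℂ) {r p : ℕ} (hr : r.Prime) (hp : p.Prime) (hpr : p ≠ r) (β : ℂ) :
    stab a r β p = a p := by
  have := stab_prime_pow a hr hp hpr β 1
  rwa [pow_one] at this

theorem stab_mul_aux {M : ℕ} {a : ℕ → ℂ} (ha : IsEigenSeq M a) {r : ℕ} (hr : r.Prime) (β : ℂ)
    {m n : ℕ} (hmn : m.Coprime n) (hm : r ∣ m) :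
    stab a r β (m * n) = stab a r β m * stab a r β n := by
  have hn : ¬ r ∣ n := fun h => hr.one_lt.ne' (Nat.eq_one_of_dvd_coprimes hmn hm h)
  obtain ⟨m', rfl⟩ := hm
  have hcop : m'.Coprime n := Nat.Coprime.coprime_dvd_left (Dvd.intro_left r rfl) hmn
  rw [stab_of_dvd a β (Dvd.dvd.mul_right (Dvd.intro m' rfl) n), stab_of_dvd a β (Dvd.intro m' rfl),
    stab_of_not_dvd a β hn, ha.mul _ _ hmn, mul_assoc, Nat.mul_div_cancel_left _ hr.pos,
    Nat.mul_div_cancel_left _ hr.pos, ha.mul _ _ hcop]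
  ring

theorem IsEigenSeq.stab {M : ℕ} {a : ℕ → ℂ} (ha : IsEigenSeq M a) {r : ℕ} (hr : r.Prime)
    (hrM : ¬ r ∣ M) {β : ℂ} (hβ : β ^ 2 - a r * β + r = 0) :
    IsEigenSeq (M * r) (Fermat.Agent.S58.stab a r β) where
  one := by
    rw [stab_of_not_dvd a β (fun h => hr.one_lt.ne' (Nat.dvd_one.mp h)), ha.one]
  mul := by
    intro m n hmn
    by_cases hm : r ∣ m
    · exact stab_mul_aux ha hr β hmn hm
    by_cases hn : r ∣ n
    · rw [mul_comm m n, stab_mul_aux ha hr β hmn.symm hn, mul_comm]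
    · rw [stab_of_not_dvd a β hm, stab_of_not_dvd a β hn,
        stab_of_not_dvd a β (fun h => (hr.dvd_mul.mp h).elim hm hn), ha.mul _ _ hmn]
  pow_of_not_dvd := by
    intro p k hp hpM
    have hpr : p ≠ r := fun h => hpM (h ▸ Dvd.intro_left M rfl)
    have hpM' : ¬ p ∣ M := fun h => hpM (Dvd.dvd.mul_right h r)
    rw [stab_prime_pow a hr hp hpr, stab_prime_pow a hr hp hpr, stab_prime_pow a hr hp hpr,
      stab_prime a hr hp hpr, ha.pow_of_not_dvd p k hp hpM']
  pow_of_dvd := by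
    intro p k hp hpM
    by_cases hpr : p = r
    · subst hpr
      have h1 : Fermat.Agent.S58.stab a p β p = a p - β := by
        have := stab_pow_succ a hp.pos β 0
        rwa [zero_add, pow_one, pow_zero, ha.one, mul_one] at this
      rw [stab_pow_succ a hp.pos β (k + 1), stab_pow_succ a hp.pos β k, h1,
        ha.pow_of_not_dvd p k hp hrM]
      linear_combination (- a (p ^ k)) * hβ
    · have hpM' : p ∣ M := (hp.dvd_mul.mp hpM).resolve_right fun h =>
        hpr ((Nat.prime_dvd_prime_iff_eq hp hr).mp h)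
      rw [stab_prime_pow a hr hp hpr, stab_prime_pow a hr hp hpr, stab_prime a hr hp hpr,
        ha.pow_of_dvd p k hp hpM']

/-- a root of `X ^ 2 - b X + c` -/
theorem stabilize_exists_root_quadratic (b c : ℂ) : ∃ β : ℂ, β ^ 2 - b * β + c = 0 := by
  obtain ⟨s, hs⟩ := IsAlgClosed.exists_pow_nat_eq (b ^ 2 - 4 * c) (n := 2) two_pos
  refine ⟨(b + s) / 2, ?_⟩
  field_simp
  linear_combination hs

end Fermat.Agent.S58
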