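/-
S58 (architect helper143), section LA0: `trace_det_congr`.
Two endomorphisms of a finite free module which are congruent modulo `I` have congruent
traces and determinants.
-/
import Mathlib

set_option autoImplicit false

namespace Fermat.Agent.S58

/-- The coordinates of an element of `I • ⊤` lie in `I`. -/
theorem TraceCongr_repr_mem {R M ι : Type*} [CommRing R] [AddCommGroup M] [Module R M]
    (b : Module.Basis ι R M) (I : Ideal R) {v : M} (hv : v ∈ I • (⊤ : Submodule R M)) (i : ι) :
    b.repr v i ∈ I := by
  induction hv using Submodule.smul_induction_on' with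
  | smul r hr n _ =>
    rw [map_smul, Finsupp.smul_apply, smul_eq_mul]
    exact I.mul_mem_right _ hr
  | add x _ y _ hx hy =>
    rw [map_add, Finsupp.add_apply]
    exact I.add_mem hx hy

theorem trace_det_congr {R M : Type*} [CommRing R] [AddCommGroup M]
    [Module R M] [Module.Free R M] [Module.Finite R M] (I : Ideal R)
    (f g : Module.End R M) (h : ∀ v, f v - g v ∈ I • (⊤ : Submodule R M)) :
    LinearMap.trace R M f - LinearMap.trace R M g ∈ I ∧
      LinearMap.det f - LinearMap.det g ∈ I := by
  classical
  let b := Module.Free.chooseBasis R M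
  have hmat : (Ideal.Quotient.mk I).mapMatrix (LinearMap.toMatrix b b f) =
      (Ideal.Quotient.mk I).mapMatrix (LinearMap.toMatrix b b g) := by
    ext i j
    simp only [RingHom.mapMatrix_apply, Matrix.map_apply, LinearMap.toMatrix_apply]
    rw [Ideal.Quotient.eq, ← Finsupp.sub_apply, ← map_sub]
    exact TraceCongr_repr_mem b I (h _) i
  constructor
  · rw [← Ideal.Quotient.eq, LinearMap.trace_eq_matrix_trace R b f,
      LinearMap.trace_eq_matrix_trace R b g]
    have h1 := congrArg Matrix.trace hmat
    simp only [RingHom.mapMatrix_apply] at h1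
    rw [← AddMonoidHom.map_trace, ← AddMonoidHom.map_trace] at h1
    exact h1
  · rw [← Ideal.Quotient.eq, ← LinearMap.det_toMatrix b f, ← LinearMap.det_toMatrix b g,
      RingHom.map_det, RingHom.map_det, hmat]

end Fermat.Agent.S58
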