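import Mathlib
import Fermat.Agent.S58.Defs
import Fermat.Agent.S58.Dvr
import Fermat.Agent.S58.Zeta
import Fermat.Agent.S58.Lucas
import Fermat.Agent.S58.TraceCongr
import Fermat.Agent.Lib.FrobDensity

/-!
# S58, section GA1: the transfer lemma (weak Chebotarev), with the two elliptic curve nodes
`exists_finiteLevel` and `frob_CH` as explicit hypotheses.   Owner: helper206.
-/

set_option autoImplicit false
open Polynomial WeierstrassCurve WeierstrassCurve.Affine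
open scoped WeierstrassCurve.Affine

namespace Fermat.Agent.S58

/-- powers of a Frobenius element on roots of unity of order prime to `ℓ`. -/
theorem Transfer.frob_pow_zeta {ℓ : ℕ} (hℓ : ℓ.Prime) (A : ValuationSubring Qbar)
    (hA : A.LiesOverPrime ℓ) (φ : GQ) (hφ : A.IsFrobeniusAt φ ℓ) {m : ℕ} (hm : ¬ ℓ ∣ m)
    (ζ : Qbar) (hζ : ζ ^ m = 1) (k : ℕ) : (φ ^ k) ζ = ζ ^ (ℓ ^ k) := by
  induction k with
  | zero => simp
  | succ k ih =>
    rw [pow_succ', AlgEquiv.mul_apply, ih, map_pow, frob_zeta hℓ A hA φ hφ hm ζ hζ, ← pow_mul,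
      pow_succ']

/-- a linear map preserves `I • ⊤`. -/
theorem Transfer.map_mem_smul_top {R M : Type*} [CommRing R] [AddCommGroup M] [Module R M]
    (I : Ideal R) (f : Module.End R M) {v : M} (hv : v ∈ I • (⊤ : Submodule R M)) :
    f v ∈ I • (⊤ : Submodule R M) := by
  have h1 : f v ∈ (I • (⊤ : Submodule R M)).map f := Submodule.mem_map_of_mem hv
  rw [Submodule.map_smul''] at h1
  exact Submodule.smul_mono le_rfl le_top h1

/-- the quadratic relation for the powers of an automorphism acting on a stable subgroup. -/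
theorem Transfer.pow_quadratic_smul {Γ G : Type*} [Group Γ] [AddCommGroup G]
    [DistribMulAction Γ G] (φ : Γ) (N : ℕ) (a b : ℤ)
    (h : ∀ P : G, N • P = 0 → φ • φ • P - a • φ • P + b • P = 0) (k : ℕ) (P : G)
    (hP : N • P = 0) :
    φ ^ k • φ ^ k • P - lucasV a b k • φ ^ k • P + b ^ k • P = 0 := by
  let H : AddSubgroup G := (nsmulAddMonoidHom (α := G) N).ker
  have hH : ∀ Q : G, Q ∈ H ↔ N • Q = 0 := fun Q => Iff.rfl
  have hst : ∀ Q : G, Q ∈ H → φ • Q ∈ H := by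
    intro Q hQ
    rw [hH] at hQ ⊢
    rw [smul_comm, hQ, smul_zero]
  let f : H →+ H :=
    { toFun := fun Q => ⟨φ • (Q : G), hst _ Q.2⟩
      map_zero' := by
        ext
        simp
      map_add' := fun Q Q' => by
        ext
        simp }
  have hf : ∀ Q : H, ((f Q : H) : G) = φ • (Q : G) := fun Q => rfl
  have hfk : ∀ (j : ℕ) (Q : H), ((f^[j] Q : H) : G) = φ ^ j • (Q : G) := by
    intro j
    induction j with
    | zero => intro Q; simp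
    | succ j ih =>
      intro Q
      rw [Function.iterate_succ_apply', hf, ih, pow_succ', mul_smul]
  have h1 := pow_quadratic f a b (fun Q => by
    ext
    have := h (Q : G) ((hH _).1 Q.2)
    simpa [hf] using this) k ⟨P, (hH P).2 hP⟩
  have h2 := congrArg (fun Q : H => (Q : G)) h1
  simpa [hfk] using h2

theorem transfer_of (W : WeierstrassCurve ℤ) (hΔ : W.Δ ≠ 0) {lam : ℕ} (hlam : lam.Prime)
    (T : Finset ℕ)
    {O : Type} [CommRing O] [IsDomain O] [IsDiscreteValuationRing O] [CharZero O]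
    (ρ : GaloisRepAdic O)
    (hρ : ∀ ℓ : ℕ, ℓ.Prime → ℓ ∉ T → ∀ A : ValuationSubring Qbar, A.LiesOverPrime ℓ →
      ∀ σ : GQ, A.IsFrobeniusAt σ ℓ →
        LinearMap.charpoly (ρ.ρ σ) = X ^ 2 - C ((W.apOfModel ℓ : ℤ) : O) * X + C (ℓ : O))
    (σ : GQ) (n : ℕ)
    (h_level : ∃ L : IntermediateField ℚ Qbar, FiniteDimensional ℚ L ∧
      ∀ σ : GQ, (∀ x ∈ L, σ x = x) → ∀ P : Pt W, lam ^ n • P = 0 → σ • P = P)
    (h_CH : ∀ {ℓ : ℕ} (_ : ℓ.Prime) (_ : W.IsGoodPrimeFor ℓ)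
      (A : ValuationSubring Qbar) (_ : A.LiesOverPrime ℓ) (φ : GQ) (_ : A.IsFrobeniusAt φ ℓ)
      {m : ℕ} (_ : ¬ ℓ ∣ m) (P : Pt W) (_ : m • P = 0),
      φ • φ • P - W.apOfModel ℓ • φ • P + (ℓ : ℤ) • P = 0) :
    ∃ (t : ℤ) (d : ℕ),
      LinearMap.trace O ρ.V (ρ.ρ σ) - (t : O) ∈ Ideal.span {(lam : O) ^ n} ∧
      LinearMap.det (ρ.ρ σ) - (d : O) ∈ Ideal.span {(lam : O) ^ n} ∧
      (∀ P : Pt W, lam ^ n • P = 0 → σ • σ • P - t • σ • P + (d : ℤ) • P = 0) ∧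
      (∀ ζ : Qbar, ζ ^ (lam ^ n) = 1 → σ ζ = ζ ^ d) := by
  obtain ⟨m, hm⟩ := exists_maximalIdeal_pow_le (O := O) lam hlam.ne_zero n
  obtain ⟨L₁, hL₁fd, hL₁⟩ := ρ.isAdicContinuous m
  obtain ⟨L₂, hL₂fd, hL₂⟩ := h_level
  have hpos : 0 < lam ^ n := pow_pos hlam.pos n
  obtain ⟨ζ₀, hζ₀⟩ := exists_primitiveRoot (lam ^ n) hpos
  have hζ₀int : IsIntegral ℚ ζ₀ := (hζ₀.isIntegral hpos).tower_top
  have hL₃fd : FiniteDimensional ℚ (IntermediateField.adjoin ℚ {ζ₀}) :=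
    IntermediateField.adjoin.finiteDimensional hζ₀int
  obtain ⟨ℓ, A, φ, -, b, hℓ, hℓS, hA, hφ, -, hb⟩ :=
    Fermat.Agent.Lib.FrobDensity.exists_frobenius_generator
      (L₁ ⊔ L₂ ⊔ IntermediateField.adjoin ℚ {ζ₀}) σ (T ∪ {lam} ∪ W.Δ.natAbs.primeFactors)
  simp only [Finset.mem_union, Finset.mem_singleton, not_or] at hℓS
  obtain ⟨⟨hℓT, hℓlam⟩, hℓΔ⟩ := hℓS
  have hgood : W.IsGoodPrimeFor ℓ := by
    intro hdvd
    apply hℓΔ
    rw [Nat.mem_primeFactors]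
    exact ⟨hℓ, Int.natCast_dvd.1 hdvd, Int.natAbs_ne_zero.2 hΔ⟩
  have hℓn : ¬ ℓ ∣ lam ^ n := by
    intro hdvd
    exact hℓlam ((Nat.prime_dvd_prime_iff_eq hℓ hlam).1 (hℓ.dvd_of_dvd_pow hdvd))
  -- `τ = σ⁻¹ φ^b` fixes `L`
  have hτ : ∀ x ∈ L₁ ⊔ L₂ ⊔ IntermediateField.adjoin ℚ {ζ₀}, (σ⁻¹ * φ ^ b) x = x := by
    intro x hx
    rw [AlgEquiv.mul_apply, hb x hx]
    exact σ.symm_apply_apply x
  have hφb : φ ^ b = σ * (σ⁻¹ * φ ^ b) := by group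
  have hτ₁ : ∀ x ∈ L₁, (σ⁻¹ * φ ^ b) x = x := fun x hx =>
    hτ x ((le_sup_left.trans le_sup_left : L₁ ≤ L₁ ⊔ L₂ ⊔ IntermediateField.adjoin ℚ {ζ₀}) hx)
  have hτ₂ : ∀ x ∈ L₂, (σ⁻¹ * φ ^ b) x = x := fun x hx =>
    hτ x ((le_sup_right.trans le_sup_left : L₂ ≤ L₁ ⊔ L₂ ⊔ IntermediateField.adjoin ℚ {ζ₀}) hx)
  have hcong : ∀ v : ρ.V, ρ.ρ σ v - ρ.ρ (φ ^ b) v ∈
      Ideal.span {(lam : O) ^ n} • (⊤ : Submodule O ρ.V) := by
    intro v
    have h1 := hL₁ _ hτ₁ v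
    have h2 := Transfer.map_mem_smul_top _ (ρ.ρ σ) (Submodule.smul_mono_left hm h1)
    have h3 : ρ.ρ σ v - ρ.ρ (φ ^ b) v = - (ρ.ρ σ) (ρ.ρ (σ⁻¹ * φ ^ b) v - v) := by
      conv_lhs => rw [hφb, map_mul]
      rw [map_sub, Module.End.mul_apply]
      abel
    rw [h3]
    exact Submodule.neg_mem _ h2
  obtain ⟨htr, hdet⟩ := trace_det_congr _ _ _ hcong
  obtain ⟨htr', hdet'⟩ := trace_pow_of_charpoly ρ.finrank_eq (ρ.ρ φ) _ _
    (hρ ℓ hℓ hℓT A hA φ hφ) b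
  rw [map_pow, htr'] at htr
  rw [map_pow, hdet'] at hdet
  have hσP : ∀ P : Pt W, lam ^ n • P = 0 → φ ^ b • P = σ • P := by
    intro P hP
    rw [hφb, mul_smul, hL₂ _ hτ₂ P hP]
  refine ⟨lucasV (W.apOfModel ℓ) (ℓ : ℤ) b, ℓ ^ b, ?_, ?_, ?_, ?_⟩
  · have h1 := map_lucasV (Int.castRingHom O) (W.apOfModel ℓ) (ℓ : ℤ) b
    simp only [eq_intCast, Int.cast_natCast] at h1
    rw [h1]
    exact htr
  · rw [Nat.cast_pow]
    exact hdet
  · intro P hP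
    have h1 := Transfer.pow_quadratic_smul φ (lam ^ n) (W.apOfModel ℓ) (ℓ : ℤ)
      (fun Q hQ => h_CH hℓ hgood A hA φ hφ hℓn Q hQ) b P hP
    have hσP' : lam ^ n • σ • P = 0 := by
      rw [smul_comm, hP]
      exact smul_zero (A := Pt W) σ
    rw [hσP P hP, hσP _ hσP'] at h1
    rw [Nat.cast_pow]
    exact h1
  · intro ζ hζ
    have : NeZero (lam ^ n) := ⟨hpos.ne'⟩
    obtain ⟨i, -, rfl⟩ := hζ₀.eq_pow_of_pow_eq_one hζ
    have hmem : ζ₀ ^ i ∈ L₁ ⊔ L₂ ⊔ IntermediateField.adjoin ℚ {ζ₀} :=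
      (le_sup_right : IntermediateField.adjoin ℚ {ζ₀} ≤ L₁ ⊔ L₂ ⊔ IntermediateField.adjoin ℚ {ζ₀})
        (pow_mem (IntermediateField.mem_adjoin_simple_self ℚ ζ₀) i)
    rw [← hb _ hmem]
    exact Transfer.frob_pow_zeta hℓ A hA φ hφ hℓn _ hζ b

end Fermat.Agent.S58
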