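import Mathlib
import Fermat.Agent.S58.Defs
import Fermat.Agent.S58.Dvr
import Fermat.Agent.S58.Lucas
import Fermat.Agent.S58.Zeta

/-!
# S58, TR2 (core): inertia at `q ≠ p` acts unipotently

The statement is parametrised by the conclusions of the transfer lemma (`htr`) and of the
existence of inertia-fixed points of exact order `p ^ n` (`hfix`), so that this file depends on
finished files only.
-/

set_option autoImplicit false
open Polynomial

namespace Fermat.Agent.S58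

/-- `ζ ^ d = ζ` for a primitive `m`-th root of unity forces `m ∣ d - 1`. -/
theorem Unipotent.dvd_sub_one_of_pow_eq {K : Type*} [Field K] {ζ : K} {m : ℕ} (hm : 0 < m)
    (hζ : IsPrimitiveRoot ζ m) {d : ℕ} (h : ζ ^ d = ζ) : (m : ℤ) ∣ (d : ℤ) - 1 := by
  have hζ0 : ζ ≠ 0 := hζ.ne_zero hm.ne'
  have h1 : ζ ^ ((d : ℤ) - 1) = 1 := by
    rw [zpow_sub₀ hζ0, zpow_natCast, zpow_one, h, div_self hζ0]
  exact (hζ.zpow_eq_one_iff_dvd _).mp h1

/-- The core of TR2: given the transfer data for `σ` at every level `p ^ n` and a `σ`-fixed point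
of exact order `p ^ n` for every `n`, together with `σ` acting trivially on `μ_{p ^ n}`, the
characteristic polynomial of `ρ σ` is `(X - 1) ^ 2`. -/
theorem Unipotent.charpoly_eq_of_data (W : WeierstrassCurve ℤ) {p : ℕ} (hp : p.Prime)
    {O : Type} [CommRing O] [IsDomain O] [IsDiscreteValuationRing O] [CharZero O]
    (hO : (p : O) ∈ IsLocalRing.maximalIdeal O) (ρ : GaloisRepAdic O) (σ : GQ)
    (htr : ∀ n : ℕ, ∃ (t : ℤ) (d : ℕ),
      LinearMap.trace O ρ.V (ρ.ρ σ) - (t : O) ∈ Ideal.span {(p : O) ^ n} ∧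
      LinearMap.det (ρ.ρ σ) - (d : O) ∈ Ideal.span {(p : O) ^ n} ∧
      (∀ P : Pt W, p ^ n • P = 0 → σ • σ • P - t • σ • P + (d : ℤ) • P = 0) ∧
      (∀ ζ : Qbar, ζ ^ (p ^ n) = 1 → σ ζ = ζ ^ d))
    (hfix : ∀ n : ℕ, ∃ P : Pt W, addOrderOf P = p ^ n ∧ σ • P = P)
    (hζ : ∀ (n : ℕ) (ζ : Qbar), ζ ^ (p ^ n) = 1 → σ ζ = ζ) :
    LinearMap.charpoly (ρ.ρ σ) = (X - 1) ^ 2 := by
  have key : ∀ n : ℕ, LinearMap.trace O ρ.V (ρ.ρ σ) - 2 ∈ Ideal.span {(p : O) ^ n} ∧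
      LinearMap.det (ρ.ρ σ) - 1 ∈ Ideal.span {(p : O) ^ n} := by
    intro n
    obtain ⟨t, d, ht, hd, hrel, hcyc⟩ := htr n
    have hpn : 0 < p ^ n := pow_pos hp.pos n
    -- `p ^ n ∣ d - 1`
    obtain ⟨ζ, hprim⟩ := exists_primitiveRoot (p ^ n) hpn
    have h1 : ζ ^ d = ζ := by
      rw [← hcyc ζ hprim.pow_eq_one, hζ n ζ hprim.pow_eq_one]
    have hd1 : ((p ^ n : ℕ) : ℤ) ∣ (d : ℤ) - 1 := Unipotent.dvd_sub_one_of_pow_eq hpn hprim h1
    -- `p ^ n ∣ 1 - t + d`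
    obtain ⟨P, hord, hσP⟩ := hfix n
    have hP0 : p ^ n • P = 0 := by
      rw [← hord]
      exact addOrderOf_nsmul_eq_zero P
    have h2 := hrel P hP0
    rw [hσP, hσP] at h2
    have h3 : (1 - t + (d : ℤ)) • P = 0 := by
      rw [add_zsmul, sub_zsmul, one_zsmul]
      exact h2
    have ht1 : ((p ^ n : ℕ) : ℤ) ∣ 1 - t + (d : ℤ) := by
      rw [← hord]
      exact addOrderOf_dvd_iff_zsmul_eq_zero.mpr h3
    have ht2 : ((p ^ n : ℕ) : ℤ) ∣ t - 2 := by
      have : t - 2 = ((d : ℤ) - 1) - (1 - t + (d : ℤ)) := by ring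
      rw [this]
      exact dvd_sub hd1 ht1
    have cast_mem : ∀ c : ℤ, ((p ^ n : ℕ) : ℤ) ∣ c → (c : O) ∈ Ideal.span {(p : O) ^ n} := by
      rintro c ⟨e, rfl⟩
      rw [Ideal.mem_span_singleton]
      exact ⟨(e : O), by push_cast; ring⟩
    constructor
    · have h4 := Ideal.add_mem _ ht (cast_mem _ ht2)
      have h5 : LinearMap.trace O ρ.V (ρ.ρ σ) - (t : O) + ((t - 2 : ℤ) : O)
          = LinearMap.trace O ρ.V (ρ.ρ σ) - 2 := by
        push_cast; ring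
      rwa [h5] at h4
    · have h4 := Ideal.add_mem _ hd (cast_mem _ hd1)
      have h5 : LinearMap.det (ρ.ρ σ) - (d : O) + (((d : ℤ) - 1 : ℤ) : O)
          = LinearMap.det (ρ.ρ σ) - 1 := by
        push_cast; ring
      rwa [h5] at h4
  have htrace : LinearMap.trace O ρ.V (ρ.ρ σ) = 2 :=
    sub_eq_zero.mp (eq_zero_of_forall_mem_span hO _ fun n => (key n).1)
  have hdet : LinearMap.det (ρ.ρ σ) = 1 :=
    sub_eq_zero.mp (eq_zero_of_forall_mem_span hO _ fun n => (key n).2)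
  rw [charpoly_eq_of_finrank_two ρ.finrank_eq (ρ.ρ σ), htrace, hdet]
  simp only [map_ofNat, map_one]
  ring

end Fermat.Agent.S58
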